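import Mathlib
import Fermat.Prelude.Def_FLTPrelim_Modularity

set_option autoImplicit false

namespace Fermat.Agent.S16

open ModularFormClass CongruenceSubgroup

/-- Sum of the divisors of `n` that are prime to `p`. -/
def sigmaP (p n : ℕ) : ℕ := ∑ d ∈ n.divisors.filter (fun d => ¬ p ∣ d), d

/-- There is a weight 2 cusp form on `Γ₀(p)` whose `n`-th coefficient is an integer congruent to
`sigmaP p n` modulo `m`, for all `n ≥ 1`. -/
def EisCong (p m : ℕ) : Prop :=
  ∃ f : CuspForm (Gamma0 p) 2, ∀ n : ℕ, 1 ≤ n →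
    ∃ b : ℤ, qCoeff f n = (((sigmaP p n : ℤ) + (m : ℤ) * b : ℤ) : ℂ)

end Fermat.Agent.S16
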