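import Mathlib
import Fermat.Agent.S16.Defs

set_option autoImplicit false

namespace Fermat.Agent.S16

theorem sigmaP_eq_sum (p n : ℕ) :
    sigmaP p n = ∑ d ∈ n.divisors, if p ∣ d then 0 else d := by
  unfold sigmaP
  rw [Finset.sum_filter]
  refine Finset.sum_congr rfl fun d _ => ?_
  by_cases h : p ∣ d <;> simp [h]

theorem sigmaP_one {p : ℕ} (hp : p.Prime) : sigmaP p 1 = 1 := by
  rw [sigmaP_eq_sum]
  simp [hp.one_lt.ne']

theorem sigmaP_zero (p : ℕ) : sigmaP p 0 = 0 := by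
  simp [sigmaP]

theorem sigmaP_mul_self {p : ℕ} (hp : p.Prime) (n : ℕ) : sigmaP p (n * p) = sigmaP p n := by
  rcases Nat.eq_zero_or_pos n with rfl | hn
  · simp
  unfold sigmaP
  congr 1
  ext d
  simp only [Finset.mem_filter, Nat.mem_divisors]
  constructor
  · rintro ⟨⟨h1, _⟩, h2⟩
    refine ⟨⟨?_, hn.ne'⟩, h2⟩
    exact (Nat.Coprime.dvd_mul_right ((Nat.Prime.coprime_iff_not_dvd hp).mpr h2).symm).mp h1
  · rintro ⟨⟨h1, _⟩, h2⟩
    exact ⟨⟨Dvd.dvd.mul_right h1 p, Nat.mul_ne_zero hn.ne' hp.ne_zero⟩, h2⟩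

theorem divisors_mul_prime {l : ℕ} (hl : l.Prime) (n : ℕ) :
    (n * l).divisors = n.divisors ∪ n.divisors.image (l * ·) := by
  rcases Nat.eq_zero_or_pos n with rfl | hn
  · simp
  ext d
  simp only [Nat.mem_divisors, Finset.mem_union, Finset.mem_image]
  constructor
  · rintro ⟨h1, _⟩
    by_cases hld : l ∣ d
    · obtain ⟨e, rfl⟩ := hld
      right
      refine ⟨e, ⟨?_, hn.ne'⟩, rfl⟩
      rw [mul_comm n l] at h1
      exact Nat.dvd_of_mul_dvd_mul_left hl.pos h1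
    · left
      refine ⟨?_, hn.ne'⟩
      exact (Nat.Coprime.dvd_mul_right ((Nat.Prime.coprime_iff_not_dvd hl).mpr hld).symm).mp h1
  · rintro (⟨h1, _⟩ | ⟨e, ⟨h1, _⟩, rfl⟩)
    · exact ⟨Dvd.dvd.mul_right h1 l, Nat.mul_ne_zero hn.ne' hl.ne_zero⟩
    · refine ⟨?_, Nat.mul_ne_zero hn.ne' hl.ne_zero⟩
      rw [mul_comm n l]
      exact Nat.mul_dvd_mul_left l h1

theorem divisors_inter_image {l : ℕ} (hl : l.Prime) (n : ℕ) :
    n.divisors ∩ n.divisors.image (l * ·) =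
      if l ∣ n then (n / l).divisors.image (l * ·) else ∅ := by
  rcases Nat.eq_zero_or_pos n with rfl | hn
  · simp
  split_ifs with h
  · obtain ⟨m, rfl⟩ := h
    have hm : 0 < m := Nat.pos_of_mul_pos_left hn
    rw [Nat.mul_div_cancel_left m hl.pos]
    ext d
    simp only [Finset.mem_inter, Nat.mem_divisors, Finset.mem_image]
    constructor
    · rintro ⟨⟨h1, _⟩, e, ⟨_, _⟩, rfl⟩
      exact ⟨e, ⟨Nat.dvd_of_mul_dvd_mul_left hl.pos h1, hm.ne'⟩, rfl⟩
    · rintro ⟨e, ⟨h1, _⟩, rfl⟩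
      exact ⟨⟨Nat.mul_dvd_mul_left l h1, hn.ne'⟩, e, ⟨Dvd.dvd.mul_left h1 l, hn.ne'⟩, rfl⟩
  · ext d
    simp only [Finset.mem_inter, Nat.mem_divisors, Finset.mem_image, Finset.notMem_empty,
      iff_false, not_and]
    rintro ⟨h1, _⟩ ⟨e, _, rfl⟩
    exact h (dvd_trans (Dvd.intro e rfl) h1)

theorem sum_image_mul {p l : ℕ} (hp : p.Prime) (hl : l.Prime) (hlp : l ≠ p) (s : Finset ℕ) :
    ∑ d ∈ s.image (l * ·), (if p ∣ d then 0 else d) = l * ∑ d ∈ s, (if p ∣ d then 0 else d) := by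
  rw [Finset.sum_image (fun a _ b _ h => Nat.eq_of_mul_eq_mul_left hl.pos h), Finset.mul_sum]
  refine Finset.sum_congr rfl fun d _ => ?_
  have : p ∣ l * d ↔ p ∣ d := by
    constructor
    · intro h
      rcases (Nat.Prime.dvd_mul hp).mp h with h | h
      · exact absurd ((Nat.prime_dvd_prime_iff_eq hp hl).mp h).symm hlp
      · exact h
    · intro h
      exact Dvd.dvd.mul_left h l
  by_cases h : p ∣ d <;> simp [this, h]

/-- The Hecke relation for `sigmaP` at a prime `l ≠ p`. -/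
theorem sigmaP_hecke {p l : ℕ} (hp : p.Prime) (hl : l.Prime) (hlp : l ≠ p) (n : ℕ) :
    sigmaP p (n * l) + (if l ∣ n then l * sigmaP p (n / l) else 0) = (1 + l) * sigmaP p n := by
  have h := Finset.sum_union_inter (s₁ := n.divisors) (s₂ := n.divisors.image (l * ·))
    (f := fun d => if p ∣ d then 0 else d)
  rw [← divisors_mul_prime hl, divisors_inter_image hl, sum_image_mul hp hl hlp] at h
  simp only [sigmaP_eq_sum]
  split_ifs at h ⊢ with hln
  · rw [sum_image_mul hp hl hlp] at h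
    rw [h]; ring
  · simp only [Finset.sum_empty] at h
    rw [h]; ring

end Fermat.Agent.S16
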