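import Mathlib
import Fermat.Prelude.Def_CuspForm_HeckeLocal
import Fermat.Prelude.Def_CuspForm_HeckeEvalForms
import Fermat.Prelude.Def_HeckeGalois_EichlerShimura
import Fermat.Prelude.Def_ModularCurve_ModularUnit
import Fermat.Agent.S49.QCoeff
import Fermat.Agent.S16.SigmaP

set_option autoImplicit false

namespace Fermat.Agent.S16

open ModularFormClass CongruenceSubgroup ModularCurve CuspForm

variable (p : ℕ) [Fact p.Prime]

/-- membership in the integral lattice means integral coefficients -/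
theorem exists_int_of_mem_intLattice {N : ℕ} {f : CuspForm (Gamma0 N) 2}
    (hf : f ∈ intLattice N 2) (n : ℕ) : ∃ m : ℤ, qCoeff f n = (m : ℂ) := by
  induction hf using Submodule.span_induction with
  | mem x hx => exact hx n
  | zero =>
    refine ⟨0, ?_⟩
    have := S49.qCoeff_smul (0 : ℂ) (0 : CuspForm (Gamma0 N) 2) n
    simpa using this
  | add x y _ _ hx hy =>
    obtain ⟨a, ha⟩ := hx
    obtain ⟨b, hb⟩ := hy
    exact ⟨a + b, by rw [S49.qCoeff_add, ha, hb]; push_cast; ring⟩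
  | smul c x _ hx =>
    obtain ⟨a, ha⟩ := hx
    refine ⟨c * a, ?_⟩
    have h : (c • x : CuspForm (Gamma0 N) 2) = (c : ℂ) • x := by
      rw [Int.cast_smul_eq_zsmul]
    rw [h, S49.qCoeff_smul, ha]; push_cast; ring

theorem mem_intLattice_of_int {N : ℕ} {f : CuspForm (Gamma0 N) 2}
    (hf : ∀ n : ℕ, ∃ m : ℤ, qCoeff f n = (m : ℂ)) : f ∈ intLattice N 2 :=
  Submodule.subset_span hf

/-- The `n`-th coefficient as an integer. -/
noncomputable def coeffZFun (N n : ℕ) (f : ↥(intLattice N 2)) : ℤ :=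
  (exists_int_of_mem_intLattice f.2 n).choose

theorem coeffZFun_spec (N n : ℕ) (f : ↥(intLattice N 2)) :
    qCoeff (f : CuspForm (Gamma0 N) 2) n = (coeffZFun N n f : ℂ) :=
  (exists_int_of_mem_intLattice f.2 n).choose_spec

/-- The `n`-th coefficient as a linear form on the lattice. -/
noncomputable def coeffZ (N n : ℕ) : ↥(intLattice N 2) →ₗ[ℤ] ℤ where
  toFun f := coeffZFun N n f
  map_add' f g := by
    have : ((coeffZFun N n (f + g) : ℤ) : ℂ) = ((coeffZFun N n f + coeffZFun N n g : ℤ) : ℂ) := by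
      rw [Int.cast_add, ← coeffZFun_spec, ← coeffZFun_spec, ← coeffZFun_spec]
      exact S49.qCoeff_add _ _ n
    exact_mod_cast this
  map_smul' c f := by
    have : ((coeffZFun N n (c • f) : ℤ) : ℂ) = ((c * coeffZFun N n f : ℤ) : ℂ) := by
      have h : ((c • f : ↥(intLattice N 2)) : CuspForm (Gamma0 N) 2) =
          (c : ℂ) • (f : CuspForm (Gamma0 N) 2) := by
        rw [Int.cast_smul_eq_zsmul]; rfl
      rw [Int.cast_mul, ← coeffZFun_spec, ← coeffZFun_spec, h, S49.qCoeff_smul]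
    have h2 : coeffZFun N n (c • f) = c * coeffZFun N n f := by exact_mod_cast this
    simpa using h2

theorem coeffZ_spec (N n : ℕ) (f : ↥(intLattice N 2)) :
    qCoeff (f : CuspForm (Gamma0 N) 2) n = (coeffZ N n f : ℂ) :=
  coeffZFun_spec N n f

theorem coeffZ_zero (N : ℕ) (f : ↥(intLattice N 2)) : coeffZ N 0 f = 0 := by
  have := coeffZ_spec N 0 f
  rw [S49.qCoeff_zero_index] at this
  exact_mod_cast this.symm

theorem eq_zero_of_coeffZ {N : ℕ} (f : ↥(intLattice N 2)) (h : ∀ n, 1 ≤ n → coeffZ N n f = 0) :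
    f = 0 := by
  apply Subtype.ext
  apply S49.eq_zero_of_qCoeff
  intro n
  rcases Nat.eq_zero_or_pos n with rfl | hn
  · exact S49.qCoeff_zero_index _
  · rw [coeffZ_spec, h n hn]; simp

/-- The ring hom from the abstract Hecke algebra to the lattice Hecke algebra. -/
noncomputable def phi : HeckeAlg →+* ↥(heckeLatticeAlgebra p ∅) :=
  (latticeRestrictHom p ∅).toRingHom.comp (heckeEvalForms p 2)

theorem coe_phi_apply (x : HeckeAlg) (f : ↥(intLattice p 2)) :
    (((phi p x : ↥(heckeLatticeAlgebra p ∅)) : Module.End ℤ ↥(intLattice p 2)) f :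
      CuspForm (Gamma0 p) 2) =
    ((heckeEvalForms p 2 x : ↥(heckeAlgebra p 2 ∅)) :
      Module.End ℂ (CuspForm (Gamma0 p) 2)) (f : CuspForm (Gamma0 p) 2) := rfl

theorem coeffZ_phi_X_of_ne (l : Nat.Primes) (hl : (l : ℕ) ≠ p) (f : ↥(intLattice p 2)) (n : ℕ) :
    coeffZ p n ((phi p (heckeGen l) : Module.End ℤ ↥(intLattice p 2)) f) =
      coeffZ p (n * l) f + if (l : ℕ) ∣ n then (l : ℤ) * coeffZ p (n / l) f else 0 := by
  have hnd : ¬ (l : ℕ) ∣ p := fun h =>
    hl ((Nat.prime_dvd_prime_iff_eq l.2 (Fact.out : p.Prime)).mp h)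
  have h1 := coeffZ_spec p n ((phi p (heckeGen l) : Module.End ℤ ↥(intLattice p 2)) f)
  rw [coe_phi_apply, heckeEvalForms_heckeGen_of_not_dvd hnd, heckeAlgebra.coe_T,
    S49.qCoeff_heckeTLin, coeffZ_spec, coeffZ_spec] at h1
  have : ((coeffZ p n ((phi p (heckeGen l) : Module.End ℤ ↥(intLattice p 2)) f) : ℤ) : ℂ) =
      ((coeffZ p (n * l) f + if (l : ℕ) ∣ n then (l : ℤ) * coeffZ p (n / l) f else 0 : ℤ) : ℂ) := by
    rw [← h1]
    split_ifs <;> push_cast <;> simp
  exact_mod_cast this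

theorem coeffZ_phi_X_self (l : Nat.Primes) (hl : (l : ℕ) = p) (f : ↥(intLattice p 2)) (n : ℕ) :
    coeffZ p n ((phi p (heckeGen l) : Module.End ℤ ↥(intLattice p 2)) f) =
      coeffZ p (n * p) f := by
  have hd : (l : ℕ) ∣ p := hl ▸ dvd_rfl
  have h1 := coeffZ_spec p n ((phi p (heckeGen l) : Module.End ℤ ↥(intLattice p 2)) f)
  rw [coe_phi_apply, heckeEvalForms_heckeGen_of_dvd hd, heckeAlgebra.coe_U,
    S49.qCoeff_heckeULin l.2.ne_zero, coeffZ_spec, hl] at h1
  exact_mod_cast h1.symm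

end Fermat.Agent.S16
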