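import Mathlib
import Fermat.Agent.S16.DuBasic

set_option autoImplicit false

namespace Fermat.Agent.S16

open ModularFormClass CongruenceSubgroup ModularCurve CuspForm

variable (p : ℕ) [Fact p.Prime]

/-- The lattice Hecke algebra. -/
abbrev TT : Type := ↥(heckeLatticeAlgebra p ∅)
/-- The lattice of cusp forms with integral coefficients. -/
abbrev LL : Type := ↥(intLattice p 2)

/-- Evaluation of the abstract Hecke algebra at the Eisenstein system. -/
noncomputable def ev : HeckeAlg →ₐ[ℤ] ℤ := MvPolynomial.aeval (eisensteinSystem p)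

theorem coe_mul_apply (s t : TT p) (f : LL p) :
    ((s * t : TT p) : Module.End ℤ (LL p)) f = (s : Module.End ℤ (LL p)) ((t : Module.End ℤ (LL p)) f) := rfl

theorem eis_cast_of_ne (N : ℕ) (l : Nat.Primes) (hl : (l : ℕ) ≠ p) :
    ((eisensteinSystem p l : ℤ) : ZMod N) = 1 + ((l : ℕ) : ZMod N) := by
  have hnd : ¬ (l : ℕ) ∣ p := fun h =>
    hl ((Nat.prime_dvd_prime_iff_eq l.2 (Fact.out : p.Prime)).mp h)
  rw [eisensteinSystem_of_not_dvd hnd]; push_cast; ring

theorem eis_cast_self (N : ℕ) (l : Nat.Primes) (hl : (l : ℕ) = p) :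
    ((eisensteinSystem p l : ℤ) : ZMod N) = 1 := by
  have hd : (l : ℕ) ∣ p := hl ▸ dvd_rfl
  rw [eisensteinSystem_of_dvd hd]; push_cast; ring

theorem coeff_ind (N : ℕ) (ψ : TT p → ZMod N)
    (hψ : ∀ (l : Nat.Primes) (t : TT p),
      ψ (phi p (heckeGen l) * t) = ((eisensteinSystem p l : ℤ) : ZMod N) * ψ t)
    (f : LL p) (h1 : ∀ t : TT p, ((coeffZ p 1 ((t : Module.End ℤ (LL p)) f) : ℤ) : ZMod N) = ψ t) :
    ∀ n, 1 ≤ n → ∀ t : TT p,
      ((coeffZ p n ((t : Module.End ℤ (LL p)) f) : ℤ) : ZMod N) = ψ t * ((sigmaP p n : ℕ) : ZMod N) := by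
  have hp : p.Prime := Fact.out
  intro n
  induction n using Nat.strong_induction_on with
  | _ n ih =>
    intro hn t
    rcases eq_or_lt_of_le hn with rfl | hn1
    · rw [h1, sigmaP_one hp]; simp
    have hl : n.minFac.Prime := Nat.minFac_prime (by omega)
    obtain ⟨n', hn'⟩ : ∃ n', n = n' * n.minFac := ⟨n / n.minFac, (Nat.div_mul_cancel (Nat.minFac_dvd n)).symm⟩
    set l := n.minFac with hldef
    have hn'pos : 1 ≤ n' := by
      rcases Nat.eq_zero_or_pos n' with h | h
      · rw [h] at hn'; omega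
      · exact h
    have hn'lt : n' < n := by
      rw [hn']; exact lt_mul_of_one_lt_right hn'pos hl.one_lt
    by_cases hlp : l = p
    · have key := coeffZ_phi_X_self p ⟨l, hl⟩ hlp ((t : Module.End ℤ (LL p)) f) n'
      rw [← coe_mul_apply] at key
      have ihC := ih n' hn'lt hn'pos (phi p (heckeGen ⟨l, hl⟩) * t)
      rw [hψ, eis_cast_self p N ⟨l, hl⟩ hlp, key] at ihC
      rw [hn', hlp, ihC, sigmaP_mul_self hp]; ring
    · have key := coeffZ_phi_X_of_ne p ⟨l, hl⟩ hlp ((t : Module.End ℤ (LL p)) f) n'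
      rw [← coe_mul_apply] at key
      have ihC := ih n' hn'lt hn'pos (phi p (heckeGen ⟨l, hl⟩) * t)
      rw [hψ, eis_cast_of_ne p N ⟨l, hl⟩ hlp, key] at ihC
      have ar := sigmaP_hecke hp hl hlp n'
      have ar' := congrArg (Nat.cast : ℕ → ZMod N) ar
      simp only at ihC
      rw [hn']
      by_cases hd : l ∣ n'
      · have h2pos : 1 ≤ n' / l := Nat.div_pos (Nat.le_of_dvd hn'pos hd) hl.pos
        have h2lt : n' / l < n := lt_of_le_of_lt (Nat.div_le_self _ _) hn'lt
        have ihB := ih (n' / l) h2lt h2pos t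
        rw [if_pos hd] at ihC ar'
        push_cast at ihC ar'
        linear_combination ihC - (l : ZMod N) * ihB - ψ t * ar'
      · rw [if_neg hd] at ihC ar'
        push_cast at ihC ar'
        linear_combination ihC - ψ t * ar'

theorem phi_C_apply (a : ℤ) (g : LL p) :
    (phi p (MvPolynomial.C a) : Module.End ℤ (LL p)) g = a • g := by
  have : (MvPolynomial.C a : HeckeAlg) = (a : HeckeAlg) := eq_intCast MvPolynomial.C a
  rw [this, map_intCast]
  simp

theorem coeff_phi_of_cong (N : ℕ) (x : HeckeAlg) :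
    ∀ (g : LL p) (c : ZMod N),
      (∀ n, 1 ≤ n → ((coeffZ p n g : ℤ) : ZMod N) = c * ((sigmaP p n : ℕ) : ZMod N)) →
      ∀ n, 1 ≤ n → ((coeffZ p n ((phi p x : Module.End ℤ (LL p)) g) : ℤ) : ZMod N) =
        ((ev p x : ℤ) : ZMod N) * c * ((sigmaP p n : ℕ) : ZMod N) := by
  have hp : p.Prime := Fact.out
  induction x using MvPolynomial.induction_on with
  | C a =>
    intro g c hg n hn
    rw [phi_C_apply, map_smul, smul_eq_mul]
    have : ev p (MvPolynomial.C a) = a := by simp [ev]
    rw [this]; push_cast; rw [hg n hn]; ring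
  | add x y hx hy =>
    intro g c hg n hn
    rw [map_add, map_add, Subalgebra.coe_add, LinearMap.add_apply, map_add]
    push_cast
    rw [hx g c hg n hn, hy g c hg n hn]; ring
  | mul_X x l hx =>
    intro g c hg n hn
    rw [map_mul, map_mul, coe_mul_apply]
    have hev : ev p (MvPolynomial.X l) = eisensteinSystem p l := by simp [ev]
    rw [hev]
    have hg' : ∀ n, 1 ≤ n →
        ((coeffZ p n ((phi p (MvPolynomial.X l) : Module.End ℤ (LL p)) g) : ℤ) : ZMod N) =
          (((eisensteinSystem p l : ℤ) : ZMod N) * c) * ((sigmaP p n : ℕ) : ZMod N) := by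
      intro n hn
      by_cases hlp : (l : ℕ) = p
      · have key := coeffZ_phi_X_self p l hlp g n
        change coeffZ p n ((phi p (MvPolynomial.X l) : Module.End ℤ (LL p)) g) = _ at key
        rw [key, eis_cast_self p N l hlp, hg (n * p) (Nat.mul_pos hn hp.pos), sigmaP_mul_self hp]
        ring
      · have key := coeffZ_phi_X_of_ne p l hlp g n
        change coeffZ p n ((phi p (MvPolynomial.X l) : Module.End ℤ (LL p)) g) = _ at key
        rw [key, eis_cast_of_ne p N l hlp]
        have ar := sigmaP_hecke hp l.2 hlp n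
        have ar' := congrArg (Nat.cast : ℕ → ZMod N) ar
        have hA := hg (n * l) (Nat.mul_pos hn l.2.pos)
        by_cases hd : (l : ℕ) ∣ n
        · have h2pos : 1 ≤ n / l := Nat.div_pos (Nat.le_of_dvd hn hd) l.2.pos
          have hB := hg (n / l) h2pos
          rw [if_pos hd] at ar' ⊢
          push_cast at ar' ⊢
          linear_combination hA + ((l : ℕ) : ZMod N) * hB + c * ar'
        · rw [if_neg hd] at ar' ⊢
          push_cast at ar' ⊢
          linear_combination hA + c * ar'
    have := hx _ _ hg' n hn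
    rw [this]; push_cast; ring

end Fermat.Agent.S16
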