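import Mathlib
import Fermat.Agent.S16.DuInd

set_option autoImplicit false

namespace Fermat.Agent.S16

open ModularFormClass CongruenceSubgroup ModularCurve CuspForm

theorem exists_smul_mem_range {R M M' : Type} [CommRing R] [IsDomain R] [AddCommGroup M]
    [AddCommGroup M'] [Module R M] [Module R M'] [Module.Finite R M'] (u : M →ₗ[R] M')
    (hu : Function.Injective u) (hr : Module.finrank R M' ≤ Module.finrank R M) (y : M') :
    ∃ a : R, a ≠ 0 ∧ a • y ∈ LinearMap.range u := by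
  have h1 := Submodule.finrank_quotient_add_finrank (LinearMap.range u)
  rw [LinearMap.finrank_range_of_inj hu] at h1
  have h0 : Module.finrank R (M' ⧸ LinearMap.range u) = 0 := by omega
  obtain ⟨a, ha, hay⟩ := Module.finrank_eq_zero_iff.mp h0 (Submodule.Quotient.mk y)
  refine ⟨a, ha, ?_⟩
  rw [← Submodule.Quotient.mk_smul] at hay
  exact (Submodule.Quotient.mk_eq_zero _).mp hay

variable (p : ℕ) [Fact p.Prime]

theorem heckeEvalForms_surjective : Function.Surjective (heckeEvalForms p 2) := by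
  have hp : p.Prime := Fact.out
  have h1 : Algebra.adjoin ℤ (Set.range (heckeFormsGen p 2)) = ⊤ := by
    have h0 : Algebra.adjoin ℤ (((↑) : ↥(heckeAlgebra p 2 ∅) → _) ⁻¹' (heckeGenerators p 2 ∅)) = ⊤ :=
      Algebra.adjoin_adjoin_coe_preimage (R := ℤ) (s := heckeGenerators p 2 ∅)
    rw [eq_top_iff, ← h0]
    apply Algebra.adjoin_mono
    rintro ⟨T, hT⟩ hT'
    rcases hT' with ⟨l, hl, hlN, -, h⟩ | ⟨q, hqN, hq, -, h⟩
    · refine ⟨⟨l, hl⟩, ?_⟩
      rw [heckeFormsGen_of_not_dvd (show ¬ ((⟨l, hl⟩ : Nat.Primes) : ℕ) ∣ p from hlN)]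
      exact Subtype.ext h.symm
    · refine ⟨⟨q, hq⟩, ?_⟩
      rw [heckeFormsGen_of_dvd (show ((⟨q, hq⟩ : Nat.Primes) : ℕ) ∣ p from hqN)]
      exact Subtype.ext h.symm
  rw [Algebra.adjoin_range_eq_range_aeval] at h1
  intro y
  have : y ∈ (MvPolynomial.aeval (R := ℤ) (heckeFormsGen p 2)).range := h1 ▸ Algebra.mem_top
  obtain ⟨x, hx⟩ := this
  exact ⟨x, hx⟩

theorem phi_surjective : Function.Surjective (phi p) :=
  (latticeRestrictHom_surjective p ∅).comp (heckeEvalForms_surjective p)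

/-- The pairing `(f, t) ↦ a₁(t f)`. -/
noncomputable def pairing : LL p →ₗ[ℤ] TT p →ₗ[ℤ] ℤ :=
  LinearMap.mk₂ ℤ (fun f t => coeffZ p 1 ((t : Module.End ℤ (LL p)) f))
    (by intro f g t; simp) (by intro c f t; simp)
    (by intro f s t; simp [Subalgebra.coe_add]) (by intro c f t; simp)

theorem pairing_apply (f : LL p) (t : TT p) :
    pairing p f t = coeffZ p 1 ((t : Module.End ℤ (LL p)) f) := rfl

theorem dvd_coeff_of_dvd_pairing (N : ℕ) (f : LL p) (h : ∀ t, (N : ℤ) ∣ pairing p f t) :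
    ∀ n, 1 ≤ n → (N : ℤ) ∣ coeffZ p n f := by
  intro n hn
  have := coeff_ind p N (fun _ => 0) (by intro l t; simp) f
    (by intro t; exact (ZMod.intCast_zmod_eq_zero_iff_dvd _ _).mpr (h t)) n hn 1
  apply (ZMod.intCast_zmod_eq_zero_iff_dvd _ _).mp
  simpa using this

theorem pairing_injective : Function.Injective (pairing p) := by
  rw [injective_iff_map_eq_zero]
  intro f hf
  apply eq_zero_of_coeffZ
  intro n hn
  have := dvd_coeff_of_dvd_pairing p 0 f (by intro t; rw [hf]; simp) n hn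
  simpa using this

theorem pairing_flip_injective : Function.Injective (pairing p).flip := by
  rw [injective_iff_map_eq_zero]
  intro t ht
  apply Subtype.ext
  apply LinearMap.ext
  intro f
  apply pairing_injective p
  have h0 : ((0 : TT p) : Module.End ℤ (LL p)) f = 0 := rfl
  rw [h0, map_zero]
  apply LinearMap.ext
  intro t'
  have h1 : pairing p ((t : Module.End ℤ (LL p)) f) t' =
      (pairing p).flip t ((t' : Module.End ℤ (LL p)) f) := by
    rw [LinearMap.flip_apply, pairing_apply, pairing_apply, ← coe_mul_apply, ← coe_mul_apply,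
      mul_comm]
  rw [h1, ht]; simp

theorem exists_eq_smul (a : ℤ) (ha : a ≠ 0) (f : LL p)
    (h : ∀ n, 1 ≤ n → a ∣ coeffZ p n f) : ∃ f' : LL p, f = a • f' := by
  have haC : (a : ℂ) ≠ 0 := by exact_mod_cast ha
  have hmem : ((a : ℂ)⁻¹ • (f : CuspForm (Gamma0 p) 2)) ∈ intLattice p 2 := by
    apply mem_intLattice_of_int
    intro n
    rw [S49.qCoeff_smul]
    rcases Nat.eq_zero_or_pos n with rfl | hn
    · exact ⟨0, by rw [S49.qCoeff_zero_index]; simp⟩
    · obtain ⟨b, hb⟩ := h n hn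
      refine ⟨b, ?_⟩
      rw [coeffZ_spec, hb]; push_cast; field_simp
  refine ⟨⟨_, hmem⟩, ?_⟩
  apply Subtype.ext
  show (f : CuspForm (Gamma0 p) 2) = a • ((a : ℂ)⁻¹ • (f : CuspForm (Gamma0 p) 2))
  rw [← Int.cast_smul_eq_zsmul ℂ, smul_smul, mul_inv_cancel₀ haC, one_smul]

theorem pairing_surjective : Function.Surjective (pairing p) := by
  haveI := intLattice.moduleFinite p
  haveI := intLattice.moduleFree p
  intro lam
  have h1 : Module.finrank ℤ (TT p) ≤ Module.finrank ℤ (LL p) := by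
    have := LinearMap.finrank_le_finrank_of_injective (pairing_flip_injective p)
    rwa [Module.finrank_linearMap_self] at this
  have h2 : Module.finrank ℤ (TT p →ₗ[ℤ] ℤ) ≤ Module.finrank ℤ (LL p) := by
    rwa [Module.finrank_linearMap_self]
  obtain ⟨a, ha, f, hf⟩ := exists_smul_mem_range (pairing p) (pairing_injective p) h2 lam
  have hdvd : ∀ n, 1 ≤ n → a ∣ coeffZ p n f := by
    intro n hn
    have := dvd_coeff_of_dvd_pairing p a.natAbs f (by
      intro t
      rw [hf, Int.natAbs_dvd]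
      exact ⟨lam t, by simp⟩) n hn
    exact Int.natAbs_dvd.mp this
  obtain ⟨f', rfl⟩ := exists_eq_smul p a ha f hdvd
  refine ⟨f', ?_⟩
  apply LinearMap.ext
  intro t
  have := LinearMap.congr_fun hf t
  rw [map_smul] at this
  simp only [LinearMap.smul_apply, smul_eq_mul] at this
  exact mul_left_cancel₀ ha this

theorem mk_phi (x : HeckeAlg) :
    Ideal.Quotient.mk (Ideal.map (phi p) (eisensteinIdeal p)) (phi p x) =
      ((ev p x : ℤ) : TT p ⧸ Ideal.map (phi p) (eisensteinIdeal p)) := by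
  have hmem : x - MvPolynomial.C (ev p x) ∈ eisensteinIdeal p := by
    rw [eisensteinIdeal, mem_eigenIdeal_iff, map_sub, MvPolynomial.aeval_C]
    simp [ev]
  have h2 := Ideal.mem_map_of_mem (phi p) hmem
  rw [map_sub, ← Ideal.Quotient.eq] at h2
  rw [h2]
  have : (MvPolynomial.C (ev p x) : HeckeAlg) = ((ev p x : ℤ) : HeckeAlg) :=
    eq_intCast MvPolynomial.C _
  rw [this, map_intCast, map_intCast]

/-- An integral cusp form as an element of the lattice, from a congruence. -/
theorem EisCong.exists_lattice {m : ℕ} (h : EisCong p m) :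
    ∃ g : LL p, ∀ n, 1 ≤ n → ((coeffZ p n g : ℤ) : ZMod m) = ((sigmaP p n : ℕ) : ZMod m) := by
  obtain ⟨f, hf⟩ := h
  have hmem : f ∈ intLattice p 2 := by
    apply mem_intLattice_of_int
    intro n
    rcases Nat.eq_zero_or_pos n with rfl | hn
    · exact ⟨0, by rw [S49.qCoeff_zero_index]; simp⟩
    · obtain ⟨b, hb⟩ := hf n hn
      exact ⟨_, hb⟩
  refine ⟨⟨f, hmem⟩, ?_⟩
  intro n hn
  obtain ⟨b, hb⟩ := hf n hn
  have h1 := coeffZ_spec p n ⟨f, hmem⟩
  rw [show ((⟨f, hmem⟩ : LL p) : CuspForm (Gamma0 p) 2) = f from rfl, hb] at h1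
  have h2 : coeffZ p n ⟨f, hmem⟩ = (sigmaP p n : ℤ) + (m : ℤ) * b := by exact_mod_cast h1.symm
  rw [h2]; push_cast; simp

theorem dvd_ev_of_phi_eq_zero {m : ℕ} (h : EisCong p m) (y : HeckeAlg) (hy : phi p y = 0) :
    (m : ℤ) ∣ ev p y := by
  have hp : p.Prime := Fact.out
  obtain ⟨g, hg⟩ := h.exists_lattice p
  have := coeff_phi_of_cong p m y g 1 (by intro n hn; rw [hg n hn, one_mul]) 1 le_rfl
  rw [hy, sigmaP_one hp] at this
  apply (ZMod.intCast_zmod_eq_zero_iff_dvd _ _).mp
  simpa using this.symm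

/-- The quotient is `ℤ/m`, the Eisenstein congruence holds modulo `m`, and `m` lies in the ideal. -/
theorem exists_card_eq :
    ∃ m : ℕ, Nat.card (TT p ⧸ Ideal.map (phi p) (eisensteinIdeal p)) = m ∧ EisCong p m ∧
      ((m : ℤ) : TT p) ∈ Ideal.map (phi p) (eisensteinIdeal p) := by
  set I := Ideal.map (phi p) (eisensteinIdeal p) with hI
  let π : ℤ →+* TT p ⧸ I := Int.castRingHom _
  have hπ : Function.Surjective π := by
    intro y
    obtain ⟨t, rfl⟩ := Ideal.Quotient.mk_surjective y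
    obtain ⟨x, rfl⟩ := phi_surjective p t
    exact ⟨ev p x, by rw [mk_phi]; rfl⟩
  obtain ⟨m, hm⟩ : ∃ m : ℕ, RingHom.ker π = Ideal.span {(m : ℤ)} := by
    obtain ⟨g, hg⟩ := (IsPrincipalIdealRing.principal (RingHom.ker π)).principal
    refine ⟨g.natAbs, ?_⟩
    rw [Int.span_natAbs]; exact hg
  let e : (TT p ⧸ I) ≃+* ZMod m :=
    (RingHom.quotientKerEquivOfSurjective hπ).symm.trans
      ((Ideal.quotEquivOfEq hm).trans (Int.quotientSpanNatEquivZMod m))
  refine ⟨m, by rw [Nat.card_congr e.toEquiv, Nat.card_zmod], ?_, ?_⟩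
  · let ψ : TT p →+* ZMod m := (e : (TT p ⧸ I) →+* ZMod m).comp (Ideal.Quotient.mk I)
    have hψ : ∀ (l : Nat.Primes) (t : TT p),
        ψ (phi p (heckeGen l) * t) = ((eisensteinSystem p l : ℤ) : ZMod m) * ψ t := by
      intro l t
      rw [map_mul]
      congr 1
      show e (Ideal.Quotient.mk I (phi p (heckeGen l))) = _
      rw [mk_phi, map_intCast]
      simp [ev]
    obtain ⟨h, hh⟩ := Module.projective_lifting_property
      (Int.castAddHom (ZMod m)).toIntLinearMap ψ.toAddMonoidHom.toIntLinearMap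
      (by intro x; exact ZMod.intCast_surjective x)
    obtain ⟨f, hf⟩ := pairing_surjective p h
    have h1 : ∀ t : TT p, ((coeffZ p 1 ((t : Module.End ℤ (LL p)) f) : ℤ) : ZMod m) = ψ t := by
      intro t
      rw [← pairing_apply, hf]
      exact LinearMap.congr_fun hh t
    refine ⟨(f : CuspForm (Gamma0 p) 2), ?_⟩
    intro n hn
    have h2 := coeff_ind p m ψ hψ f h1 n hn 1
    rw [map_one, one_mul] at h2
    have h3 : ((coeffZ p n f : ℤ) : ZMod m) = (((sigmaP p n : ℕ) : ℤ) : ZMod m) := by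
      simpa using h2
    obtain ⟨b, hb⟩ := (ZMod.intCast_eq_intCast_iff_dvd_sub _ _ _).mp h3.symm
    refine ⟨b, ?_⟩
    rw [coeffZ_spec, ← hb]; push_cast; ring
  · have : (m : ℤ) ∈ RingHom.ker π := by rw [hm]; exact Ideal.mem_span_singleton_self _
    rw [RingHom.mem_ker] at this
    apply Ideal.Quotient.eq_zero_iff_mem.mp
    rw [map_intCast]; exact this

/-- Every modulus of an Eisenstein congruence divides every integer of the Eisenstein ideal. -/
theorem EisCong.dvd_of_mem {m' : ℕ} (h : EisCong p m') (m : ℤ)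
    (hmI : (m : TT p) ∈ Ideal.map (phi p) (eisensteinIdeal p)) : (m' : ℤ) ∣ m := by
  obtain ⟨x, hx, hxm⟩ := (Ideal.mem_map_iff_of_surjective (phi p) (phi_surjective p)).mp hmI
  have hy : phi p (x - MvPolynomial.C (m : ℤ)) = 0 := by
    have : (MvPolynomial.C (m : ℤ) : HeckeAlg) = ((m : ℤ) : HeckeAlg) :=
      eq_intCast MvPolynomial.C _
    rw [map_sub, hxm, this, map_intCast, sub_self]
  have := dvd_ev_of_phi_eq_zero p h _ hy
  have hevx : ev p x = 0 := by
    rw [eisensteinIdeal, mem_eigenIdeal_iff] at hx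
    exact hx
  rw [map_sub, hevx] at this
  have hC : ev p (MvPolynomial.C (m : ℤ)) = m := by simp [ev]
  rwa [hC, zero_sub, dvd_neg] at this

/-- **Duality reduction.** -/
theorem card_eq_of_eisCong (n₀ : ℕ) (H1 : EisCong p n₀) (H2 : ∀ m, EisCong p m → m ∣ n₀) :
    Nat.card (TT p ⧸ Ideal.map (phi p) (eisensteinIdeal p)) = n₀ := by
  obtain ⟨m, hcard, hm, hmI⟩ := exists_card_eq p
  rw [hcard]
  apply Nat.dvd_antisymm (H2 m hm)
  exact_mod_cast H1.dvd_of_mem p m hmI

end Fermat.Agent.S16
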