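import Mathlib
import Fermat.Agent.S16.Du
import Fermat.Agent.IntStruct.RatSpan

set_option autoImplicit false

namespace Fermat.Agent.S16

open ModularFormClass CongruenceSubgroup ModularCurve CuspForm

variable (p : ℕ) [Fact p.Prime]

/-- The Eisenstein ideal of the abstract Hecke algebra is generated by the `X_l - a_l`. -/
theorem eisensteinIdeal_eq_span :
    eisensteinIdeal p =
      Ideal.span (Set.range fun l : Nat.Primes =>
        (heckeGen l - MvPolynomial.C (eisensteinSystem p l) : HeckeAlg)) := by
  apply le_antisymm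
  · intro x hx
    have key : ∀ y : HeckeAlg, y - MvPolynomial.C (ev p y) ∈
        Ideal.span (Set.range fun l : Nat.Primes =>
          (heckeGen l - MvPolynomial.C (eisensteinSystem p l) : HeckeAlg)) := by
      intro y
      induction y using MvPolynomial.induction_on with
      | C a => simp [ev]
      | add y z hy hz =>
        have : y + z - MvPolynomial.C (ev p (y + z)) =
            (y - MvPolynomial.C (ev p y)) + (z - MvPolynomial.C (ev p z)) := by
          rw [map_add, map_add]; ring
        rw [this]; exact Ideal.add_mem _ hy hz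
      | mul_X y l hy =>
        have hev : ev p (MvPolynomial.X l) = eisensteinSystem p l := by simp [ev]
        have : y * MvPolynomial.X l - MvPolynomial.C (ev p (y * MvPolynomial.X l)) =
            (y - MvPolynomial.C (ev p y)) * MvPolynomial.X l +
              MvPolynomial.C (ev p y) * (heckeGen l - MvPolynomial.C (eisensteinSystem p l)) := by
          rw [map_mul, hev, map_mul, heckeGen]; ring
        rw [this]
        exact Ideal.add_mem _ (Ideal.mul_mem_right _ _ hy)
          (Ideal.mul_mem_left _ _ (Ideal.subset_span ⟨l, rfl⟩))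
    have h0 : ev p x = 0 := by
      rw [eisensteinIdeal, mem_eigenIdeal_iff] at hx; exact hx
    have := key x
    rwa [h0, map_zero, sub_zero] at this
  · rw [Ideal.span_le]
    rintro _ ⟨l, rfl⟩
    exact heckeGen_sub_mem_eigenIdeal _ l _ rfl

theorem map_heckeEvalForms_eisensteinIdeal :
    Ideal.map (heckeEvalForms p 2) (eisensteinIdeal p) =
      Ideal.span (Set.range fun l : Nat.Primes =>
        (heckeFormsGen p 2 l - ((eisensteinSystem p l : ℤ) : ↥(heckeAlgebra p 2 ∅)))) := by
  rw [eisensteinIdeal_eq_span, Ideal.map_span, ← Set.range_comp]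
  congr 2
  funext l
  simp only [Function.comp_apply, map_sub, heckeEvalForms_heckeGen, heckeEvalForms_C]
  simp

/-- An integer in the lattice Eisenstein ideal already lies in the Eisenstein ideal of the
Hecke algebra acting on cusp forms. -/
theorem mem_map_heckeEvalForms_of_mem (m : ℤ)
    (h : (m : TT p) ∈ Ideal.map (phi p) (eisensteinIdeal p)) :
    (m : ↥(heckeAlgebra p 2 ∅)) ∈ Ideal.map (heckeEvalForms p 2) (eisensteinIdeal p) := by
  obtain ⟨x, hx, hxm⟩ := (Ideal.mem_map_iff_of_surjective (phi p) (phi_surjective p)).mp h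
  have hinj := (latticeRestrictHom_bijective p ∅ (IntStruct.hasIntegralStructure p 2)).1
  have : heckeEvalForms p 2 x = (m : ↥(heckeAlgebra p 2 ∅)) := by
    apply hinj
    rw [map_intCast]
    exact hxm
  rw [← this]
  exact Ideal.mem_map_of_mem _ hx

/-- **Final reduction** with the lower bound stated on the Hecke algebra of cusp forms. -/
theorem card_eq_of_lower_upper (n₀ : ℕ)
    (Hlow : ∀ m : ℤ, (m : ↥(heckeAlgebra p 2 ∅)) ∈
      Ideal.map (heckeEvalForms p 2) (eisensteinIdeal p) → (n₀ : ℤ) ∣ m)
    (Hup : ∀ m, EisCong p m → m ∣ n₀) :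
    Nat.card (TT p ⧸ Ideal.map (phi p) (eisensteinIdeal p)) = n₀ := by
  obtain ⟨m, hcard, hm, hmI⟩ := exists_card_eq p
  rw [hcard]
  apply Nat.dvd_antisymm (Hup m hm)
  exact_mod_cast Hlow m (mem_map_heckeEvalForms_of_mem p m hmI)

end Fermat.Agent.S16
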