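import Mathlib
import Fermat.Prelude.Def_ModularCurve_PeriodHomPair

/-!
# S16, lower bound: definitions of the Hecke coset data
-/

set_option autoImplicit false

open scoped MatrixGroups
open CongruenceSubgroup ModularCurve.Period

namespace Fermat.Agent.S16.Lower

/-- `[[1, j], [0, ℓ]]`. -/
def matU (ℓ j : ℕ) : Matrix (Fin 2) (Fin 2) ℤ := !![1, (j : ℤ); 0, (ℓ : ℤ)]

/-- `[[ℓ, 0], [0, 1]]`. -/
def matD (ℓ : ℕ) : Matrix (Fin 2) (Fin 2) ℤ := !![(ℓ : ℤ), 0; 0, 1]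

/-- The `ℓ + 1` representatives for `T_ℓ`. -/
def matT (ℓ : ℕ) : Option (Fin ℓ) → Matrix (Fin 2) (Fin 2) ℤ
  | none => matD ℓ
  | some j => matU ℓ j

/-- The `ℓ` representatives for `U_ℓ`. -/
def matUF (ℓ : ℕ) : Fin ℓ → Matrix (Fin 2) (Fin 2) ℤ := fun j => matU ℓ j

/-- Hecke data for `γ` with respect to the family of integer matrices `M`. -/
structure HData (N : ℕ) {ι : Type} (M : ι → Matrix (Fin 2) (Fin 2) ℤ) (γ : Gamma0 N) where
  σ : Equiv.Perm ι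
  δ : ι → Gamma0 N
  rel : ∀ i, M i * ((γ : SL(2, ℤ)) : Matrix (Fin 2) (Fin 2) ℤ) =
    ((δ i : SL(2, ℤ)) : Matrix (Fin 2) (Fin 2) ℤ) * M (σ i)

end Fermat.Agent.S16.Lower
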