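import Mathlib
import Fermat.Prelude.Def_ModularCurve_PeriodHomPair
import Fermat.Agent.S16.LDefs

/-!
# S16, lower bound, piece L-A3: conjugating Hecke coset data by `diag(1,-1)`
-/

set_option autoImplicit false

open scoped MatrixGroups
open CongruenceSubgroup ModularCurve.Period

namespace Fermat.Agent.S16.Lower

namespace ConjAux

/-- `T` as an element of `Γ₀(N)`. -/
def gTN (N : ℕ) : Gamma0 N := ⟨ModularGroup.T, by rw [Gamma0_mem]; simp [ModularGroup.T]⟩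

theorem coe_gTN_zpow (N : ℕ) (n : ℤ) :
    (((gTN N ^ n : Gamma0 N) : SL(2, ℤ)) : Matrix (Fin 2) (Fin 2) ℤ) = !![1, n; 0, 1] := by
  rw [Subgroup.coe_zpow]
  exact ModularGroup.coe_T_zpow n

theorem tmat_mul (a b : ℤ) :
    (!![1, a; 0, 1] : Matrix (Fin 2) (Fin 2) ℤ) * !![1, b; 0, 1] = !![1, a + b; 0, 1] := by
  ext i j
  fin_cases i <;> fin_cases j <;> simp [Matrix.mul_apply, Fin.sum_univ_two]
  ring

theorem exists_HData_conj_gen {N : ℕ} {ι : Type} [Fintype ι]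
    (M : ι → Matrix (Fin 2) (Fin 2) ℤ) (τ : Equiv.Perm ι) (e : ι → ℤ)
    (hM : ∀ i, jConjMat (M i) = !![1, -e i; 0, 1] * M (τ i)) {γ : Gamma0 N} (D : HData N M γ) :
    ∃ D' : HData N M (jConjGamma0 N γ), ∀ φ : Additive (Gamma0 N) →+ ℂ,
      ∑ i, φ (Additive.ofMul (D'.δ i)) = ∑ i, φ (Additive.ofMul (jConjGamma0 N (D.δ i))) := by
  have hM' : ∀ i, M (τ i) = !![1, e i; 0, 1] * jConjMat (M i) := by
    intro i
    rw [hM i, ← Matrix.mul_assoc, tmat_mul, add_neg_cancel]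
    have : (!![1, 0; 0, 1] : Matrix (Fin 2) (Fin 2) ℤ) = 1 := by
      ext i j; fin_cases i <;> fin_cases j <;> simp
    rw [this, one_mul]
  refine ⟨⟨(τ.symm.trans D.σ).trans τ,
    fun k => gTN N ^ (e (τ.symm k)) * jConjGamma0 N (D.δ (τ.symm k)) *
      gTN N ^ (-e (D.σ (τ.symm k))), ?_⟩, ?_⟩
  · intro k
    obtain ⟨i, rfl⟩ := τ.surjective k
    simp only [Equiv.symm_apply_apply, Equiv.trans_apply]
    rw [Subgroup.coe_mul, Subgroup.coe_mul, Matrix.SpecialLinearGroup.coe_mul,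
      Matrix.SpecialLinearGroup.coe_mul, coe_gTN_zpow, coe_gTN_zpow, jConjGamma0_coe,
      jConjGamma0_coe, jConjSL_coe, jConjSL_coe, hM' i, Matrix.mul_assoc, ← jConjMat_mul, D.rel i,
      jConjMat_mul, hM (D.σ i)]
    simp only [Matrix.mul_assoc]
  · intro φ
    rw [← Equiv.sum_comp τ]
    simp only [Equiv.symm_apply_apply, ofMul_mul, map_add, ofMul_zpow, map_zsmul]
    rw [Finset.sum_add_distrib, Finset.sum_add_distrib,
      Equiv.sum_comp D.σ (fun i => -e i • φ (Additive.ofMul (gTN N)))]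
    have : ∑ i, e i • φ (Additive.ofMul (gTN N)) + ∑ i, -e i • φ (Additive.ofMul (gTN N)) = 0 := by
      rw [← Finset.sum_add_distrib]
      apply Finset.sum_eq_zero
      intro i _
      rw [neg_smul, add_neg_cancel]
    linear_combination this

/-- the exponent of `T`. -/
def eF (ℓ : ℕ) (j : Fin ℓ) : ℤ := if j.val = 0 then 0 else 1

theorem neg_val_eq (ℓ : ℕ) [NeZero ℓ] (j : Fin ℓ) :
    ((-j : Fin ℓ).val : ℤ) = eF ℓ j * ℓ - j.val := by
  rw [Fin.coe_neg, eF]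
  split_ifs with h
  · rw [h]; simp
  · have hj : j.val < ℓ := j.2
    have h1 : ℓ - j.val < ℓ := by omega
    rw [Nat.mod_eq_of_lt h1, Nat.cast_sub hj.le]
    ring

theorem jConjMat_matU (ℓ : ℕ) [NeZero ℓ] (j : Fin ℓ) :
    jConjMat (matU ℓ j) = !![1, -eF ℓ j; 0, 1] * matU ℓ ((-j : Fin ℓ)) := by
  have h := neg_val_eq ℓ j
  ext a b
  fin_cases a <;> fin_cases b <;>
    simp [jConjMat, matU, Matrix.mul_apply, Fin.sum_univ_two]
  rw [h]; ring

end ConjAux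

open ConjAux

theorem exists_HData_conj_U_aux {N ℓ : ℕ} (hℓ : 0 < ℓ) {γ : Gamma0 N}
    (D : HData N (matUF ℓ) γ) :
    ∃ D' : HData N (matUF ℓ) (jConjGamma0 N γ), ∀ φ : Additive (Gamma0 N) →+ ℂ,
      ∑ i, φ (Additive.ofMul (D'.δ i)) = ∑ i, φ (Additive.ofMul (jConjGamma0 N (D.δ i))) := by
  haveI : NeZero ℓ := ⟨hℓ.ne'⟩
  exact exists_HData_conj_gen (matUF ℓ) (Equiv.neg (Fin ℓ)) (eF ℓ)
    (fun j => jConjMat_matU ℓ j) D

theorem exists_HData_conj_T_aux {N ℓ : ℕ} (hℓ : 0 < ℓ) {γ : Gamma0 N}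
    (D : HData N (matT ℓ) γ) :
    ∃ D' : HData N (matT ℓ) (jConjGamma0 N γ), ∀ φ : Additive (Gamma0 N) →+ ℂ,
      ∑ i, φ (Additive.ofMul (D'.δ i)) = ∑ i, φ (Additive.ofMul (jConjGamma0 N (D.δ i))) := by
  haveI : NeZero ℓ := ⟨hℓ.ne'⟩
  refine exists_HData_conj_gen (matT ℓ) (Equiv.optionCongr (Equiv.neg (Fin ℓ)))
    (fun i => i.elim 0 (eF ℓ)) (fun i => ?_) D
  cases i with
  | none =>
    ext a b
    fin_cases a <;> fin_cases b <;>
      simp [jConjMat, matT, matD, Matrix.mul_apply, Fin.sum_univ_two]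
  | some j => exact jConjMat_matU ℓ j

end Fermat.Agent.S16.Lower
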