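import Mathlib

/-!
# S16, lower bound, pieces L-A1, L-A2: existence of Hecke coset data (auxiliary lemmas)
-/

set_option autoImplicit false

open scoped MatrixGroups
open CongruenceSubgroup

namespace Fermat.Agent.S16.Lower.LDataAux

/-- an element of `Γ₀(N)` from its entries -/
def mkSL (a b c d : ℤ) (hdet : a * d - b * c = 1) : SL(2, ℤ) :=
  ⟨!![a, b; c, d], by rw [Matrix.det_fin_two_of]; exact hdet⟩

/-- an element of `Γ₀(N)` from its entries -/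
def mkG0 (N : ℕ) (a b c d : ℤ) (hdet : a * d - b * c = 1) (hc : (N : ℤ) ∣ c) : Gamma0 N :=
  ⟨mkSL a b c d hdet, by
    rw [Gamma0_mem]
    exact (ZMod.intCast_zmod_eq_zero_iff_dvd c N).mpr hc⟩

theorem coe_mkG0 (N : ℕ) (a b c d : ℤ) (hdet : a * d - b * c = 1) (hc : (N : ℤ) ∣ c) :
    (((mkG0 N a b c d hdet hc : Gamma0 N) : SL(2, ℤ)) : Matrix (Fin 2) (Fin 2) ℤ) =
      !![a, b; c, d] := rfl

theorem coe_eq (g : SL(2, ℤ)) :
    (g : Matrix (Fin 2) (Fin 2) ℤ) = !![g 0 0, g 0 1; g 1 0, g 1 1] :=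
  Matrix.eta_fin_two _

theorem det_eq (g : SL(2, ℤ)) : g 0 0 * g 1 1 - g 0 1 * g 1 0 = 1 := by
  have := g.det_coe
  rwa [Matrix.det_fin_two] at this

theorem dvd_c {N : ℕ} (γ : Gamma0 N) : (N : ℤ) ∣ (γ : SL(2, ℤ)) 1 0 := by
  have := (Gamma0_mem).mp γ.2
  exact (ZMod.intCast_zmod_eq_zero_iff_dvd _ N).mp this

/-- solving a linear congruence modulo a prime with a representative in `[0, ℓ)` -/
theorem exists_fin_congr {ℓ : ℕ} (hℓ : ℓ.Prime) (A B : ℤ) (hA : ¬ (ℓ : ℤ) ∣ A) :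
    ∃ j : Fin ℓ, (ℓ : ℤ) ∣ B - (j : ℕ) * A := by
  have hcop : IsCoprime A (ℓ : ℤ) :=
    ((Nat.prime_iff_prime_int.mp hℓ).coprime_iff_not_dvd.mpr hA).symm
  obtain ⟨u, v, huv⟩ := hcop
  have hpos : (0 : ℤ) < ℓ := by exact_mod_cast hℓ.pos
  have h0 : 0 ≤ (B * u) % ℓ := Int.emod_nonneg _ hpos.ne'
  have h1 : (B * u) % ℓ < ℓ := Int.emod_lt_of_pos _ hpos
  refine ⟨⟨((B * u) % ℓ).toNat, by omega⟩, ?_⟩
  have h2 : ((((B * u) % ℓ).toNat : ℕ) : ℤ) = (B * u) % ℓ := Int.toNat_of_nonneg h0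
  show (ℓ : ℤ) ∣ B - ((((B * u) % ℓ).toNat : ℕ) : ℤ) * A
  rw [h2]
  have h3 : (B * u) % ℓ = B * u - ℓ * ((B * u) / ℓ) := by
    have := Int.emod_add_mul_ediv (B * u) ℓ
    linarith
  rw [h3]
  refine ⟨B * v + (B * u) / ℓ * A, ?_⟩
  have : B = B * (u * A + v * ℓ) := by rw [huv, mul_one]
  linear_combination this

end Fermat.Agent.S16.Lower.LDataAux
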