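import Mathlib
import Fermat.Agent.S16.LDefs
import Fermat.Agent.S16.LDataAux

/-!
# S16, lower bound, pieces L-A1, L-A2: existence of the Hecke coset data
-/

set_option autoImplicit false

open scoped MatrixGroups
open CongruenceSubgroup

namespace Fermat.Agent.S16.Lower

namespace LDataAux

/-- general principle: existence of the relations + uniqueness of representatives -/
theorem nonempty_HData_of {N : ℕ} {ι : Type} [Finite ι] (M : ι → Matrix (Fin 2) (Fin 2) ℤ)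
    (γ : Gamma0 N)
    (hex : ∀ i, ∃ (i' : ι) (δ : Gamma0 N), M i * ((γ : SL(2, ℤ)) : Matrix (Fin 2) (Fin 2) ℤ) =
      ((δ : SL(2, ℤ)) : Matrix (Fin 2) (Fin 2) ℤ) * M i')
    (hinj : ∀ (ε : SL(2, ℤ)) (i i₂ : ι), M i = (ε : Matrix (Fin 2) (Fin 2) ℤ) * M i₂ → i = i₂) :
    Nonempty (HData N M γ) := by
  choose σ δ h using hex
  have hσ : Function.Injective σ := by
    intro i i₂ hi
    apply hinj ((δ i : SL(2, ℤ)) * (δ i₂ : SL(2, ℤ))⁻¹) i i₂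
    have hG : ((γ : SL(2, ℤ)) : Matrix (Fin 2) (Fin 2) ℤ) *
        (((γ : SL(2, ℤ))⁻¹ : SL(2, ℤ)) : Matrix (Fin 2) (Fin 2) ℤ) = 1 := by
      rw [← Matrix.SpecialLinearGroup.coe_mul, mul_inv_cancel, Matrix.SpecialLinearGroup.coe_one]
    have hD : (((δ i₂ : SL(2, ℤ))⁻¹ : SL(2, ℤ)) : Matrix (Fin 2) (Fin 2) ℤ) *
        ((δ i₂ : SL(2, ℤ)) : Matrix (Fin 2) (Fin 2) ℤ) = 1 := by
      rw [← Matrix.SpecialLinearGroup.coe_mul, inv_mul_cancel, Matrix.SpecialLinearGroup.coe_one]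
    have h1 := h i
    have h2 := h i₂
    rw [← hi] at h2
    have h3 : M (σ i) = (((δ i₂ : SL(2, ℤ))⁻¹ : SL(2, ℤ)) : Matrix (Fin 2) (Fin 2) ℤ) *
        (M i₂ * ((γ : SL(2, ℤ)) : Matrix (Fin 2) (Fin 2) ℤ)) := by
      rw [h2, ← Matrix.mul_assoc, hD, Matrix.one_mul]
    calc M i = M i * ((γ : SL(2, ℤ)) : Matrix (Fin 2) (Fin 2) ℤ) *
          (((γ : SL(2, ℤ))⁻¹ : SL(2, ℤ)) : Matrix (Fin 2) (Fin 2) ℤ) := by
            rw [Matrix.mul_assoc, hG, Matrix.mul_one]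
      _ = _ := by
            rw [h1, h3, Matrix.SpecialLinearGroup.coe_mul]
            simp only [Matrix.mul_assoc]
            rw [hG, Matrix.mul_one]
  exact ⟨⟨Equiv.ofBijective σ (Finite.injective_iff_bijective.mp hσ), δ, h⟩⟩

theorem matU_mul (ℓ j : ℕ) (a b c d : ℤ) :
    matU ℓ j * !![a, b; c, d] = !![a + j * c, b + j * d; ℓ * c, ℓ * d] := by
  simp [matU]

theorem matD_mul (ℓ : ℕ) (a b c d : ℤ) :
    matD ℓ * !![a, b; c, d] = !![ℓ * a, ℓ * b; c, d] := by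
  simp [matD]

theorem mul_matU (ℓ j : ℕ) (a b c d : ℤ) :
    !![a, b; c, d] * matU ℓ j = !![a, a * j + b * ℓ; c, c * j + d * ℓ] := by
  simp [matU]

theorem mul_matD (ℓ : ℕ) (a b c d : ℤ) :
    !![a, b; c, d] * matD ℓ = !![a * ℓ, b; c * ℓ, d] := by
  simp [matD]

/-- `α_j γ = δ α_{j'}` when `ℓ ∤ a + j c` -/
theorem step_UU {N ℓ : ℕ} (hℓ : ℓ.Prime) (a b c d : ℤ) (hdet : a * d - b * c = 1)
    (hc : (N : ℤ) ∣ c) (j : ℕ) (h : ¬ (ℓ : ℤ) ∣ a + j * c) :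
    ∃ (j' : Fin ℓ) (δ : Gamma0 N), matU ℓ j * !![a, b; c, d] =
      ((δ : SL(2, ℤ)) : Matrix (Fin 2) (Fin 2) ℤ) * matU ℓ j' := by
  obtain ⟨j', t, ht⟩ := exists_fin_congr hℓ (a + j * c) (b + j * d) h
  refine ⟨j', mkG0 N (a + j * c) t (ℓ * c) (d - (j' : ℕ) * c) ?_ (Dvd.dvd.mul_left hc _), ?_⟩
  · linear_combination hdet + c * ht
  · rw [coe_mkG0, matU_mul, mul_matU]
    have e1 : b + j * d = (a + j * c) * (j' : ℕ) + t * ℓ := by linear_combination ht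
    have e2 : ℓ * d = ℓ * c * (j' : ℕ) + (d - (j' : ℕ) * c) * ℓ := by ring
    rw [e1, e2]

/-- `α_j γ = δ α_∞` when `ℓ ∣ a + j c` -/
theorem step_UD {N ℓ : ℕ} (a b c d : ℤ) (hdet : a * d - b * c = 1)
    (hc : (N : ℤ) ∣ c) (j : ℕ) (h : (ℓ : ℤ) ∣ a + j * c) :
    ∃ δ : Gamma0 N, matU ℓ j * !![a, b; c, d] =
      ((δ : SL(2, ℤ)) : Matrix (Fin 2) (Fin 2) ℤ) * matD ℓ := by
  obtain ⟨t, ht⟩ := h
  refine ⟨mkG0 N t (b + j * d) c (ℓ * d) ?_ hc, ?_⟩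
  · linear_combination hdet - d * ht
  · rw [coe_mkG0, matU_mul, mul_matD]
    have e1 : a + j * c = t * ℓ := by linear_combination ht
    have e2 : (ℓ : ℤ) * c = c * ℓ := by ring
    rw [e1, e2]

/-- `α_∞ γ = δ α_{j'}` when `ℓ ∤ c` -/
theorem step_DU {N ℓ : ℕ} (hℓ : ℓ.Prime) (a b c d : ℤ) (hdet : a * d - b * c = 1)
    (hc : (N : ℤ) ∣ c) (h : ¬ (ℓ : ℤ) ∣ c) :
    ∃ (j' : Fin ℓ) (δ : Gamma0 N), matD ℓ * !![a, b; c, d] =
      ((δ : SL(2, ℤ)) : Matrix (Fin 2) (Fin 2) ℤ) * matU ℓ j' := by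
  obtain ⟨j', t, ht⟩ := exists_fin_congr hℓ c d h
  refine ⟨j', mkG0 N (ℓ * a) (b - (j' : ℕ) * a) c t ?_ hc, ?_⟩
  · linear_combination hdet - a * ht
  · rw [coe_mkG0, matD_mul, mul_matU]
    have e1 : (ℓ : ℤ) * b = ℓ * a * (j' : ℕ) + (b - (j' : ℕ) * a) * ℓ := by ring
    have e2 : d = c * (j' : ℕ) + t * ℓ := by linear_combination ht
    rw [e1]
    conv_lhs => rw [e2]

/-- `α_∞ γ = δ α_∞` when `ℓ ∣ c`, `ℓ ∤ N` -/
theorem step_DD {N ℓ : ℕ} (hℓ : ℓ.Prime) (hN : ¬ ℓ ∣ N) (a b c d : ℤ)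
    (hdet : a * d - b * c = 1) (hc : (N : ℤ) ∣ c) (h : (ℓ : ℤ) ∣ c) :
    ∃ δ : Gamma0 N, matD ℓ * !![a, b; c, d] =
      ((δ : SL(2, ℤ)) : Matrix (Fin 2) (Fin 2) ℤ) * matD ℓ := by
  obtain ⟨t, ht⟩ := h
  have hcop : IsCoprime (N : ℤ) (ℓ : ℤ) := by
    rw [Nat.isCoprime_iff_coprime, Nat.coprime_comm]
    exact (Nat.Prime.coprime_iff_not_dvd hℓ).mpr hN
  have hNt : (N : ℤ) ∣ t := by
    rw [ht] at hc
    exact hcop.dvd_of_dvd_mul_left hc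
  refine ⟨mkG0 N a (ℓ * b) t d ?_ hNt, ?_⟩
  · linear_combination hdet + b * ht
  · rw [coe_mkG0, matD_mul, mul_matD]
    have e1 : (ℓ : ℤ) * a = a * ℓ := by ring
    have e2 : c = t * ℓ := by linear_combination ht
    rw [e1]
    conv_lhs => rw [e2]

theorem matU_inj {ℓ : ℕ} (ε : SL(2, ℤ)) (j j₂ : Fin ℓ)
    (h : matU ℓ j = (ε : Matrix (Fin 2) (Fin 2) ℤ) * matU ℓ j₂) : j = j₂ := by
  rw [coe_eq ε, mul_matU] at h
  have h00 := congrFun (congrFun h 0) 0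
  have h01 := congrFun (congrFun h 0) 1
  simp [matU] at h00 h01
  rw [← h00] at h01
  have hj := j.2
  have hj₂ := j₂.2
  apply Fin.ext
  have h3 : ((j : ℕ) : ℤ) - (j₂ : ℕ) = ε 0 1 * ℓ := by linear_combination h01
  have h4 : (ℓ : ℤ) ∣ ((j : ℕ) : ℤ) - (j₂ : ℕ) := ⟨ε 0 1, by rw [h3]; ring⟩
  have h5 : ((j : ℕ) : ℤ) - (j₂ : ℕ) = 0 := by
    apply Int.eq_zero_of_abs_lt_dvd h4
    rw [abs_lt]
    constructor <;> omega
  omega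

theorem matU_ne_matD {ℓ : ℕ} (hℓ : ℓ.Prime) (ε : SL(2, ℤ)) (j : ℕ) :
    matU ℓ j ≠ (ε : Matrix (Fin 2) (Fin 2) ℤ) * matD ℓ := by
  intro h
  rw [coe_eq ε, mul_matD] at h
  have h00 := congrFun (congrFun h 0) 0
  simp [matU] at h00
  have h1 : (ℓ : ℤ) ∣ 1 := ⟨ε 0 0, by linear_combination h00⟩
  have h2 : ℓ ∣ 1 := by exact_mod_cast h1
  exact hℓ.one_lt.ne' (Nat.dvd_one.mp h2)

theorem matD_ne_matU {ℓ : ℕ} (hℓ : ℓ.Prime) (ε : SL(2, ℤ)) (j : ℕ) :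
    matD ℓ ≠ (ε : Matrix (Fin 2) (Fin 2) ℤ) * matU ℓ j := by
  intro h
  rw [coe_eq ε, mul_matU] at h
  have h00 := congrFun (congrFun h 0) 0
  have h10 := congrFun (congrFun h 1) 0
  simp [matD] at h00 h10
  have hdet := det_eq ε
  rw [← h00, ← h10] at hdet
  have h1 : (ℓ : ℤ) ∣ 1 := ⟨ε 1 1, by linear_combination -hdet⟩
  have h2 : ℓ ∣ 1 := by exact_mod_cast h1
  exact hℓ.one_lt.ne' (Nat.dvd_one.mp h2)

end LDataAux

open LDataAux in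
/-- [L-A1] -/
theorem nonempty_HData_T_aux {N ℓ : ℕ} (hℓ : ℓ.Prime) (hN : ¬ ℓ ∣ N) (γ : Gamma0 N) :
    Nonempty (HData N (matT ℓ) γ) := by
  have hdet := det_eq (γ : SL(2, ℤ))
  have hc := dvd_c γ
  refine nonempty_HData_of (matT ℓ) γ ?_ ?_
  · intro i
    rw [coe_eq (γ : SL(2, ℤ))]
    cases i with
    | none =>
      by_cases h : (ℓ : ℤ) ∣ (γ : SL(2, ℤ)) 1 0
      · obtain ⟨δ, hδ⟩ := step_DD hℓ hN _ _ _ _ hdet hc h
        exact ⟨none, δ, hδ⟩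
      · obtain ⟨j', δ, hδ⟩ := step_DU hℓ _ _ _ _ hdet hc h
        exact ⟨some j', δ, hδ⟩
    | some j =>
      by_cases h : (ℓ : ℤ) ∣ (γ : SL(2, ℤ)) 0 0 + (j : ℕ) * (γ : SL(2, ℤ)) 1 0
      · obtain ⟨δ, hδ⟩ := step_UD _ _ _ _ hdet hc (j : ℕ) h
        exact ⟨none, δ, hδ⟩
      · obtain ⟨j', δ, hδ⟩ := step_UU hℓ _ _ _ _ hdet hc (j : ℕ) h
        exact ⟨some j', δ, hδ⟩
  · intro ε i i₂ h
    cases i with
    | none =>
      cases i₂ with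
      | none => rfl
      | some j₂ => exact absurd h (matD_ne_matU hℓ ε j₂)
    | some j =>
      cases i₂ with
      | none => exact absurd h (matU_ne_matD hℓ ε j)
      | some j₂ => rw [matU_inj ε j j₂ h]

open LDataAux in
/-- [L-A2] -/
theorem nonempty_HData_U_aux {N ℓ : ℕ} (hℓ : ℓ.Prime) (hN : ℓ ∣ N) (γ : Gamma0 N) :
    Nonempty (HData N (matUF ℓ) γ) := by
  have hdet := det_eq (γ : SL(2, ℤ))
  have hc := dvd_c γ
  have hℓc : (ℓ : ℤ) ∣ (γ : SL(2, ℤ)) 1 0 := (Int.natCast_dvd_natCast.mpr hN).trans hc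
  refine nonempty_HData_of (matUF ℓ) γ ?_ ?_
  · intro j
    rw [coe_eq (γ : SL(2, ℤ))]
    have h : ¬ (ℓ : ℤ) ∣ (γ : SL(2, ℤ)) 0 0 + (j : ℕ) * (γ : SL(2, ℤ)) 1 0 := by
      intro h
      have h1 : (ℓ : ℤ) ∣ (γ : SL(2, ℤ)) 0 0 := by
        have := dvd_sub h (Dvd.dvd.mul_left hℓc ((j : ℕ) : ℤ))
        rwa [add_sub_cancel_right] at this
      have h2 : (ℓ : ℤ) ∣ 1 := by
        rw [← hdet]
        exact dvd_sub (Dvd.dvd.mul_right h1 _) (Dvd.dvd.mul_left hℓc _)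
      have h3 : ℓ ∣ 1 := by exact_mod_cast h2
      exact hℓ.one_lt.ne' (Nat.dvd_one.mp h3)
    exact step_UU hℓ _ _ _ _ hdet hc (j : ℕ) h
  · intro ε j j₂ h
    exact matU_inj ε j j₂ h

end Fermat.Agent.S16.Lower
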