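import Mathlib
import Fermat.Prelude.Def_ModularCurve_PeriodHomPair
import Fermat.Agent.S16.LDefs
import Fermat.Agent.S16.LDataExist
import Fermat.Agent.S16.LDataConj

/-!
# S16, lower bound, piece L-A: Hecke coset data

For `γ ∈ Γ₀(N)` and the standard representatives `α_i` of a Hecke double coset we record a
permutation `σ` and elements `δ i ∈ Γ₀(N)` with `α_i γ = δ_i α_{σ i}`.
-/

set_option autoImplicit false

open scoped MatrixGroups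
open CongruenceSubgroup ModularCurve.Period

namespace Fermat.Agent.S16.Lower

/-- [L-A1] -/
theorem nonempty_HData_T {N ℓ : ℕ} (hℓ : ℓ.Prime) (hN : ¬ ℓ ∣ N) (γ : Gamma0 N) :
    Nonempty (HData N (matT ℓ) γ) :=
  nonempty_HData_T_aux hℓ hN γ

/-- [L-A2] -/
theorem nonempty_HData_U {N ℓ : ℕ} (hℓ : ℓ.Prime) (hN : ℓ ∣ N) (γ : Gamma0 N) :
    Nonempty (HData N (matUF ℓ) γ) :=
  nonempty_HData_U_aux hℓ hN γ

/-- [L-A3] Conjugating the data by `diag(1,-1)`: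
`[[1,-j],[0,ℓ]] = T⁻¹ [[1,ℓ-j],[0,ℓ]]` for `0 < j`. -/
theorem exists_HData_conj_T {N ℓ : ℕ} (hℓ : 0 < ℓ) {γ : Gamma0 N} (D : HData N (matT ℓ) γ) :
    ∃ D' : HData N (matT ℓ) (jConjGamma0 N γ), ∀ φ : Additive (Gamma0 N) →+ ℂ,
      ∑ i, φ (Additive.ofMul (D'.δ i)) = ∑ i, φ (Additive.ofMul (jConjGamma0 N (D.δ i))) :=
  exists_HData_conj_T_aux hℓ D

/-- [L-A3] -/
theorem exists_HData_conj_U {N ℓ : ℕ} (hℓ : 0 < ℓ) {γ : Gamma0 N} (D : HData N (matUF ℓ) γ) :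
    ∃ D' : HData N (matUF ℓ) (jConjGamma0 N γ), ∀ φ : Additive (Gamma0 N) →+ ℂ,
      ∑ i, φ (Additive.ofMul (D'.δ i)) = ∑ i, φ (Additive.ofMul (jConjGamma0 N (D.δ i))) :=
  exists_HData_conj_U_aux hℓ D

end Fermat.Agent.S16.Lower
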