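import Mathlib
import Fermat.Prelude.Def_ModularCurve_ModularUnit
import Fermat.Agent.S16.LData

set_option autoImplicit false

open scoped MatrixGroups
open CongruenceSubgroup ModularCurve

namespace Fermat.Agent.S16.Lower

namespace KappaAux

/-- a "logarithm" on a finite cyclic group. -/
theorem exists_log_aux {G : Type*} [CommGroup G] [IsCyclic G] [Finite G] (n : ℕ)
    (hn : n ∣ Nat.card G) (hker : ∀ k : ℤ, (Nat.card G : ℤ) ∣ 12 * k → (n : ℤ) ∣ k) :
    ∃ L : Additive G →+ ZMod n, Function.Surjective L ∧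
      ∀ x : G, x ^ 12 = 1 → L (Additive.ofMul x) = 0 := by
  obtain ⟨g, hg⟩ := IsCyclic.exists_generator (α := G)
  have hord : orderOf g = Nat.card G := orderOf_eq_card_of_forall_mem_zpowers hg
  have h1 : orderOf (Multiplicative.ofAdd (1 : ZMod n)) ∣ orderOf g := by
    rw [orderOf_ofAdd_eq_addOrderOf, ZMod.addOrderOf_one, hord]
    exact hn
  set f : G →* Multiplicative (ZMod n) := monoidHomOfForallMemZpowers hg h1 with hf
  have hfg : f g = Multiplicative.ofAdd 1 := monoidHomOfForallMemZpowers_apply_gen hg h1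
  let L : Additive G →+ ZMod n :=
    { toFun := fun x => Multiplicative.toAdd (f (Additive.toMul x))
      map_zero' := by simp
      map_add' := fun x y => by simp }
  have hL : ∀ k : ℤ, L (Additive.ofMul (g ^ k)) = (k : ZMod n) := by
    intro k
    show Multiplicative.toAdd (f (g ^ k)) = _
    rw [map_zpow, hfg]
    simp
  refine ⟨L, fun y => ?_, fun x hx => ?_⟩
  · refine ⟨Additive.ofMul (g ^ (y.cast : ℤ)), ?_⟩
    rw [hL]
    simp
  · obtain ⟨k, rfl⟩ := Subgroup.mem_zpowers_iff.mp (hg x)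
    rw [hL, ZMod.intCast_zmod_eq_zero_iff_dvd]
    apply hker
    rw [← hord]
    apply orderOf_dvd_iff_zpow_eq_one.mpr
    rw [mul_comm, zpow_mul]
    exact_mod_cast hx

theorem dvd_of_dvd_twelve_mul (p : ℕ) (k : ℤ) (h : ((p - 1 : ℕ) : ℤ) ∣ 12 * k) :
    (eisensteinNumerator p : ℤ) ∣ k := by
  unfold eisensteinNumerator
  set g := Nat.gcd (p - 1) 12 with hg
  have hgpos : 0 < g := Nat.gcd_pos_of_pos_right _ (by norm_num)
  obtain ⟨a, ha⟩ : g ∣ p - 1 := Nat.gcd_dvd_left _ _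
  obtain ⟨b, hb⟩ : g ∣ 12 := Nat.gcd_dvd_right _ _
  have hcop : Nat.Coprime a b := by
    have := Nat.coprime_div_gcd_div_gcd (m := p - 1) (n := 12) hgpos
    rw [← hg] at this
    rwa [ha, Nat.mul_div_cancel_left _ hgpos, show (12 : ℕ) / g = b by
      conv_lhs => rw [hb]
      exact Nat.mul_div_cancel_left _ hgpos] at this
  rw [ha, Nat.mul_div_cancel_left _ hgpos]
  rw [ha] at h
  have h12 : (12 : ℤ) = (g : ℤ) * b := by exact_mod_cast hb
  rw [h12] at h
  push_cast at h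
  rw [mul_assoc] at h
  have h2 : (a : ℤ) ∣ b * k := (mul_dvd_mul_iff_left (by exact_mod_cast hgpos.ne')).mp h
  exact (Nat.isCoprime_iff_coprime.mpr hcop).dvd_of_dvd_mul_left h2

theorem exists_log (p : ℕ) [Fact p.Prime] :
    ∃ L : Additive (ZMod p)ˣ →+ ZMod (eisensteinNumerator p), Function.Surjective L ∧
      ∀ x : (ZMod p)ˣ, x ^ 12 = 1 → L (Additive.ofMul x) = 0 := by
  have hcard : Nat.card (ZMod p)ˣ = p - 1 := by
    rw [Nat.card_eq_fintype_card, ZMod.card_units]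
  refine exists_log_aux _ ?_ ?_
  · rw [hcard]; exact eisensteinNumerator_dvd p
  · intro k hk
    rw [hcard] at hk
    exact dvd_of_dvd_twelve_mul p k hk

/-- lower right entry as a unit mod `p`. -/
noncomputable def dHom (p : ℕ) : Gamma0 p →* (ZMod p)ˣ := (Gamma0Map p).toHomUnits

theorem coe_dHom (p : ℕ) (γ : Gamma0 p) :
    ((dHom p γ : (ZMod p)ˣ) : ZMod p) = (((γ : SL(2, ℤ)) 1 1 : ℤ) : ZMod p) := rfl

theorem dHom_surjective (p : ℕ) [Fact p.Prime] : Function.Surjective (dHom p) := by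
  intro x
  have hp : p.Prime := Fact.out
  have hcop : IsCoprime ((x : ZMod p).val : ℤ) (p : ℤ) := by
    rw [Nat.isCoprime_iff_coprime]
    exact ZMod.val_coe_unit_coprime x
  obtain ⟨a, b, hab⟩ := hcop
  refine ⟨⟨⟨!![a, -b; (p : ℤ), ((x : ZMod p).val : ℤ)], ?_⟩, ?_⟩, ?_⟩
  · rw [Matrix.det_fin_two_of]; linear_combination hab
  · rw [Gamma0_mem]; simp
  · apply Units.ext
    rw [coe_dHom]
    simp


theorem c_eq_zero (p : ℕ) (γ : Gamma0 p) : (((γ : SL(2, ℤ)) 1 0 : ℤ) : ZMod p) = 0 :=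
  Gamma0_mem.mp γ.2

theorem ad_eq_one (p : ℕ) (γ : Gamma0 p) :
    (((γ : SL(2, ℤ)) 0 0 : ℤ) : ZMod p) * (((γ : SL(2, ℤ)) 1 1 : ℤ) : ZMod p) = 1 := by
  have h := (γ : SL(2, ℤ)).det_coe
  rw [Matrix.det_fin_two] at h
  have h2 := congrArg (Int.cast : ℤ → ZMod p) h
  push_cast at h2
  have hc := c_eq_zero p γ
  rw [hc, mul_zero, sub_zero] at h2
  exact h2

theorem dHom_pow_twelve_of_trace (p : ℕ) [Fact p.Prime] (γ : Gamma0 p)
    (h : ((γ : SL(2, ℤ)) : Matrix (Fin 2) (Fin 2) ℤ).trace ^ 2 = 4) : dHom p γ ^ 12 = 1 := by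
  rw [Matrix.trace_fin_two] at h
  have had := ad_eq_one p γ
  set a : ZMod p := (((γ : SL(2, ℤ)) 0 0 : ℤ) : ZMod p) with ha
  set d : ZMod p := (((γ : SL(2, ℤ)) 1 1 : ℤ) : ZMod p) with hd
  have h2 : (γ : SL(2, ℤ)) 0 0 + (γ : SL(2, ℤ)) 1 1 = 2 ∨ (γ : SL(2, ℤ)) 0 0 + (γ : SL(2, ℤ)) 1 1 = -2 := by
    have : ((γ : SL(2, ℤ)) 0 0 + (γ : SL(2, ℤ)) 1 1) ^ 2 = 2 ^ 2 := by rw [h]; norm_num
    exact sq_eq_sq_iff_eq_or_eq_neg.mp this
  have hd2 : d ^ 2 = 1 := by
    rcases h2 with h2 | h2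
    · have h3 : a + d = 2 := by
        have := congrArg (Int.cast : ℤ → ZMod p) h2
        push_cast at this
        exact this
      have : (d - 1) ^ 2 = 0 := by linear_combination d * h3 - had
      have : d = 1 := by
        have := pow_eq_zero_iff (two_ne_zero) |>.mp this
        linear_combination this
      rw [this]; norm_num
    · have h3 : a + d = -2 := by
        have := congrArg (Int.cast : ℤ → ZMod p) h2
        push_cast at this
        exact this
      have : (d + 1) ^ 2 = 0 := by linear_combination d * h3 - had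
      have : d = -1 := by
        have := pow_eq_zero_iff (two_ne_zero) |>.mp this
        linear_combination this
      rw [this]; norm_num
  apply Units.ext
  rw [Units.val_pow_eq_pow_val, coe_dHom, Units.val_one]
  calc d ^ 12 = (d ^ 2) ^ 6 := by ring
    _ = 1 := by rw [hd2]; norm_num

/-- lower right entries of the representatives, as units. -/
noncomputable def nu (p ℓ : ℕ) [Fact p.Prime] (h : (ℓ : ZMod p) ≠ 0) : Option (Fin ℓ) → (ZMod p)ˣ
  | none => 1
  | some _ => Units.mk0 (ℓ : ZMod p) h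

theorem coe_nu (p ℓ : ℕ) [Fact p.Prime] (h : (ℓ : ZMod p) ≠ 0) (i : Option (Fin ℓ)) :
    ((nu p ℓ h i : (ZMod p)ˣ) : ZMod p) = ((matT ℓ i 1 1 : ℤ) : ZMod p) := by
  cases i <;> simp [nu, matT, matD, matU]

theorem nu_mul (p ℓ : ℕ) [Fact p.Prime] (h : (ℓ : ZMod p) ≠ 0) (γ : Gamma0 p)
    (D : HData p (matT ℓ) γ) (i : Option (Fin ℓ)) :
    nu p ℓ h i * dHom p γ = dHom p (D.δ i) * nu p ℓ h (D.σ i) := by
  apply Units.ext
  rw [Units.val_mul, Units.val_mul, coe_nu, coe_nu, coe_dHom, coe_dHom]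
  have h1 := congrFun (congrFun (D.rel i) 1) 1
  rw [Matrix.mul_apply, Matrix.mul_apply, Fin.sum_univ_two, Fin.sum_univ_two] at h1
  have h0 : matT ℓ i 1 0 = 0 := by cases i <;> simp [matT, matD, matU]
  rw [h0, zero_mul, zero_add] at h1
  have h2 := congrArg (Int.cast : ℤ → ZMod p) h1
  push_cast at h2
  have hc := c_eq_zero p (D.δ i)
  rw [hc, zero_mul, zero_add] at h2
  exact h2

theorem dHom_eq_of_U (p : ℕ) [Fact p.Prime] (γ : Gamma0 p)
    (D : HData p (matUF p) γ) (i : Fin p) : dHom p (D.δ i) = dHom p γ := by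
  apply Units.ext
  rw [coe_dHom, coe_dHom]
  have h1 := congrFun (congrFun (D.rel i) 0) 0
  rw [Matrix.mul_apply, Matrix.mul_apply, Fin.sum_univ_two, Fin.sum_univ_two] at h1
  simp only [matUF, matU, Matrix.of_apply, Matrix.cons_val', Matrix.cons_val_zero,
    Matrix.cons_val_one, Matrix.cons_val_fin_one] at h1
  have h2 := congrArg (Int.cast : ℤ → ZMod p) h1
  push_cast at h2
  have hc := c_eq_zero p γ
  rw [hc] at h2
  have e1 := ad_eq_one p γ
  have e2 := ad_eq_one p (D.δ i)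
  simp only [one_mul, mul_zero, add_zero, mul_one] at h2
  rw [← h2] at e2
  have ha : (((γ : SL(2, ℤ)) 0 0 : ℤ) : ZMod p) ≠ 0 := by
    intro h0; rw [h0, zero_mul] at e1; exact zero_ne_one e1
  exact mul_left_cancel₀ ha (e2.trans e1.symm)

end KappaAux

open KappaAux in
theorem exists_kappa (p : ℕ) [Fact p.Prime] :
    ∃ κ : Additive (Gamma0 p) →+ ZMod (eisensteinNumerator p),
      Function.Surjective κ ∧
      (∀ γ : Gamma0 p, γ ^ 12 = 1 → κ (Additive.ofMul γ) = 0) ∧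
      (∀ γ : Gamma0 p, ((γ : SL(2, ℤ)) : Matrix (Fin 2) (Fin 2) ℤ).trace ^ 2 = 4 →
        κ (Additive.ofMul γ) = 0) ∧
      (∀ (ℓ : ℕ), ℓ.Prime → ¬ ℓ ∣ p → ∀ (γ : Gamma0 p) (D : HData p (matT ℓ) γ),
        ∑ i, κ (Additive.ofMul (D.δ i)) = ((1 + ℓ : ℕ) : ZMod (eisensteinNumerator p)) *
          κ (Additive.ofMul γ)) ∧
      (∀ (γ : Gamma0 p) (D : HData p (matUF p) γ),
        ∑ i, κ (Additive.ofMul (D.δ i)) = κ (Additive.ofMul γ)) := by
  obtain ⟨L, hLs, hL⟩ := exists_log p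
  have hp : p.Prime := Fact.out
  refine ⟨L.comp (MonoidHom.toAdditive (dHom p)), ?_, ?_, ?_, ?_, ?_⟩
  · intro y
    obtain ⟨x, rfl⟩ := hLs y
    obtain ⟨γ, hγ⟩ := dHom_surjective p (Additive.toMul x)
    exact ⟨Additive.ofMul γ, by
      show L (Additive.ofMul (dHom p γ)) = L x
      rw [hγ]; rfl⟩
  · intro γ hγ
    show L (Additive.ofMul (dHom p γ)) = 0
    apply hL
    rw [← map_pow, hγ, map_one]
  · intro γ hγ
    show L (Additive.ofMul (dHom p γ)) = 0
    exact hL _ (dHom_pow_twelve_of_trace p γ hγ)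
  · intro ℓ hℓ hℓp γ D
    have hne : (ℓ : ZMod p) ≠ 0 := by
      intro h0
      rw [ZMod.natCast_eq_zero_iff] at h0
      exact hℓp ((Nat.prime_dvd_prime_iff_eq hp hℓ).mp h0 ▸ dvd_rfl)
    show ∑ i, L (Additive.ofMul (dHom p (D.δ i))) = _ * L (Additive.ofMul (dHom p γ))
    have key : ∀ i, L (Additive.ofMul (dHom p (D.δ i))) =
        L (Additive.ofMul (nu p ℓ hne i)) + L (Additive.ofMul (dHom p γ)) -
          L (Additive.ofMul (nu p ℓ hne (D.σ i))) := by
      intro i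
      have h := congrArg (fun x => L (Additive.ofMul x)) (nu_mul p ℓ hne γ D i)
      simp only [ofMul_mul, map_add] at h
      rw [h]; ring
    simp_rw [key]
    rw [Finset.sum_sub_distrib, Finset.sum_add_distrib,
      Equiv.sum_comp D.σ (fun i => L (Additive.ofMul (nu p ℓ hne i)))]
    simp only [Finset.sum_const, Finset.card_univ, Fintype.card_option, Fintype.card_fin,
      nsmul_eq_mul]
    push_cast
    ring
  · intro γ D
    show ∑ i, L (Additive.ofMul (dHom p (D.δ i))) = L (Additive.ofMul (dHom p γ))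
    simp_rw [dHom_eq_of_U p γ D]
    simp only [Finset.sum_const, Finset.card_univ, Fintype.card_fin, nsmul_eq_mul]
    have h1 : ((p : ℕ) : ZMod (eisensteinNumerator p)) = 1 := by
      have h2 : ((p - 1 : ℕ) : ZMod (eisensteinNumerator p)) = 0 :=
        (ZMod.natCast_eq_zero_iff _ _).mpr (eisensteinNumerator_dvd p)
      rw [Nat.cast_sub hp.one_lt.le] at h2
      push_cast at h2
      linear_combination h2
    rw [h1, one_mul]

end Fermat.Agent.S16.Lower
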