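import Mathlib
import Fermat.Agent.S20
import Fermat.Agent.S21
import Fermat.Agent.S21.DimGamma0

/-!
# S16, lower bound, piece L-E: lifting homomorphisms `Γ₀(N) → ℤ/n` to parabolic `Γ₀(N) → ℤ`
-/

set_option autoImplicit false

open scoped MatrixGroups
open CongruenceSubgroup ModularGroup ModularCurve ModularCurve.Period
open Fermat.Agent.S21.DimBound

namespace Fermat.Agent.S16.Lower

namespace LiftAux

/-- the double coset relation for `⟨h⟩ \ SL₂(ℤ) / Γ` -/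
def dcSetoid (Γ : Subgroup SL(2, ℤ)) (h : SL(2, ℤ)) : Setoid SL(2, ℤ) where
  r g g' := ∃ (k : ℤ) (γ : Γ), g' = h ^ k * g * γ
  iseqv := by
    refine ⟨fun g => ⟨0, 1, by simp⟩, ?_, ?_⟩
    · rintro g g' ⟨k, γ, rfl⟩
      refine ⟨-k, γ⁻¹, ?_⟩
      rw [Subgroup.coe_inv, zpow_neg]
      group
    · rintro g g' g'' ⟨k, γ, rfl⟩ ⟨k', γ', rfl⟩
      refine ⟨k' + k, γ * γ', ?_⟩
      rw [Subgroup.coe_mul, zpow_add]
      group

theorem quasi_key {Γ : Subgroup SL(2, ℤ)} {A : Type} [AddCommGroup A] (h : SL(2, ℤ))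
    (ψ : Additive Γ →+ A)
    (hψ : ∀ (r : SL(2, ℤ)) (k : ℤ) (γ : Γ), (γ : SL(2, ℤ)) = r⁻¹ * h ^ k * r →
      ψ (Additive.ofMul γ) = 0) (r : SL(2, ℤ)) (n n' : ℤ) (γ γ' : Γ)
    (e : h ^ n * r * γ = h ^ n' * r * γ') : ψ (Additive.ofMul γ) = ψ (Additive.ofMul γ') := by
  have h1 : ((γ' * γ⁻¹ : Γ) : SL(2, ℤ)) = r⁻¹ * h ^ (n - n') * r := by
    have : (γ' : SL(2, ℤ)) = r⁻¹ * h ^ (n - n') * r * γ := by
      have h2 : (γ' : SL(2, ℤ)) = (h ^ n' * r)⁻¹ * (h ^ n * r * γ) := by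
        rw [e, inv_mul_cancel_left]
      rw [h2, zpow_sub]
      group
    rw [Subgroup.coe_mul, this, Subgroup.coe_inv, mul_inv_cancel_right]
  have h2 : ψ (Additive.ofMul (γ' * γ⁻¹)) = 0 := hψ _ _ _ h1
  have h3 : ψ (Additive.ofMul (γ' * γ⁻¹)) = ψ (Additive.ofMul γ') - ψ (Additive.ofMul γ) := by
    rw [ofMul_mul, map_add, ofMul_inv, map_neg, sub_eq_add_neg]
  rw [h3] at h2
  exact (sub_eq_zero.mp h2).symm


/-- the group of integral coboundary combinations `(S - 1) w - (ST - 1) y` -/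
def cobZ (Γ : Subgroup SL(2, ℤ)) : AddSubgroup (SL(2, ℤ) ⧸ Γ → ℤ) where
  carrier := {e | ∃ w y : SL(2, ℤ) ⧸ Γ → ℤ,
    ∀ x, e x = (w (S⁻¹ • x) - w x) - (y ((S * T)⁻¹ • x) - y x)}
  zero_mem' := ⟨0, 0, fun x => by simp⟩
  add_mem' := by
    rintro a b ⟨w, y, h⟩ ⟨w', y', h'⟩
    refine ⟨w + w', y + y', fun x => ?_⟩
    simp only [Pi.add_apply, h x, h' x]
    ring
  neg_mem' := by
    rintro a ⟨w, y, h⟩
    refine ⟨-w, -y, fun x => ?_⟩
    simp only [Pi.neg_apply, h x]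
    ring

/-- The subgroup of those `h` whose action is trivial modulo `cobZ`. -/
def trivZ (Γ : Subgroup SL(2, ℤ)) : Subgroup SL(2, ℤ) where
  carrier := {h | ∀ v : SL(2, ℤ) ⧸ Γ → ℤ, (fun x => v (h⁻¹ • x)) - v ∈ cobZ Γ}
  mul_mem' := by
    intro a b ha hb v
    have h1 := ha (fun x => v (b⁻¹ • x))
    have h2 := hb v
    have : (fun x => v ((a * b)⁻¹ • x)) - v =
        ((fun x => v (b⁻¹ • (a⁻¹ • x))) - fun x => v (b⁻¹ • x)) +
          ((fun x => v (b⁻¹ • x)) - v) := by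
      funext x
      simp only [Pi.sub_apply, Pi.add_apply, mul_inv_rev, mul_smul]
      ring
    rw [this]
    exact (cobZ Γ).add_mem h1 h2
  one_mem' := by
    intro v
    have : (fun x => v ((1 : SL(2, ℤ))⁻¹ • x)) - v = 0 := by
      funext x
      simp
    rw [this]
    exact (cobZ Γ).zero_mem
  inv_mem' := by
    intro a ha v
    have h1 := ha (fun x => v (a⁻¹⁻¹ • x))
    have : (fun x => v (a⁻¹⁻¹ • x)) - v =
        -((fun x => v (a⁻¹⁻¹ • (a⁻¹ • x))) - fun x => v (a⁻¹⁻¹ • x)) := by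
      funext x
      simp only [Pi.sub_apply, Pi.neg_apply, inv_inv, smul_inv_smul]
      ring
    rw [this]
    exact (cobZ Γ).neg_mem h1

theorem trivZ_eq_top (Γ : Subgroup SL(2, ℤ)) : trivZ Γ = ⊤ := by
  have hS : S ∈ trivZ Γ := fun v => ⟨v, 0, fun x => by simp⟩
  have hST : S * T ∈ trivZ Γ := fun v => ⟨0, -v, fun x => by simp; ring⟩
  have hT : T ∈ trivZ Γ := by
    have := (trivZ Γ).mul_mem ((trivZ Γ).inv_mem hS) hST
    rwa [inv_mul_cancel_left] at this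
  rw [eq_top_iff, ← SpecialLinearGroup.SL2Z_generators, Subgroup.closure_le]
  rintro x (rfl | rfl)
  · exact hS
  · exact hT

theorem single_sub_single_mem_cobZ {Γ : Subgroup SL(2, ℤ)} [DecidableEq (SL(2, ℤ) ⧸ Γ)]
    (x y : SL(2, ℤ) ⧸ Γ) :
    (Pi.single x (1 : ℤ) - Pi.single y 1 : SL(2, ℤ) ⧸ Γ → ℤ) ∈ cobZ Γ := by
  obtain ⟨h, rfl⟩ := MulAction.exists_smul_eq SL(2, ℤ) y x
  have hh : h ∈ trivZ Γ := by rw [trivZ_eq_top]; trivial
  have := hh (Pi.single y 1)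
  convert this using 2
  funext z
  simp only [Pi.single_apply]
  congr 1
  rw [eq_iff_iff, inv_smul_eq_iff]


/-- a function on `SL₂(ℤ)` which is left invariant under `S⁻¹` and `T⁻¹` is constant -/
theorem const_of_inv {A : Type} (d : SL(2, ℤ) → A) (hT : ∀ g, d (T⁻¹ * g) = d g)
    (hS : ∀ g, d (S⁻¹ * g) = d g) (g : SL(2, ℤ)) : d g = d 1 := by
  have key : ∀ h : SL(2, ℤ), ∀ g, d (h * g) = d g := by
    intro h
    have hh : h ∈ Subgroup.closure ({S, T} : Set SL(2, ℤ)) := by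
      rw [SpecialLinearGroup.SL2Z_generators]; trivial
    induction hh using Subgroup.closure_induction with
    | mem x hx =>
      intro g
      rcases hx with rfl | rfl
      · have := hS (S * g)
        rw [inv_mul_cancel_left] at this
        exact this.symm
      · have := hT (T * g)
        rw [inv_mul_cancel_left] at this
        exact this.symm
    | one => intro g; rw [one_mul]
    | mul x y _ _ hx hy => intro g; rw [mul_assoc, hx, hy]
    | inv x _ hx =>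
      intro g
      have := hx (x⁻¹ * g)
      rw [mul_inv_cancel_left] at this
      exact this.symm
  have := key g 1
  rwa [mul_one] at this

theorem UT_T_zpow_mul {Γ : Subgroup SL(2, ℤ)} (u : UT Γ) (k : ℤ) (g : SL(2, ℤ)) :
    u.1 (T ^ k * g) = u.1 g := by
  induction k using Int.induction_on with
  | zero => simp
  | succ n ih =>
    rw [zpow_add, zpow_one, mul_assoc, ← ih]
    have : T ^ (n : ℤ) * (T * g) = T * (T ^ (n : ℤ) * g) := by
      rw [← mul_assoc, ← mul_assoc, ← zpow_add_one, ← zpow_one_add, add_comm]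
    rw [this, UT.T_mul]
  | pred n ih =>
    rw [zpow_sub, zpow_one, mul_assoc, ← ih]
    have : T ^ (-(n : ℤ)) * (T⁻¹ * g) = T⁻¹ * (T ^ (-(n : ℤ)) * g) := by
      rw [← mul_assoc, ← mul_assoc, ← zpow_sub_one, ← zpow_neg_one, ← zpow_add, add_comm]
      rfl
    rw [this, UT.inv_T]

theorem upper_eq (γ : SL(2, ℤ)) (h : γ 1 0 = 0) :
    ∃ k : ℤ, γ = T ^ k ∨ γ = (S * S) * T ^ k := by
  have hdet : γ 0 0 * γ 1 1 - γ 0 1 * γ 1 0 = 1 := by
    have := γ.det_coe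
    rwa [Matrix.det_fin_two] at this
  rw [h, mul_zero, sub_zero] at hdet
  rcases Int.eq_one_or_neg_one_of_mul_eq_one' hdet with ⟨h0, h1⟩ | ⟨h0, h1⟩
  · refine ⟨γ 0 1, Or.inl ?_⟩
    ext i j
    rw [coe_T_zpow]
    fin_cases i <;> fin_cases j <;> simp [h, h0, h1]
  · refine ⟨-γ 0 1, Or.inr ?_⟩
    ext i j
    rw [Matrix.SpecialLinearGroup.coe_mul, coe_T_zpow, Matrix.SpecialLinearGroup.coe_mul]
    fin_cases i <;> fin_cases j <;>
      simp [h, h0, h1, ModularGroup.S, Matrix.mul_apply, Fin.sum_univ_two]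

end LiftAux

open LiftAux

/-- [L-E1] Generalisation of `S21.DimBound.exists_UT_of_parabolic` (same proof: representatives of
`⟨h⟩ \ SL₂(ℤ) / Γ`) to an arbitrary element `h` and an arbitrary coefficient group. -/
theorem exists_quasi {Γ : Subgroup SL(2, ℤ)} {A : Type} [AddCommGroup A] (h : SL(2, ℤ))
    (ψ : Additive Γ →+ A)
    (hψ : ∀ (r : SL(2, ℤ)) (k : ℤ) (γ : Γ), (γ : SL(2, ℤ)) = r⁻¹ * h ^ k * r →
      ψ (Additive.ofMul γ) = 0) :
    ∃ u : SL(2, ℤ) → A, (∀ (g : SL(2, ℤ)) (γ : Γ), u (g * γ) = u g + ψ (Additive.ofMul γ)) ∧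
      ∀ g, u (h⁻¹ * g) = u g := by
  let s := dcSetoid Γ h
  let rep : SL(2, ℤ) → SL(2, ℤ) := fun g => (Quotient.mk s g).out
  have hdec : ∀ g, ∃ (k : ℤ) (γ : Γ), g = h ^ k * rep g * γ := fun g => Quotient.mk_out (s := s) g
  have hrep1 : ∀ (g : SL(2, ℤ)) (δ : Γ), rep (g * δ) = rep g := by
    intro g δ
    have : Quotient.mk s (g * δ) = Quotient.mk s g :=
      Quotient.sound (s := s) (s.symm ⟨0, δ, by simp⟩)
    simp only [rep, this]
  have hrep2 : ∀ g : SL(2, ℤ), rep (h⁻¹ * g) = rep g := by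
    intro g
    have : Quotient.mk s (h⁻¹ * g) = Quotient.mk s g :=
      Quotient.sound (s := s) (s.symm ⟨-1, 1, by simp⟩)
    simp only [rep, this]
  choose n γ hnγ using hdec
  refine ⟨fun g => ψ (Additive.ofMul (γ g)), ?_, ?_⟩
  · intro g δ
    have e1 := hnγ (g * δ)
    rw [hrep1] at e1
    have e2 : g * δ = h ^ n g * rep g * ((γ g * δ : Γ) : SL(2, ℤ)) := by
      rw [Subgroup.coe_mul, ← mul_assoc, ← hnγ g]
    have := quasi_key h ψ hψ _ _ _ _ _ (e1.symm.trans e2)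
    show ψ (Additive.ofMul (γ (g * δ))) = _
    rw [this, ofMul_mul, map_add]
  · intro g
    have e1 := hnγ (h⁻¹ * g)
    rw [hrep2] at e1
    have e2 : h⁻¹ * g = h ^ (n g - 1) * rep g * (γ g : SL(2, ℤ)) := by
      conv_lhs => rw [hnγ g]
      rw [zpow_sub, zpow_one]
      have hc : h⁻¹ * h ^ n g = h ^ n g * h⁻¹ := by
        rw [← zpow_neg_one, ← zpow_add, ← zpow_add, add_comm]
      rw [← mul_assoc, ← mul_assoc, hc]
    exact quasi_key h ψ hψ _ _ _ _ _ (e1.symm.trans e2)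

/-- [L-E2] Integral version of `S21.DimBound.ker_sumFun_le` (same proof: `trivSubgroup` trick,
transitivity of the action, `SL2Z_generators`). -/
theorem exists_of_sum_eq_zero {Γ : Subgroup SL(2, ℤ)} [Fintype (SL(2, ℤ) ⧸ Γ)]
    (e : SL(2, ℤ) ⧸ Γ → ℤ) (he : ∑ x, e x = 0) :
    ∃ w y : SL(2, ℤ) ⧸ Γ → ℤ, ∀ x, e x = (w (S⁻¹ • x) - w x) - (y ((S * T)⁻¹ • x) - y x) := by
  classical
  change e ∈ cobZ Γ
  let x₀ : SL(2, ℤ) ⧸ Γ := ((1 : SL(2, ℤ)) : SL(2, ℤ) ⧸ Γ)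
  have : e = ∑ x, e x • (Pi.single x (1 : ℤ) - Pi.single x₀ 1 : SL(2, ℤ) ⧸ Γ → ℤ) := by
    simp only [smul_sub, Finset.sum_sub_distrib, ← Finset.sum_smul, he, zero_smul, sub_zero]
    funext y
    simp [Finset.sum_apply, Pi.single_apply]
  rw [this]
  exact AddSubgroup.sum_mem _ fun x _ =>
    AddSubgroup.zsmul_mem _ (single_sub_single_mem_cobZ x x₀) _

/-- [L-E3] from L-E2: take arbitrary lifts `w₀, y₀`; the defect is `n • e'` with `∑ e' = 0`. -/
theorem exists_lift_pair {Γ : Subgroup SL(2, ℤ)} [Finite (SL(2, ℤ) ⧸ Γ)] (n : ℕ)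
    (w y : SL(2, ℤ) ⧸ Γ → ZMod n)
    (h : ∀ x, w (S⁻¹ • x) - w x = y ((S * T)⁻¹ • x) - y x) :
    ∃ w' y' : SL(2, ℤ) ⧸ Γ → ℤ, (∀ x, w' (S⁻¹ • x) - w' x = y' ((S * T)⁻¹ • x) - y' x) ∧
      (∀ x, ((w' x : ℤ) : ZMod n) = w x) ∧ ∀ x, ((y' x : ℤ) : ZMod n) = y x := by
  classical
  letI : Fintype (SL(2, ℤ) ⧸ Γ) := Fintype.ofFinite _
  choose w₀ hw₀ using fun x => ZMod.intCast_surjective (w x)
  choose y₀ hy₀ using fun x => ZMod.intCast_surjective (y x)
  let d : SL(2, ℤ) ⧸ Γ → ℤ := fun x => (w₀ (S⁻¹ • x) - w₀ x) - (y₀ ((S * T)⁻¹ • x) - y₀ x)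
  have hd : ∀ x, (n : ℤ) ∣ d x := by
    intro x
    rw [← ZMod.intCast_zmod_eq_zero_iff_dvd]
    simp only [d]
    push_cast
    rw [hw₀, hw₀, hy₀, hy₀, h x, sub_self]
  choose e he using hd
  have hsumd : ∑ x, d x = 0 := by
    simp only [d, Finset.sum_sub_distrib]
    have h1 : ∑ x, w₀ (S⁻¹ • x) = ∑ x, w₀ x :=
      Equiv.sum_comp (MulAction.toPerm (S⁻¹ : SL(2, ℤ))) w₀
    have h2 : ∑ x, y₀ ((S * T)⁻¹ • x) = ∑ x, y₀ x :=
      Equiv.sum_comp (MulAction.toPerm ((S * T)⁻¹ : SL(2, ℤ))) y₀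
    rw [h1, h2]; ring
  by_cases hn : n = 0
  · subst hn
    refine ⟨w₀, y₀, fun x => ?_, hw₀, hy₀⟩
    have := he x
    simp only [d, Nat.cast_zero, zero_mul] at this
    linarith
  have hsume : ∑ x, e x = 0 := by
    have : (n : ℤ) * ∑ x, e x = 0 := by
      rw [Finset.mul_sum, ← hsumd]
      exact Finset.sum_congr rfl fun x _ => (he x).symm
    rcases mul_eq_zero.mp this with h0 | h0
    · exact absurd (by exact_mod_cast h0) hn
    · exact h0
  obtain ⟨a, b, hab⟩ := exists_of_sum_eq_zero e hsume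
  refine ⟨fun x => w₀ x - n * a x, fun x => y₀ x - n * b x, fun x => ?_, fun x => ?_, fun x => ?_⟩
  · have h1 := he x
    have h2 := hab x
    simp only [d] at h1
    rw [h2] at h1
    linarith
  · push_cast
    rw [hw₀]; simp
  · push_cast
    rw [hy₀]; simp

/-- [L-E4] All inequalities in `S21.DimBound.six_mul_finrank_le` are equalities for `Γ₀(N)`
(`S20.result`, `S21.result`: `finrank parabolicHoms = 2 * finrank S₂ = 2 * genusFormula`), hence the
injective map `u ↦ (u 1, lam u)`, `UT → ℂ × (A ⊓ B)` is onto. -/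
theorem exists_UT_of_mem (N : ℕ) [NeZero N] (x : SL(2, ℤ) ⧸ Gamma0 N → ℂ)
    (hA : x ∈ Fermat.Agent.S20.permEigen (perm (Gamma0 N) S) (-1))
    (hB : x ∈ kerThree (perm (Gamma0 N) (S * T))) :
    ∃ u : UT (Gamma0 N), lam (Gamma0 N) u = x ∧ u.1 1 = 0 := by
  classical
  haveI := finite_quotient_Gamma0 N
  letI : Fintype (SL(2, ℤ) ⧸ Gamma0 N) := Fintype.ofFinite _
  have hz := SS_mem_Gamma0 N
  have hpar : (Module.finrank ℂ (parabolicHoms ℂ (Gamma0 N) ℂ) : ℚ) = 2 * genusFormula N := by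
    obtain ⟨hinj, hrange⟩ := Fermat.Agent.S21.result N
    haveI := Fermat.Agent.S21.finiteDimensional_cuspForm N
    rw [← hrange, LinearMap.finrank_range_of_inj hinj, Module.finrank_prod]
    push_cast
    rw [Fermat.Agent.S20.result N]
    ring
  have h1 := finrank_parabolicHoms_add_le (Γ := Gamma0 N)
  have h2 := finrank_UT_le (Γ := Gamma0 N) hz
  have h3 := finrank_inf_le (Γ := Gamma0 N) hz
  have h4 := S20.finrank_permEigen_two_neg_one (perm (Gamma0 N) S) (perm_S_sq hz)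
  have h5 := finrank_kerThree_add_le (perm (Gamma0 N) (S * T))
  have h6 := S20.finrank_permEigen_three_one (perm (Gamma0 N) (S * T)) (perm_ST_pow_three hz)
  rw [card_fix_perm] at h4 h6
  rw [← Nat.card_eq_fintype_card (α := SL(2, ℤ) ⧸ Gamma0 N)] at h3 h4 h5 h6
  rw [S20.card_quotient_Gamma0] at h3 h4 h5 h6
  rw [S20.card_fixedBy_S] at h4
  rw [S20.card_fixedBy_ST] at h6
  rw [S20.card_orbits_T] at h1
  have h7 : 6 * Module.finrank ℂ (parabolicHoms ℂ (Gamma0 N) ℂ) + 6 * cuspCount N + 3 * nuTwo N +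
      4 * nuThree N = 12 + dedekindPsi N := by
    have : (6 * (Module.finrank ℂ (parabolicHoms ℂ (Gamma0 N) ℂ) : ℚ) + 6 * (cuspCount N : ℚ) +
        3 * (nuTwo N : ℚ) + 4 * (nuThree N : ℚ)) = 12 + (dedekindPsi N : ℚ) := by
      rw [hpar]
      unfold genusFormula
      ring
    exact_mod_cast this
  have hfin : Module.finrank ℂ (UT (Gamma0 N)) =
      1 + Module.finrank ℂ ↥(S20.permEigen (perm (Gamma0 N) S) (-1) ⊓
        kerThree (perm (Gamma0 N) (S * T))) := by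
    omega
  let L : UT (Gamma0 N) →ₗ[ℂ] ℂ × ↥(S20.permEigen (perm (Gamma0 N) S) (-1) ⊓
      kerThree (perm (Gamma0 N) (S * T))) :=
    LinearMap.prod ((LinearMap.proj (1 : SL(2, ℤ))).comp (UT (Gamma0 N)).subtype)
      (LinearMap.codRestrict _ (lam (Gamma0 N)) fun u => ⟨lam_mem_A hz u, lam_mem_B hz u⟩)
  have hL : Function.Injective L := by
    intro u v huv
    apply injective_prod_lam (Gamma0 N)
    have h1 : u.1 1 = v.1 1 := congrArg Prod.fst huv
    have h2 : lam (Gamma0 N) u = lam (Gamma0 N) v :=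
      congrArg (fun p => (p.2 : (SL(2, ℤ) ⧸ Gamma0 N) → ℂ)) huv
    exact Prod.ext h1 h2
  haveI := finiteDimensional_UT (Γ := Gamma0 N)
  have hsurj : Function.Surjective L := by
    refine (LinearMap.injective_iff_surjective_of_finrank_eq_finrank ?_).mp hL
    rw [Module.finrank_prod, Module.finrank_self, hfin]
  obtain ⟨u, hu⟩ := hsurj (0, ⟨x, hA, hB⟩)
  refine ⟨u, ?_, ?_⟩
  · exact congrArg (fun p => (p.2 : (SL(2, ℤ) ⧸ Gamma0 N) → ℂ)) hu
  · exact congrArg Prod.fst hu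

/-- [L-E5] `{g | ∀ h, u (g * h) - u h ∈ ℤ}` is a subgroup containing `S`, `T`. -/
theorem UT_int {Γ : Subgroup SL(2, ℤ)} (u : UT Γ) (h1 : u.1 1 = 0)
    (hx : ∀ x, ∃ k : ℤ, lam Γ u x = k) : ∀ g, ∃ k : ℤ, u.1 g = k := by
  have key : ∀ h : SL(2, ℤ), ∀ g, ∃ k : ℤ, u.1 (h * g) - u.1 g = k := by
    intro h
    have hh : h ∈ Subgroup.closure ({S, T} : Set SL(2, ℤ)) := by
      rw [SpecialLinearGroup.SL2Z_generators]; trivial
    induction hh using Subgroup.closure_induction with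
    | mem x hx' =>
      intro g
      rcases hx' with rfl | rfl
      · obtain ⟨k, hk⟩ := hx ((S * g : SL(2, ℤ)) : SL(2, ℤ) ⧸ Γ)
        rw [lam_mk, inv_mul_cancel_left] at hk
        refine ⟨-k, ?_⟩
        push_cast
        rw [← hk]; ring
      · exact ⟨0, by rw [UT.T_mul]; simp⟩
    | one => intro g; exact ⟨0, by simp⟩
    | mul x y _ _ hx hy =>
      intro g
      obtain ⟨a, ha⟩ := hx (y * g)
      obtain ⟨b, hb⟩ := hy g
      refine ⟨a + b, ?_⟩
      push_cast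
      rw [← ha, ← hb, mul_assoc]; ring
    | inv x _ hx =>
      intro g
      obtain ⟨a, ha⟩ := hx (x⁻¹ * g)
      rw [mul_inv_cancel_left] at ha
      refine ⟨-a, ?_⟩
      push_cast
      rw [← ha]; ring
  intro g
  obtain ⟨k, hk⟩ := key g 1
  rw [mul_one, h1, sub_zero] at hk
  exact ⟨k, hk⟩

/-- [L-E5] `S21.exists_conj_upper`: `tr² = 4` implies `γ = ± r⁻¹ T^k r`. -/
theorem piHom_mem_parabolicHoms {Γ : Subgroup SL(2, ℤ)} (hz : S * S ∈ Γ) (u : UT Γ) :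
    piHom Γ u ∈ parabolicHoms ℂ Γ ℂ := by
  intro γ hγ
  obtain ⟨δ, hδ⟩ := Fermat.Agent.S21.exists_conj_upper (γ : SL(2, ℤ)) hγ
  obtain ⟨k, hk⟩ := upper_eq _ hδ
  have e1 : δ⁻¹ * (γ : SL(2, ℤ)) = (δ⁻¹ * γ * δ) * δ⁻¹ := by group
  have e2 : u.1 (δ⁻¹ * (γ : SL(2, ℤ))) = u.1 δ⁻¹ := by
    rw [e1]
    rcases hk with hk | hk
    · rw [hk, UT_T_zpow_mul]
    · rw [hk, mul_assoc, UT.SS_mul hz, UT_T_zpow_mul]
  have e3 := UT.rel u δ⁻¹ γ
  rw [e2] at e3
  rw [piHom_apply]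
  linear_combination -e3

/-- [L-E6] -/
theorem eq_of_T_of_S {A : Type} [AddCommGroup A] (u v : SL(2, ℤ) → A)
    (hu : ∀ g, u (T⁻¹ * g) = u g) (hv : ∀ g, v (T⁻¹ * g) = v g)
    (hS : ∀ g, u (S⁻¹ * g) - u g = v (S⁻¹ * g) - v g) (h1 : u 1 = v 1) : u = v := by
  funext g
  have := const_of_inv (fun g => u g - v g) (fun g => by simp only [hu, hv])
    (fun g => by
      have := hS g
      rw [sub_eq_sub_iff_add_eq_add] at this ⊢
      rw [this, add_comm]) g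
  simp only [h1, sub_self] at this
  exact sub_eq_zero.mp this

namespace LiftAux

theorem S_pow_twelve : (S : SL(2, ℤ)) ^ 12 = 1 := by
  have h4 : (S : SL(2, ℤ)) ^ 4 = 1 := by
    have := SS_mul_SS
    calc (S : SL(2, ℤ)) ^ 4 = (S * S) * (S * S) := by
          simp only [pow_succ, pow_zero, one_mul, mul_assoc]
      _ = 1 := this
  calc (S : SL(2, ℤ)) ^ 12 = (S ^ 4) ^ 3 := by rw [← pow_mul]
    _ = 1 := by rw [h4, one_pow]

theorem ST_pow_twelve : ((S * T : SL(2, ℤ))) ^ 12 = 1 := by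
  have h3 : ((S * T : SL(2, ℤ))) ^ 3 = S * S := by
    rw [← ST_cube]; simp only [pow_succ, pow_zero, one_mul]
  calc ((S * T : SL(2, ℤ))) ^ 12 = (((S * T) ^ 3) * ((S * T) ^ 3)) ^ 2 := by
        rw [← pow_add, ← pow_mul]
    _ = 1 := by rw [h3, SS_mul_SS, one_pow]

theorem conj_zpow_pow_twelve {h : SL(2, ℤ)} (hh : h ^ 12 = 1) (r : SL(2, ℤ)) (k : ℤ) :
    (r⁻¹ * h ^ k * r) ^ 12 = 1 := by
  have h1 : r⁻¹ * h ^ k * r = r⁻¹ * h ^ k * (r⁻¹)⁻¹ := by rw [inv_inv]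
  rw [h1, conj_pow, ← zpow_natCast, ← zpow_mul, mul_comm, zpow_mul, zpow_natCast, hh, one_zpow]
  simp

theorem exists_desc {Γ : Subgroup SL(2, ℤ)} {A : Type} (f : SL(2, ℤ) → A)
    (hf : ∀ (g : SL(2, ℤ)) (γ : Γ), f (g * γ) = f g) :
    ∃ F : SL(2, ℤ) ⧸ Γ → A, ∀ g : SL(2, ℤ), F (g : SL(2, ℤ) ⧸ Γ) = f g := by
  refine ⟨fun x => Quotient.liftOn' x f ?_, fun g => rfl⟩
  intro a b hab
  have hab' : a⁻¹ * b ∈ Γ := QuotientGroup.leftRel_apply.mp hab
  have := hf a ⟨a⁻¹ * b, hab'⟩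
  simp only [mul_inv_cancel_left] at this
  exact this.symm

end LiftAux

open LiftAux in
/-- [L-E7] Assembly. `u_T, u_S, u_U` from L-E1 for `h = T, S, S * T`; `w = u_T - u_S`,
`y = u_T - u_U` descend to the coset space; lift by L-E3; `x = (S - 1) w' = (U - 1) y'` lies in
`A ⊓ B`; L-E4, L-E5 give an integral parabolic hom; L-E6 compares it with `κ` mod `n`. -/
theorem exists_lift (N : ℕ) [NeZero N] (n : ℕ) (κ : Additive (Gamma0 N) →+ ZMod n)
    (h1 : ∀ γ : Gamma0 N, γ ^ 12 = 1 → κ (Additive.ofMul γ) = 0)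
    (h2 : ∀ γ : Gamma0 N, ((γ : SL(2, ℤ)) : Matrix (Fin 2) (Fin 2) ℤ).trace ^ 2 = 4 →
      κ (Additive.ofMul γ) = 0) :
    ∃ κt : Additive (Gamma0 N) →+ ℤ, IsParabolicHom (Gamma0 N) κt ∧
      ∀ γ, ((κt γ : ℤ) : ZMod n) = κ γ := by
  classical
  have := Fermat.Agent.S21.DimBound.finite_quotient_Gamma0 N
  have hz := Fermat.Agent.S21.DimBound.SS_mem_Gamma0 N
  -- the three quasi-invariant functions
  have htors : ∀ h : SL(2, ℤ), h ^ 12 = 1 → ∀ (r : SL(2, ℤ)) (k : ℤ) (γ : Gamma0 N),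
      (γ : SL(2, ℤ)) = r⁻¹ * h ^ k * r → κ (Additive.ofMul γ) = 0 := by
    intro h hh r k γ hγ
    apply h1
    apply Subtype.ext
    rw [Subgroup.coe_pow, hγ, conj_zpow_pow_twelve hh]
    rfl
  obtain ⟨uT, uT1, uT2⟩ := exists_quasi (Γ := Gamma0 N) T κ (by
    intro r k γ hγ
    apply h2
    rw [hγ, trace_conj_T_zpow]
    norm_num)
  obtain ⟨uS, uS1, uS2⟩ := exists_quasi (Γ := Gamma0 N) S κ (htors S S_pow_twelve)
  obtain ⟨uU, uU1, uU2⟩ := exists_quasi (Γ := Gamma0 N) (S * T) κ (htors (S * T) ST_pow_twelve)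
  obtain ⟨w, hw⟩ := exists_desc (Γ := Gamma0 N) (fun g => uT g - uS g) (by
    intro g γ
    simp only [uT1, uS1]
    abel)
  obtain ⟨y, hy⟩ := exists_desc (Γ := Gamma0 N) (fun g => uT g - uU g) (by
    intro g γ
    simp only [uT1, uU1]
    abel)
  have hsm : ∀ (a g : SL(2, ℤ)), a • (g : SL(2, ℤ) ⧸ Gamma0 N) = ((a * g : SL(2, ℤ)) : SL(2, ℤ) ⧸ Gamma0 N) :=
    fun a g => rfl
  have hwS : ∀ g : SL(2, ℤ), w (S⁻¹ • (g : SL(2, ℤ) ⧸ Gamma0 N)) - w g = uT (S⁻¹ * g) - uT g := by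
    intro g
    rw [hsm, hw, hw, uS2]
    abel
  have hrel : ∀ x, w (S⁻¹ • x) - w x = y ((S * T)⁻¹ • x) - y x := by
    intro x
    induction x using Quotient.inductionOn' with
    | h g =>
      show w (S⁻¹ • (g : SL(2, ℤ) ⧸ Gamma0 N)) - w g = y ((S * T)⁻¹ • (g : SL(2, ℤ) ⧸ Gamma0 N)) - y g
      rw [hwS, hsm, hy, hy, uU2]
      have : uT ((S * T)⁻¹ * g) = uT (S⁻¹ * g) := by
        rw [mul_inv_rev, mul_assoc, uT2]
      rw [this]
      abel
  obtain ⟨w', y', hrel', hw', hy'⟩ := exists_lift_pair n w y hrel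
  -- the complex vector
  let x : SL(2, ℤ) ⧸ Gamma0 N → ℂ := fun c => ((w' (S⁻¹ • c) - w' c : ℤ) : ℂ)
  have hpS : ∀ c : SL(2, ℤ) ⧸ Gamma0 N, perm (Gamma0 N) S c = S⁻¹ • c := fun c => rfl
  have hpU : ∀ c : SL(2, ℤ) ⧸ Gamma0 N, perm (Gamma0 N) (S * T) c = (S * T)⁻¹ • c := fun c => rfl
  have hA : x ∈ Fermat.Agent.S20.permEigen (perm (Gamma0 N) S) (-1) := by
    intro c
    show ((w' (S⁻¹ • (perm (Gamma0 N) S c)) - w' (perm (Gamma0 N) S c) : ℤ) : ℂ) =
      -1 * ((w' (S⁻¹ • c) - w' c : ℤ) : ℂ)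
    rw [← hpS, perm_S_S hz, hpS]
    push_cast
    ring
  have hB : x ∈ kerThree (perm (Gamma0 N) (S * T)) := by
    intro c
    have e : ∀ c, x c = ((y' ((S * T)⁻¹ • c) - y' c : ℤ) : ℂ) := by
      intro c
      show ((w' (S⁻¹ • c) - w' c : ℤ) : ℂ) = _
      rw [hrel']
    rw [e, e, e, ← hpU, ← hpU, ← hpU, perm_ST_cube hz]
    push_cast
    ring
  obtain ⟨u, hu, hu1⟩ := exists_UT_of_mem N x hA hB
  have hint := UT_int u hu1 (fun c => ⟨_, by rw [hu]⟩)
  choose v hv using hint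
  have hv1 : v 1 = 0 := by
    have := hv 1
    rw [hu1] at this
    exact_mod_cast this.symm
  have hpar := piHom_mem_parabolicHoms hz u
  have hpi : ∀ γ : Gamma0 N, piHom (Gamma0 N) u (Additive.ofMul γ) = (v γ : ℂ) := by
    intro γ
    rw [piHom_apply, hu1, hv, sub_zero]
  let κt : Additive (Gamma0 N) →+ ℤ :=
    { toFun := fun γ => v ((Additive.toMul γ : Gamma0 N) : SL(2, ℤ))
      map_zero' := by
        show v ((1 : Gamma0 N) : SL(2, ℤ)) = 0
        rw [Subgroup.coe_one, hv1]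
      map_add' := by
        intro a b
        have := map_add (piHom (Gamma0 N) u) a b
        have ha := hpi (Additive.toMul a)
        have hb := hpi (Additive.toMul b)
        have hab := hpi (Additive.toMul (a + b))
        simp only [ofMul_toMul] at ha hb hab
        rw [ha, hb, hab] at this
        exact_mod_cast this }
  have hκt : ∀ γ : Gamma0 N, κt (Additive.ofMul γ) = v γ := fun γ => rfl
  refine ⟨κt, ?_, ?_⟩
  · intro γ hγ
    have := hpar γ hγ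
    rw [hpi] at this
    rw [hκt]
    exact_mod_cast this
  · -- comparison mod n
    have hcmp : (fun g => ((v g : ℤ) : ZMod n)) = fun g => uT g - uT 1 := by
      apply eq_of_T_of_S
      · intro g
        have : v (T⁻¹ * g) = v g := by
          have := UT.inv_T u g
          rw [hv, hv] at this
          exact_mod_cast this
        simp only [this]
      · intro g
        simp only [uT2]
      · intro g
        have e1 : v (S⁻¹ * g) - v g = w' (S⁻¹ • (g : SL(2, ℤ) ⧸ Gamma0 N)) - w' g := by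
          have := congrFun hu (g : SL(2, ℤ) ⧸ Gamma0 N)
          rw [lam_mk, hv, hv] at this
          have h3 : (((v (S⁻¹ * g) - v g : ℤ)) : ℂ) =
              ((w' (S⁻¹ • (g : SL(2, ℤ) ⧸ Gamma0 N)) - w' g : ℤ) : ℂ) := by
            rw [Int.cast_sub]; exact this
          exact_mod_cast h3
        have e2 : ((v (S⁻¹ * g) : ℤ) : ZMod n) - ((v g : ℤ) : ZMod n) =
            w (S⁻¹ • (g : SL(2, ℤ) ⧸ Gamma0 N)) - w g := by
          rw [← Int.cast_sub, e1, Int.cast_sub, hw', hw']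
        rw [e2, hwS]
        abel
      · simp [hv1]
    intro γ
    have e := congrFun hcmp ((Additive.toMul γ : Gamma0 N) : SL(2, ℤ))
    show ((v ((Additive.toMul γ : Gamma0 N) : SL(2, ℤ)) : ℤ) : ZMod n) = κ γ
    rw [e]
    have := uT1 1 (Additive.toMul γ)
    rw [one_mul] at this
    rw [this]
    simp

end Fermat.Agent.S16.Lower
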