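import Mathlib
import Fermat.Prelude.Def_CuspForm_HeckeAlgebra
import Fermat.Agent.S21.Final
import Fermat.Agent.S16.LData

/-!
# S16, lower bound, piece L-B: the period map is Hecke equivariant
-/

set_option autoImplicit false

open scoped MatrixGroups ModularForm
open CongruenceSubgroup ModularCurve ModularCurve.Period UpperHalfPlane

namespace Fermat.Agent.S16.Lower

namespace PeriodAux

open Fermat.Agent.S21

/-- Chain rule for the Moebius action of `GL₂(ℝ)⁺`. -/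
theorem isPrim_comp_smul {F f : ℍ → ℂ} (hF : IsPrim F f) (α : GL (Fin 2) ℝ)
    (hdet : 0 < α.val.det) :
    IsPrim (fun z => F (α • z)) (f ∣[(2 : ℤ)] α) := by
  intro τ
  have h1 := (hasStrictDerivAt_smul hdet τ).hasDerivAt
  have h2 : HasDerivAt (F ∘ ofComplex) (f (α • τ)) (↑(α • ofComplex (τ : ℂ))) := by
    rw [ofComplex_apply]
    exact hF (α • τ)
  have h3 := h2.comp (τ : ℂ) h1
  have heq : ((fun z => F (α • z)) ∘ ofComplex) =
      ((F ∘ ofComplex) ∘ fun z : ℂ => (↑(α • ofComplex z) : ℂ)) := by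
    funext z
    simp only [Function.comp_apply, ofComplex_apply]
  rw [heq]
  have hσ : UpperHalfPlane.σ α = .refl ℝ ℂ := by
    rw [UpperHalfPlane.σ, if_pos (by simpa using hdet)]
  have hval : (f ∣[(2 : ℤ)] α) τ = f (α • τ) * ((α.val.det : ℂ) / denom α τ ^ 2) := by
    rw [ModularForm.slash_apply, hσ]
    simp only [ContinuousAlgEquiv.refl_apply]
    rw [Matrix.GeneralLinearGroup.val_det_apply, abs_of_pos hdet]
    rw [zpow_neg, show (2 : ℤ) - 1 = 1 by norm_num, zpow_one, mul_assoc, div_eq_mul_inv]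
    rfl
  rw [hval]
  exact h3

theorem isPrim_sum {ι : Type*} (s : Finset ι) (F f : ι → ℍ → ℂ) (h : ∀ i ∈ s, IsPrim (F i) (f i)) :
    IsPrim (fun z => ∑ i ∈ s, F i z) (fun z => ∑ i ∈ s, f i z) := by
  intro τ
  have h1 := HasDerivAt.fun_sum (u := s) (A := fun i => F i ∘ ofComplex) (A' := fun i => f i τ)
    (x := (τ : ℂ)) (fun i hi => h i hi τ)
  exact h1

/-- The general telescoping statement. -/
theorem periodMap_eq_sum {N : ℕ} [NeZero N] {ι : Type} [Fintype ι] (A : ι → GL (Fin 2) ℝ)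
    (hA : ∀ i, 0 < (A i).val.det) (f g : CuspForm (Gamma0 N) 2)
    (hg : ∀ z, g z = ∑ i, ((f : ℍ → ℂ) ∣[(2 : ℤ)] A i) z) (γ : Gamma0 N) (σ : Equiv.Perm ι)
    (δ : ι → Gamma0 N)
    (rel : ∀ i, A i * (((γ : SL(2, ℤ)) : GL (Fin 2) ℝ)) =
      (((δ i : SL(2, ℤ)) : GL (Fin 2) ℝ)) * A (σ i)) :
    periodMap N g (Additive.ofMul γ) = ∑ i, periodMap N f (Additive.ofMul (δ i)) := by
  obtain ⟨F, hF⟩ := exists_primitive N f
  obtain ⟨G₀, hG₀⟩ := exists_primitive N g
  have hG : IsPrim (fun z => ∑ i, F (A i • z)) g := by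
    have h1 := isPrim_sum Finset.univ (fun i z => F (A i • z)) (fun i => (f : ℍ → ℂ) ∣[(2 : ℤ)] A i)
      (fun i _ => isPrim_comp_smul hF.1 (A i) (hA i))
    exact h1.congr_right (fun z => (hg z).symm)
  have hc := hG.sub_const hG₀.1 ((γ : SL(2, ℤ)) • I) I
  rw [periodMap_apply hG₀ γ I]
  have h2 : G₀ ((γ : SL(2, ℤ)) • I) - G₀ I =
      (∑ i, F (A i • ((γ : SL(2, ℤ)) • I))) - ∑ i, F (A i • I) := by
    linear_combination -hc
  rw [h2]
  have h3 : ∀ i, A i • ((γ : SL(2, ℤ)) • I) = (δ i : SL(2, ℤ)) • (A (σ i) • I) := by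
    intro i
    change A i • (((γ : SL(2, ℤ)) : GL (Fin 2) ℝ) • I) =
      ((δ i : SL(2, ℤ)) : GL (Fin 2) ℝ) • (A (σ i) • I)
    rw [← mul_smul, ← mul_smul, rel]
  have h4 : ∑ i, F (A i • I) = ∑ i, F (A (σ i) • I) :=
    (Equiv.sum_comp σ (fun i => F (A i • I))).symm
  rw [h4, ← Finset.sum_sub_distrib]
  apply Finset.sum_congr rfl
  intro i _
  rw [h3, periodMap_apply hF (δ i) (A (σ i) • I)]

theorem lift_rel (a b : GL (Fin 2) ℝ) (Ma Mb : Matrix (Fin 2) (Fin 2) ℤ)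
    (ha : a.val = Ma.map (Int.cast : ℤ → ℝ)) (hb : b.val = Mb.map (Int.cast : ℤ → ℝ))
    (γ δ : SL(2, ℤ))
    (h : Ma * (γ : Matrix (Fin 2) (Fin 2) ℤ) = (δ : Matrix (Fin 2) (Fin 2) ℤ) * Mb) :
    a * (γ : GL (Fin 2) ℝ) = (δ : GL (Fin 2) ℝ) * b := by
  apply Units.ext
  have h1 : ((γ : GL (Fin 2) ℝ)).val = (γ : Matrix (Fin 2) (Fin 2) ℤ).map (Int.cast : ℤ → ℝ) := by
    ext i j; simp
  have h2 : ((δ : GL (Fin 2) ℝ)).val = (δ : Matrix (Fin 2) (Fin 2) ℤ).map (Int.cast : ℤ → ℝ) := by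
    ext i j; simp
  rw [Units.val_mul, Units.val_mul, ha, hb, h1, h2]
  have h3 := congrArg (fun M : Matrix (Fin 2) (Fin 2) ℤ => M.map (Int.castRingHom ℝ)) h
  simp only [Matrix.map_mul] at h3
  exact h3

/-- real versions of the representatives -/
noncomputable def glT (ℓ : ℕ) : Option (Fin ℓ) → GL (Fin 2) ℝ
  | none => ModularForm.heckeDiagMatrix ℓ
  | some j => ModularForm.heckeMatrix ℓ j

theorem glT_val {ℓ : ℕ} (hℓ : ℓ ≠ 0) (i : Option (Fin ℓ)) :
    (glT ℓ i).val = (matT ℓ i).map (Int.cast : ℤ → ℝ) := by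
  cases i with
  | none =>
    show (ModularForm.heckeDiagMatrix ℓ).val = (matD ℓ).map _
    rw [ModularForm.val_heckeDiagMatrix hℓ, matD]
    ext i j; fin_cases i <;> fin_cases j <;> simp
  | some j =>
    show (ModularForm.heckeMatrix ℓ j).val = (matU ℓ j).map _
    rw [ModularForm.val_heckeMatrix hℓ, matU]
    ext i j; fin_cases i <;> fin_cases j <;> simp

theorem glT_det_pos (ℓ : ℕ) (i : Option (Fin ℓ)) : 0 < (glT ℓ i).val.det := by
  cases i with
  | none =>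
    have := ModularForm.det_heckeDiagMatrix_pos ℓ
    rwa [Matrix.GeneralLinearGroup.val_det_apply] at this
  | some j =>
    have := ModularForm.det_heckeMatrix_pos ℓ j
    rwa [Matrix.GeneralLinearGroup.val_det_apply] at this

end PeriodAux

open PeriodAux

/-- [L-B1] If `F` is the primitive of `f`, then `z ↦ ∑_j F((z+j)/ℓ) + F(ℓ z)` is a primitive of
`T_ℓ f` (`S21.IsPrim`, `IsPrim.sub_const`, `S21.exists_primitive`, `S21.periodMap_apply`), and the
sum telescopes along the data. -/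
theorem periodMap_heckeTLin {N ℓ : ℕ} [NeZero N] (hℓ : ℓ.Prime) (hN : ¬ ℓ ∣ N)
    (f : CuspForm (Gamma0 N) 2) (γ : Gamma0 N) (D : HData N (matT ℓ) γ) :
    periodMap N (CuspForm.heckeTLin 2 hℓ hN f) (Additive.ofMul γ) =
      ∑ i, periodMap N f (Additive.ofMul (D.δ i)) := by
  apply periodMap_eq_sum (glT ℓ) (glT_det_pos ℓ) f _ _ γ D.σ D.δ
  · intro i
    exact lift_rel _ _ _ _ (glT_val hℓ.ne_zero i) (glT_val hℓ.ne_zero _) _ _ (D.rel i)
  · intro z
    rw [CuspForm.heckeTLin_apply_apply, ModularForm.heckeT_def, Fintype.sum_option, Pi.add_apply,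
      Finset.sum_apply, Finset.sum_range, add_comm]
    rfl

/-- [L-B1] -/
theorem periodMap_heckeULin {N ℓ : ℕ} [NeZero N] (hℓ : ℓ.Prime) (hN : ℓ ∣ N)
    (f : CuspForm (Gamma0 N) 2) (γ : Gamma0 N) (D : HData N (matUF ℓ) γ) :
    periodMap N (CuspForm.heckeULin 2 hN f) (Additive.ofMul γ) =
      ∑ i, periodMap N f (Additive.ofMul (D.δ i)) := by
  apply periodMap_eq_sum (fun j : Fin ℓ => glT ℓ (some j)) (fun j => glT_det_pos ℓ _) f _ _ γ
    D.σ D.δ
  · intro i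
    exact lift_rel _ _ _ _ (glT_val hℓ.ne_zero (some i)) (glT_val hℓ.ne_zero (some _)) _ _ (D.rel i)
  · intro z
    rw [CuspForm.heckeULin_apply_apply, ModularForm.heckeU_def, Finset.sum_apply, Finset.sum_range]
    rfl

/-- [L-B2] from L-B1, `S21.periodHomPair_apply`, `charInvolution_apply`, `exists_HData_conj_T`. -/
theorem periodHomPair_heckeTLin {N ℓ : ℕ} [NeZero N] (hℓ : ℓ.Prime) (hN : ¬ ℓ ∣ N)
    (f g : CuspForm (Gamma0 N) 2) (γ : Gamma0 N) (D : HData N (matT ℓ) γ) :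
    periodHomPair N (CuspForm.heckeTLin 2 hℓ hN f, CuspForm.heckeTLin 2 hℓ hN g)
        (Additive.ofMul γ) =
      ∑ i, periodHomPair N (f, g) (Additive.ofMul (D.δ i)) := by
  obtain ⟨D', hD'⟩ := exists_HData_conj_T hℓ.pos D
  simp only [Fermat.Agent.S21.periodHomPair_apply, AddMonoidHom.add_apply, AddMonoidHom.sub_apply,
    charInvolution_apply, toMul_ofMul]
  rw [periodMap_heckeTLin hℓ hN f γ D, periodMap_heckeTLin hℓ hN g γ D,
    periodMap_heckeTLin hℓ hN f _ D', periodMap_heckeTLin hℓ hN g _ D', hD', hD']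
  simp only [Finset.sum_add_distrib, Finset.sum_sub_distrib]

/-- [L-B2] -/
theorem periodHomPair_heckeULin {N ℓ : ℕ} [NeZero N] (hℓ : ℓ.Prime) (hN : ℓ ∣ N)
    (f g : CuspForm (Gamma0 N) 2) (γ : Gamma0 N) (D : HData N (matUF ℓ) γ) :
    periodHomPair N (CuspForm.heckeULin 2 hN f, CuspForm.heckeULin 2 hN g)
        (Additive.ofMul γ) =
      ∑ i, periodHomPair N (f, g) (Additive.ofMul (D.δ i)) := by
  obtain ⟨D', hD'⟩ := exists_HData_conj_U hℓ.pos D
  simp only [Fermat.Agent.S21.periodHomPair_apply, AddMonoidHom.add_apply, AddMonoidHom.sub_apply,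
    charInvolution_apply, toMul_ofMul]
  rw [periodMap_heckeULin hℓ hN f γ D, periodMap_heckeULin hℓ hN g γ D,
    periodMap_heckeULin hℓ hN f _ D', periodMap_heckeULin hℓ hN g _ D', hD', hD']
  simp only [Finset.sum_add_distrib, Finset.sum_sub_distrib]

end Fermat.Agent.S16.Lower
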