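import Mathlib
import Fermat.Prelude.Def_CuspForm_HeckeEvalForms
import Fermat.Prelude.Def_ModularCurve_ModularUnit
import Fermat.Agent.S16.LData
import Fermat.Agent.S16.LPeriod
import Fermat.Agent.S16.LKappa
import Fermat.Agent.S16.LLift

/-!
# S16, lower bound: `n ∣ m` whenever `m` lies in the Eisenstein ideal of the Hecke algebra
-/

set_option autoImplicit false

open scoped MatrixGroups
open CongruenceSubgroup ModularCurve ModularCurve.Period CuspForm

namespace Fermat.Agent.S16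

namespace Lower

/-- All values of `φ` are integer multiples of `n`. -/
def IntVal {N : ℕ} (n : ℤ) (φ : Additive (Gamma0 N) →+ ℂ) : Prop :=
  ∀ γ : Gamma0 N, ∃ k : ℤ, φ (Additive.ofMul γ) = ((n * k : ℤ) : ℂ)

theorem IntVal.add {N : ℕ} {n : ℤ} {φ ψ : Additive (Gamma0 N) →+ ℂ} (h1 : IntVal n φ)
    (h2 : IntVal n ψ) : IntVal n (φ + ψ) := by
  intro γ
  obtain ⟨a, ha⟩ := h1 γ
  obtain ⟨b, hb⟩ := h2 γ
  refine ⟨a + b, ?_⟩
  rw [AddMonoidHom.add_apply, ha, hb]
  push_cast
  ring

theorem IntVal.zero {N : ℕ} (n : ℤ) : IntVal n (0 : Additive (Gamma0 N) →+ ℂ) :=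
  fun _ => ⟨0, by simp⟩

theorem IntVal.sum_apply {N : ℕ} {n : ℤ} {φ : Additive (Gamma0 N) →+ ℂ} (h : IntVal n φ)
    {ι : Type} (s : Finset ι) (δ : ι → Gamma0 N) :
    ∃ k : ℤ, ∑ i ∈ s, φ (Additive.ofMul (δ i)) = ((n * k : ℤ) : ℂ) := by
  classical
  induction s using Finset.induction_on with
  | empty => exact ⟨0, by simp⟩
  | insert a s ha ih =>
    obtain ⟨k, hk⟩ := ih
    obtain ⟨b, hb⟩ := h (δ a)
    refine ⟨b + k, ?_⟩
    rw [Finset.sum_insert ha, hk, hb]
    push_cast
    ring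

variable {N : ℕ} [NeZero N]

/-- The Hecke algebra preserves `n`-divisible integrality of periods. -/
theorem intVal_of_mem_heckeAlgebra (n : ℤ)
    {t : Module.End ℂ (CuspForm (Gamma0 N) 2)} (ht : t ∈ heckeAlgebra N 2 ∅) :
    ∀ f g : CuspForm (Gamma0 N) 2, IntVal n (periodHomPair N (f, g)) →
      IntVal n (periodHomPair N (t f, t g)) := by
  induction ht using Algebra.adjoin_induction with
  | mem x hx =>
    intro f g h γ
    rcases hx with ⟨ℓ, hℓ, hℓN, -, rfl⟩ | ⟨q, hqN, hq, -, rfl⟩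
    · obtain ⟨D⟩ := nonempty_HData_T hℓ hℓN γ
      rw [periodHomPair_heckeTLin hℓ hℓN f g γ D]
      exact h.sum_apply _ _
    · obtain ⟨D⟩ := nonempty_HData_U hq hqN γ
      rw [periodHomPair_heckeULin hq hqN f g γ D]
      exact h.sum_apply _ _
  | algebraMap r =>
    intro f g h γ
    obtain ⟨k, hk⟩ := h γ
    refine ⟨r * k, ?_⟩
    have h1 : (algebraMap ℤ (Module.End ℂ (CuspForm (Gamma0 N) 2)) r f,
        algebraMap ℤ (Module.End ℂ (CuspForm (Gamma0 N) 2)) r g) = (r : ℂ) • (f, g) := by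
      simp [Prod.smul_mk, Int.cast_smul_eq_zsmul]
    rw [h1, map_smul, AddMonoidHom.smul_apply, hk]
    push_cast
    simp only [smul_eq_mul]
    ring
  | add x y _ _ hx hy =>
    intro f g h
    have h1 : ((x + y) f, (x + y) g) = (x f, x g) + (y f, y g) := by
      simp [LinearMap.add_apply]
    rw [h1, map_add]
    exact (hx f g h).add (hy f g h)
  | mul x y _ _ hx hy =>
    intro f g h
    exact hx _ _ (hy f g h)

/-- The ideal of Hecke operators sending a given period class into `n`-divisible classes. -/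
def divIdeal (n : ℤ) (f g : CuspForm (Gamma0 N) 2) : Ideal (heckeAlgebra N 2 ∅) where
  carrier := {t | IntVal n (periodHomPair N
    ((t : Module.End ℂ (CuspForm (Gamma0 N) 2)) f, (t : Module.End ℂ (CuspForm (Gamma0 N) 2)) g))}
  add_mem' := by
    intro a b ha hb
    have h1 : (((a + b : heckeAlgebra N 2 ∅) : Module.End ℂ (CuspForm (Gamma0 N) 2)) f,
        ((a + b : heckeAlgebra N 2 ∅) : Module.End ℂ (CuspForm (Gamma0 N) 2)) g) =
        ((a : Module.End ℂ (CuspForm (Gamma0 N) 2)) f,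
          (a : Module.End ℂ (CuspForm (Gamma0 N) 2)) g) +
        ((b : Module.End ℂ (CuspForm (Gamma0 N) 2)) f,
          (b : Module.End ℂ (CuspForm (Gamma0 N) 2)) g) := by
      simp [LinearMap.add_apply]
    show IntVal n _
    rw [h1, map_add]
    exact IntVal.add ha hb
  zero_mem' := by
    show IntVal n _
    have h1 : (((0 : heckeAlgebra N 2 ∅) : Module.End ℂ (CuspForm (Gamma0 N) 2)) f,
        ((0 : heckeAlgebra N 2 ∅) : Module.End ℂ (CuspForm (Gamma0 N) 2)) g) = 0 := by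
      simp
    rw [h1, map_zero]
    exact IntVal.zero n
  smul_mem' := by
    intro c x hx
    exact intVal_of_mem_heckeAlgebra n c.2 _ _ hx

theorem mem_divIdeal (n : ℤ) (f g : CuspForm (Gamma0 N) 2) (t : heckeAlgebra N 2 ∅) :
    t ∈ divIdeal n f g ↔ IntVal n (periodHomPair N
      ((t : Module.End ℂ (CuspForm (Gamma0 N) 2)) f,
        (t : Module.End ℂ (CuspForm (Gamma0 N) 2)) g)) := Iff.rfl

/-- An ideal containing all `gen_l - a_l` contains the image of the eigen-ideal. -/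
theorem map_eigenIdeal_le (a : Nat.Primes → ℤ) (J : Ideal (heckeAlgebra N 2 ∅))
    (hJ : ∀ l : Nat.Primes, heckeFormsGen N 2 l - ((a l : ℤ) : heckeAlgebra N 2 ∅) ∈ J) :
    Ideal.map (heckeEvalForms N 2) (eigenIdeal a) ≤ J := by
  rw [Ideal.map_le_iff_le_comap]
  intro x hx
  rw [mem_eigenIdeal_iff] at hx
  have key : (Ideal.Quotient.mk J).comp (heckeEvalForms N 2) =
      (Int.castRingHom (heckeAlgebra N 2 ∅ ⧸ J)).comp
        (MvPolynomial.aeval (R := ℤ) a).toRingHom := by
    apply MvPolynomial.ringHom_ext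
    · intro r
      simp
    · intro l
      have h1 : heckeEvalForms N 2 (MvPolynomial.X l) = heckeFormsGen N 2 l :=
        heckeEvalForms_heckeGen N 2 l
      simp only [RingHom.comp_apply, h1, AlgHom.toRingHom_eq_coe, RingHom.coe_coe,
        MvPolynomial.aeval_X, eq_intCast]
      have := (Ideal.Quotient.eq (I := J)).mpr (hJ l)
      rw [this, map_intCast]
  have h2 := congrArg (fun φ => φ x) key
  simp only [RingHom.comp_apply, AlgHom.toRingHom_eq_coe, RingHom.coe_coe, hx, map_zero] at h2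
  exact Ideal.mem_comap.mpr (Ideal.Quotient.eq_zero_iff_mem.mp h2)

end Lower

open Lower

/-- [L-F] The lower bound. -/
theorem lower (p : ℕ) [Fact p.Prime] (m : ℤ)
    (hm : (m : heckeAlgebra p 2 ∅) ∈ Ideal.map (heckeEvalForms p 2) (eisensteinIdeal p)) :
    (eisensteinNumerator p : ℤ) ∣ m := by
  set n := eisensteinNumerator p with hn
  obtain ⟨κ, hsurj, hk12, hktr, hkT, hkU⟩ := exists_kappa p
  obtain ⟨κt, hpar, hred⟩ := exists_lift p n κ hk12 hktr
  -- the complex valued version of the lift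
  let κc : Additive (Gamma0 p) →+ ℂ := (Int.castAddHom ℂ).comp κt
  have hκc : κc ∈ parabolicHoms ℂ (Gamma0 p) ℂ := by
    rw [mem_parabolicHoms_iff]
    intro γ hγ
    show ((κt (Additive.ofMul γ) : ℤ) : ℂ) = 0
    rw [hpar γ hγ, Int.cast_zero]
  obtain ⟨⟨f₀, g₀⟩, hfg⟩ : κc ∈ LinearMap.range (periodHomPair p) := by
    rw [(Fermat.Agent.S21.result p).2]; exact hκc
  have hfgγ : ∀ γ : Gamma0 p, periodHomPair p (f₀, g₀) (Additive.ofMul γ) =
      ((κt (Additive.ofMul γ) : ℤ) : ℂ) := fun γ => by rw [hfg]; rfl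
  -- the generators of the Eisenstein ideal lie in `divIdeal`
  have hgen : ∀ l : Nat.Primes, heckeFormsGen p 2 l -
      ((eisensteinSystem p l : ℤ) : heckeAlgebra p 2 ∅) ∈ divIdeal (n : ℤ) f₀ g₀ := by
    intro l
    rw [mem_divIdeal]
    intro γ
    have hsplit : ∀ (t : heckeAlgebra p 2 ∅) (c : ℤ),
        periodHomPair p
          (((t - (c : heckeAlgebra p 2 ∅) : heckeAlgebra p 2 ∅) :
              Module.End ℂ (CuspForm (Gamma0 p) 2)) f₀,
            ((t - (c : heckeAlgebra p 2 ∅) : heckeAlgebra p 2 ∅) :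
              Module.End ℂ (CuspForm (Gamma0 p) 2)) g₀) (Additive.ofMul γ) =
        periodHomPair p ((t : Module.End ℂ (CuspForm (Gamma0 p) 2)) f₀,
            (t : Module.End ℂ (CuspForm (Gamma0 p) 2)) g₀) (Additive.ofMul γ) -
          (c : ℂ) * ((κt (Additive.ofMul γ) : ℤ) : ℂ) := by
      intro t c
      have h1 : (((t - (c : heckeAlgebra p 2 ∅) : heckeAlgebra p 2 ∅) :
              Module.End ℂ (CuspForm (Gamma0 p) 2)) f₀,
            ((t - (c : heckeAlgebra p 2 ∅) : heckeAlgebra p 2 ∅) :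
              Module.End ℂ (CuspForm (Gamma0 p) 2)) g₀) =
          ((t : Module.End ℂ (CuspForm (Gamma0 p) 2)) f₀,
            (t : Module.End ℂ (CuspForm (Gamma0 p) 2)) g₀) - (c : ℂ) • (f₀, g₀) := by
        simp [LinearMap.sub_apply, Prod.smul_mk, Int.cast_smul_eq_zsmul]
      rw [h1, map_sub, map_smul, AddMonoidHom.sub_apply, AddMonoidHom.smul_apply, hfgγ,
        smul_eq_mul]
    rw [hsplit]
    by_cases hl : (l : ℕ) ∣ p
    · have hlp : (l : ℕ) = p := (Nat.prime_dvd_prime_iff_eq l.2 Fact.out).mp hl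
      obtain ⟨D⟩ := nonempty_HData_U l.2 hl γ
      rw [heckeFormsGen_of_dvd hl, heckeAlgebra.coe_U, periodHomPair_heckeULin l.2 hl f₀ g₀ γ D,
        eisensteinSystem_of_dvd hl]
      simp only [hfgγ]
      have hz : (((∑ i, κt (Additive.ofMul (D.δ i)) - 1 * κt (Additive.ofMul γ) : ℤ)) : ZMod n)
          = 0 := by
        push_cast
        simp only [hred]
        obtain ⟨l, hl'⟩ := l
        simp only at hlp
        subst hlp
        rw [hkU γ D]
        ring
      obtain ⟨k, hk⟩ := (ZMod.intCast_zmod_eq_zero_iff_dvd _ n).mp hz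
      refine ⟨k, ?_⟩
      rw [← hk]
      push_cast
      ring
    · obtain ⟨D⟩ := nonempty_HData_T l.2 hl γ
      rw [heckeFormsGen_of_not_dvd hl, heckeAlgebra.coe_T,
        periodHomPair_heckeTLin l.2 hl f₀ g₀ γ D, eisensteinSystem_of_not_dvd hl]
      simp only [hfgγ]
      have hz : (((∑ i, κt (Additive.ofMul (D.δ i)) -
          (1 + (l : ℕ) : ℤ) * κt (Additive.ofMul γ) : ℤ)) : ZMod n) = 0 := by
        push_cast
        simp only [hred]
        rw [hkT l l.2 hl γ D]
        push_cast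
        ring
      obtain ⟨k, hk⟩ := (ZMod.intCast_zmod_eq_zero_iff_dvd _ n).mp hz
      refine ⟨k, ?_⟩
      rw [← hk]
      push_cast
      ring
  have hmJ : (m : heckeAlgebra p 2 ∅) ∈ divIdeal (n : ℤ) f₀ g₀ :=
    map_eigenIdeal_le (eisensteinSystem p) _ hgen hm
  rw [mem_divIdeal] at hmJ
  obtain ⟨γ, hγ⟩ := hsurj 1
  obtain ⟨k, hk⟩ := hmJ (Additive.toMul γ)
  have h1 : (((m : heckeAlgebra p 2 ∅) : Module.End ℂ (CuspForm (Gamma0 p) 2)) f₀,
      ((m : heckeAlgebra p 2 ∅) : Module.End ℂ (CuspForm (Gamma0 p) 2)) g₀) =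
      (m : ℂ) • (f₀, g₀) := by
    simp [Prod.smul_mk, Int.cast_smul_eq_zsmul]
  rw [h1, map_smul, AddMonoidHom.smul_apply, hfgγ, smul_eq_mul] at hk
  have h2 : m * κt γ = n * k := by
    have : ((m * κt γ : ℤ) : ℂ) = ((n * k : ℤ) : ℂ) := by
      rw [← hk]; push_cast; rfl
    exact_mod_cast this
  have h3 : ((m : ℤ) : ZMod n) = 0 := by
    have := congrArg (fun z : ℤ => (z : ZMod n)) h2
    simp only [Int.cast_mul, hred, hγ, mul_one, Int.cast_natCast, ZMod.natCast_self, zero_mul]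
      at this
    exact this
  exact (ZMod.intCast_zmod_eq_zero_iff_dvd m n).mp h3

end Fermat.Agent.S16
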