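import Fermat.Agent.S24.QExp
import Fermat.Agent.IntStruct.LevelOne

/-!
# S16 / UPPER / U-F : integrality at level one (unitriangular basis `Δ^i E₄^(m-3i)`)
-/

set_option autoImplicit false

open UpperHalfPlane ModularForm EisensteinSeries
open scoped MatrixGroups Manifold

noncomputable section

namespace Fermat.Agent.S16

namespace LevelOneAux

/-- multiplying by an integral power series preserves "coefficients `≤ M` lie in `A`" -/
theorem coeff_int_mul_mem (A : AddSubgroup ℂ) (Q : PowerSeries ℤ) (P : PowerSeries ℂ) (M : ℕ)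
    (h : ∀ n, n ≤ M → P.coeff n ∈ A) (n : ℕ) (hn : n ≤ M) :
    (Q.map (Int.castRingHom ℂ) * P).coeff n ∈ A := by
  rw [PowerSeries.coeff_mul]
  refine A.sum_mem fun x hx => ?_
  have hx' : x.1 + x.2 = n := by simpa using hx
  rw [PowerSeries.coeff_map]
  have : (Int.castRingHom ℂ) (Q.coeff x.1) * P.coeff x.2 = (Q.coeff x.1) • P.coeff x.2 := by
    simp
  rw [this]
  exact A.zsmul_mem (h _ (by omega)) _

theorem coeff_of_unit_mul_mem (A : AddSubgroup ℂ) (u : PowerSeries ℤ)
    (hu : PowerSeries.constantCoeff u = 1) (P : PowerSeries ℂ) (M : ℕ)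
    (h : ∀ n, n ≤ M → (u.map (Int.castRingHom ℂ) * P).coeff n ∈ A) (n : ℕ) (hn : n ≤ M) :
    P.coeff n ∈ A := by
  have hunit : IsUnit u := by
    rw [PowerSeries.isUnit_iff_constantCoeff, hu]; exact isUnit_one
  obtain ⟨v, hv⟩ := hunit.exists_left_inv
  have e : P = v.map (Int.castRingHom ℂ) * (u.map (Int.castRingHom ℂ) * P) := by
    rw [← mul_assoc, ← map_mul, hv, map_one, one_mul]
  rw [e]
  exact coeff_int_mul_mem A v _ M h n hn

theorem coeff_int_smul_mem (A : AddSubgroup ℂ) {c : ℂ} (hc : c ∈ A) {P : PowerSeries ℂ}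
    (hP : P ∈ IntStruct.LevelOne.intSeries) (n : ℕ) : (c • P).coeff n ∈ A := by
  obtain ⟨m, hm⟩ := (IntStruct.LevelOne.mem_intSeries_iff P).mp hP n
  rw [PowerSeries.coeff_smul, hm]
  have : c • (m : ℂ) = m • c := by simp [mul_comm]
  rw [this]
  exact A.zsmul_mem hc _

end LevelOneAux

open LevelOneAux IntStruct.LevelOne in
/-- **U-F**.  Let `F` be a level one form of weight `4m` and `A` any additive subgroup of `ℂ`.
If the coefficients `a_n(F)`, `n ≤ m/3`, lie in `A`, then all coefficients do. -/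
theorem levelOne_coeff_mem (A : AddSubgroup ℂ) (m : ℕ) {k : ℤ} (hk : k = 4 * m)
    (F : ModularForm 𝒮ℒ k) (h : ∀ n, 3 * n ≤ m → (qExpansion 1 F).coeff n ∈ A) (n : ℕ) :
    (qExpansion 1 F).coeff n ∈ A := by
  induction m using Nat.strong_induction_on generalizing k F n with
  | _ m ih =>
  have hab : ((m : ℕ) : ℤ) * 4 + ((0 : ℕ) : ℤ) * 6 = k := by rw [hk]; push_cast; ring
  set E := eisMonomial m 0 hab with hE
  set c := (qExpansion 1 F).coeff 0 with hc
  have hcA : c ∈ A := h 0 (by omega)
  have hsub : qExpansion 1 ⇑(F - c • E) = qExpansion 1 F - c • qExpansion 1 E := by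
    rw [FunLike.coe_sub, ModularForm.qExpansion_sub one_pos one_mem_strictPeriods_SL,
      FunLike.coe_smul, ModularForm.qExpansion_smul one_pos one_mem_strictPeriods_SL]
  have h0 : (qExpansion 1 ⇑(F - c • E)).coeff 0 = 0 := by
    rw [hsub, map_sub, PowerSeries.coeff_smul, eisMonomial_coeff_zero]
    simp [hc]
  set F₁ := CuspForm.discriminantEquiv (toCuspForm (F - c • E) h0) with hF₁
  have key := qExpansion_eq_qExpansion_discriminant_mul (F - c • E) h0
  rw [← hF₁, hsub, S24.qExpansion_discriminant] at key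
  have key' : qExpansion 1 F = c • qExpansion 1 E +
      (PowerSeries.X * ModularCurve.dedekindEtaUnit).map (Int.castRingHom ℂ) * qExpansion 1 F₁ := by
    rw [← key]; ring
  have hEmem : qExpansion 1 E ∈ intSeries := eisMonomial_mem m 0 hab
  -- it suffices to show that all coefficients of `F₁` lie in `A`
  suffices hF₁A : ∀ n, (qExpansion 1 F₁).coeff n ∈ A by
    rw [key', map_add]
    exact A.add_mem (coeff_int_smul_mem A hcA hEmem n)
      (coeff_int_mul_mem A _ _ n (fun j _ => hF₁A j) n le_rfl)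
  rcases lt_or_ge m 3 with hm | hm
  · have : F₁ = 0 :=
      rank_zero_iff_forall_zero.mp (levelOne_neg_weight_rank_zero (by omega)) F₁
    intro n
    rw [this, FunLike.coe_zero, qExpansion_zero]
    simp
  · refine ih (m - 3) (by omega) (k := k - 12) (by rw [hk]; push_cast [hm]; ring) F₁ ?_
    intro j hj
    refine coeff_of_unit_mul_mem A ModularCurve.dedekindEtaUnit
      ModularCurve.constantCoeff_dedekindEtaUnit _ j ?_ j le_rfl
    intro i hi
    have h1 : (qExpansion 1 F - c • qExpansion 1 E).coeff (i + 1) ∈ A := by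
      rw [map_sub]
      exact A.sub_mem (h _ (by omega)) (coeff_int_smul_mem A hcA hEmem _)
    rw [key, (PowerSeries.map (Int.castRingHom ℂ)).map_mul, mul_assoc, PowerSeries.map_X,
      PowerSeries.coeff_succ_X_mul] at h1
    exact h1

/-- weight four: `F = a₀(F) E₄` -/
theorem levelOne_weight_four (F : ModularForm 𝒮ℒ 4) (n : ℕ) (hn : 1 ≤ n) :
    (qExpansion 1 F).coeff n = (qExpansion 1 F).coeff 0 * (240 * (ArithmeticFunction.sigma 3 n : ℂ)) := by
  set c := (qExpansion 1 F).coeff 0 with hc
  have hsub : qExpansion 1 ⇑(F - c • E₄) = qExpansion 1 F - c • qExpansion 1 E₄ := by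
    rw [FunLike.coe_sub, ModularForm.qExpansion_sub one_pos one_mem_strictPeriods_SL,
      FunLike.coe_smul, ModularForm.qExpansion_smul one_pos one_mem_strictPeriods_SL]
  have h4 := E_qExpansion_coeff_zero (k := 4) (by norm_num) ⟨2, rfl⟩
  have h0 : (qExpansion 1 ⇑(F - c • E₄)).coeff 0 = 0 := by
    rw [hsub, map_sub, PowerSeries.coeff_smul]
    have : (qExpansion 1 E₄).coeff 0 = 1 := h4
    rw [this]
    simp [hc]
  have key := qExpansion_eq_qExpansion_discriminant_mul (F - c • E₄) h0
  have hz : CuspForm.discriminantEquiv (toCuspForm (F - c • E₄) h0) = 0 :=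
    rank_zero_iff_forall_zero.mp (levelOne_neg_weight_rank_zero (by norm_num)) _
  rw [hz, FunLike.coe_zero, qExpansion_zero, mul_zero, hsub, sub_eq_zero] at key
  rw [key, PowerSeries.coeff_smul]
  have h5 : (qExpansion 1 E₄).coeff n = 240 * (ArithmeticFunction.sigma 3 n : ℂ) := by
    have := E_qExpansion_coeff (k := 4) (by norm_num) ⟨2, rfl⟩ n
    have e : (qExpansion 1 E₄).coeff n = _ := this
    rw [e, if_neg (by omega)]
    norm_num [show bernoulli 4 = -1 / 30 by decide +kernel]
  rw [h5, smul_eq_mul]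

/-- weight two: `F = 0` -/
theorem levelOne_weight_two (F : ModularForm 𝒮ℒ 2) : F = 0 :=
  rank_zero_iff_forall_zero.mp levelOne_weight_two_rank_zero F

end Fermat.Agent.S16
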