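import Fermat.Agent.S16.Expand

/-!
# S16 / UPPER / U-R : the ring of `ℓ`-integral algebraic numbers
-/

set_option autoImplicit false

noncomputable section

namespace Fermat.Agent.S16

/-- complex numbers integral over `ℤ_(ℓ)` -/
def Rl (l : ℕ) [Fact l.Prime] : Subring ℂ where
  carrier := {x | ∃ m : ℤ, ¬ (l : ℤ) ∣ m ∧ IsIntegral ℤ ((m : ℂ) * x)}
  mul_mem' := by
    rintro x y ⟨m, hm, hx⟩ ⟨n, hn, hy⟩
    refine ⟨m * n, ?_, ?_⟩
    · intro h
      rcases (Nat.prime_iff_prime_int.mp (Fact.out : l.Prime)).dvd_or_dvd h with h | h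
      · exact hm h
      · exact hn h
    · have := hx.mul hy
      have e : ((m * n : ℤ) : ℂ) * (x * y) = (m : ℂ) * x * ((n : ℂ) * y) := by
        push_cast; ring
      rw [e]; exact this
  one_mem' := ⟨1, by
    intro h
    have := Int.natAbs_dvd_natAbs.mpr h
    simp at this
    exact (Fact.out : l.Prime).one_lt.ne' this, by simpa using isIntegral_one⟩
  add_mem' := by
    rintro x y ⟨m, hm, hx⟩ ⟨n, hn, hy⟩
    refine ⟨m * n, ?_, ?_⟩
    · intro h
      rcases (Nat.prime_iff_prime_int.mp (Fact.out : l.Prime)).dvd_or_dvd h with h | h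
      · exact hm h
      · exact hn h
    · have h1 : IsIntegral ℤ ((n : ℂ) * ((m : ℂ) * x)) :=
        (isIntegral_algebraMap (R := ℤ) (A := ℂ) (x := n)).mul hx
      have h2 : IsIntegral ℤ ((m : ℂ) * ((n : ℂ) * y)) :=
        (isIntegral_algebraMap (R := ℤ) (A := ℂ) (x := m)).mul hy
      have := h1.add h2
      have e : ((m * n : ℤ) : ℂ) * (x + y) = (n : ℂ) * ((m : ℂ) * x) + (m : ℂ) * ((n : ℂ) * y) := by
        push_cast; ring
      rw [e]; exact this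
  zero_mem' := ⟨1, by
    intro h
    have := Int.natAbs_dvd_natAbs.mpr h
    simp at this
    exact (Fact.out : l.Prime).one_lt.ne' this, by simpa using isIntegral_zero⟩
  neg_mem' := by
    rintro x ⟨m, hm, hx⟩
    refine ⟨m, hm, ?_⟩
    have := hx.neg
    convert this using 1
    ring

variable (l : ℕ) [Fact l.Prime]

theorem mem_Rl {x : ℂ} : x ∈ Rl l ↔ ∃ m : ℤ, ¬ (l : ℤ) ∣ m ∧ IsIntegral ℤ ((m : ℂ) * x) := Iff.rfl

theorem intCast_mem_Rl (m : ℤ) : (m : ℂ) ∈ Rl l := intCast_mem _ m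

theorem inv_intCast_mem_Rl {m : ℤ} (hm : ¬ (l : ℤ) ∣ m) : ((m : ℂ))⁻¹ ∈ Rl l := by
  refine ⟨m, hm, ?_⟩
  have h0 : (m : ℂ) ≠ 0 := by
    intro h
    apply hm
    have : m = 0 := by exact_mod_cast h
    rw [this]; exact dvd_zero _
  rw [mul_inv_cancel₀ h0]
  exact isIntegral_one

theorem isIntegral_mem_Rl {x : ℂ} (hx : IsIntegral ℤ x) : x ∈ Rl l := by
  refine ⟨1, ?_, by simpa using hx⟩
  intro h
  have := Int.natAbs_dvd_natAbs.mpr h
  simp at this
  exact (Fact.out : l.Prime).one_lt.ne' this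

theorem zt_mem_Rl (p : ℕ) [NeZero p] : zt p ∈ Rl l := by
  apply isIntegral_mem_Rl
  have h : zt p ^ p = 1 := by
    unfold zt
    rw [← Complex.exp_nat_mul]
    have hp : (p : ℂ) ≠ 0 := Nat.cast_ne_zero.mpr (NeZero.ne p)
    rw [show (p : ℂ) * (2 * Real.pi * Complex.I / p) = 2 * Real.pi * Complex.I by field_simp]
    exact Complex.exp_two_pi_mul_I
  exact IsIntegral.of_pow (Nat.pos_of_ne_zero (NeZero.ne p)) (by rw [h]; exact isIntegral_one)

/-- `ℓ R ∩ ℤ = ℓ ℤ` -/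
theorem dvd_of_eq_mul {u : ℤ} {r : ℂ} (hr : r ∈ Rl l) (h : (u : ℂ) = (l : ℂ) * r) : (l : ℤ) ∣ u := by
  obtain ⟨m, hm, hi⟩ := hr
  have hl0 : (l : ℂ) ≠ 0 := Nat.cast_ne_zero.mpr (Fact.out : l.Prime).ne_zero
  -- m * r = m * u / l is rational and integral
  have hq : (m : ℂ) * r = algebraMap ℚ ℂ ((m * u : ℤ) / (l : ℚ)) := by
    have : r = (u : ℂ) / l := by rw [h]; field_simp
    rw [this]
    simp
    ring
  rw [hq] at hi
  have hi' : IsIntegral ℤ (((m * u : ℤ) : ℚ) / (l : ℚ)) :=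
    (isIntegral_algebraMap_iff (algebraMap ℚ ℂ).injective).mp hi
  obtain ⟨z, hz⟩ := IsIntegrallyClosed.isIntegral_iff.mp hi'
  have hlq : (l : ℚ) ≠ 0 := Nat.cast_ne_zero.mpr (Fact.out : l.Prime).ne_zero
  have hz' : (z : ℚ) * l = ((m * u : ℤ) : ℚ) := by
    have : (algebraMap ℤ ℚ z) = (z : ℚ) := rfl
    rw [this] at hz
    rw [hz]; field_simp
  have hz'' : z * l = m * u := by exact_mod_cast hz'
  have hd : (l : ℤ) ∣ m * u := ⟨z, by rw [← hz'']; ring⟩
  rcases (Nat.prime_iff_prime_int.mp (Fact.out : l.Prime)).dvd_or_dvd hd with h | h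
  · exact absurd h hm
  · exact h

/-- the additive subgroup `ℓ R` of `ℂ` -/
def lRl : AddSubgroup ℂ where
  carrier := {x | ∃ r ∈ Rl l, x = (l : ℂ) * r}
  add_mem' := by
    rintro _ _ ⟨r, hr, rfl⟩ ⟨s, hs, rfl⟩
    exact ⟨r + s, add_mem hr hs, by ring⟩
  zero_mem' := ⟨0, zero_mem _, by ring⟩
  neg_mem' := by
    rintro _ ⟨r, hr, rfl⟩
    exact ⟨-r, neg_mem hr, by ring⟩

theorem mem_lRl {x : ℂ} : x ∈ lRl l ↔ ∃ r ∈ Rl l, x = (l : ℂ) * r := Iff.rfl

end Fermat.Agent.S16
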