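import Mathlib

/-!
# S16 / UPPER / U-G : the algebra of Step 2 (helper9's polynomial `P`)
-/

set_option autoImplicit false

namespace Fermat.Agent.S16

variable {A : Type*} [CommRing A]

/-- `P(X) = 27 X⁴ - 18 E₄ X² - 8 E₆ X - E₄²` -/
def Pol (e4 e6 X : A) : A := 27 * X ^ 4 - 18 * e4 * X ^ 2 - 8 * e6 * X - e4 ^ 2

theorem pol_gen (l ξ A3 A5 T a a' : A) (h3 : A3 = T + T ^ 2 * a) (h5 : A5 = T + T ^ 2 * a') :
    ∃ y z, Pol (1 + 240 * A3) (1 - 504 * A5) (1 + l * ξ) = 1 * ((-768) * T + T ^ 2 * y + l * z) := by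
  subst h3 h5
  refine ⟨-4800 * a + 4032 * a' - 57600 * (1 + T * a) ^ 2,
    ξ * (64 - 8640 * (T + T ^ 2 * a) + 4032 * (T + T ^ 2 * a')) +
      l * ξ ^ 2 * (144 - 4320 * (T + T ^ 2 * a)) + 108 * l ^ 2 * ξ ^ 3 + 27 * l ^ 3 * ξ ^ 4, ?_⟩
  unfold Pol
  ring

theorem pol_three (ξ A3 A5 T a a' : A) (h3 : A3 = T + T ^ 2 * a) (h5 : A5 = T + T ^ 2 * a') :
    ∃ y z, Pol (1 + 240 * A3) (1 - 504 * A5) (1 + 9 * ξ) = 3 * ((-256) * T + T ^ 2 * y + 3 * z) := by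
  subst h3 h5
  refine ⟨-1600 * a + 1344 * a' - 19200 * (1 + T * a) ^ 2,
    ξ * (64 - 8640 * (T + T ^ 2 * a) + 4032 * (T + T ^ 2 * a')) +
      9 * ξ ^ 2 * (144 - 4320 * (T + T ^ 2 * a)) + 8748 * ξ ^ 3 + 19683 * ξ ^ 4, ?_⟩
  unfold Pol
  ring

theorem pol_two (ξ A3 A5 T a D : A) (h3 : A3 = T + T ^ 2 * a) (h5 : A5 = A3 + 8 * D) :
    ∃ y z, Pol (1 + 240 * A3) (1 - 504 * A5) (1 + 8 * ξ) = 256 * (1 * T + T ^ 2 * y + 2 * z) := by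
  subst h5 h3
  refine ⟨a + (1 + T * a) ^ 2,
    63 * D - 2 * (T + T ^ 2 * a) - 113 * (T + T ^ 2 * a) ^ 2 +
      ξ * (1 - 135 * (T + T ^ 2 * a) + 63 * (T + T ^ 2 * a + 8 * D)) +
      2 * ξ ^ 2 * (9 - 270 * (T + T ^ 2 * a)) + 108 * ξ ^ 3 + 216 * ξ ^ 4, ?_⟩
  unfold Pol
  ring

theorem prod_form {ι : Type*} (s : Finset ι) (V u l T : A) (y z : ι → A) :
    ∃ Y Z, ∏ i ∈ s, (V * (u * T + T ^ 2 * y i + l * z i)) =
      V ^ s.card * (u ^ s.card * T ^ s.card + T ^ (s.card + 1) * Y + l * Z) := by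
  classical
  induction s using Finset.induction_on with
  | empty => exact ⟨0, 0, by simp⟩
  | insert i s hi ih =>
    obtain ⟨Y, Z, h⟩ := ih
    rw [Finset.prod_insert hi, h, Finset.card_insert_of_notMem hi]
    refine ⟨u * Y + y i * u ^ s.card + T * y i * Y,
      (u * T + T ^ 2 * y i) * Z + z i * (u ^ s.card * T ^ s.card + T ^ (s.card + 1) * Y + l * Z), ?_⟩
    ring

end Fermat.Agent.S16
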