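import Fermat.Agent.S16.Fricke
import Fermat.Agent.S16.LevelOne
import Fermat.Agent.S16.Ring
import Fermat.Agent.S16.Step2Alg
import Fermat.Prelude.Thm_CongruenceSubgroup_one_mem_strictPeriods_Gamma0

/-!
# S16 / UPPER / U-H : Step 2, `12 a₀(g) ∈ ℤ`   (helper9, board #220)
-/

set_option autoImplicit false

open UpperHalfPlane ModularForm EisensteinSeries CongruenceSubgroup ModularGroup
open scoped MatrixGroups Manifold

noncomputable section

namespace Fermat.Agent.S16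

open Fermat.Agent.S24

namespace Step2

/-! ### `Pol` on functions -/

section Fun

variable {p : ℕ} [NeZero p]

theorem isQp_const (c : ℂ) : IsQp p (fun _ : ℍ => c) := IsQ.const c

theorem XP_const (c : ℂ) : XP p (fun _ : ℍ => c) = PowerSeries.C c := qExpansion_const c

theorem pol_eq_smul (e4 e6 F : ℍ → ℂ) :
    Pol e4 e6 F = (27 : ℂ) • (F * F * (F * F)) + (-18 : ℂ) • (e4 * (F * F)) + (-8 : ℂ) • (e6 * F) +
      (-1 : ℂ) • (e4 * e4) := by
  ext z
  simp only [Pol, Pi.add_apply, Pi.sub_apply, Pi.mul_apply, Pi.pow_apply, Pi.smul_apply,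
    smul_eq_mul, Pi.ofNat_apply]
  ring

theorem isQp_pol {e4 e6 F : ℍ → ℂ} (h4 : IsQp p e4) (h6 : IsQp p e6) (hF : IsQp p F) :
    IsQp p (Pol e4 e6 F) := by
  rw [pol_eq_smul]
  exact ((((hF.mul hF).mul (hF.mul hF)).smul _).add ((h4.mul (hF.mul hF)).smul _)).add
    ((h6.mul hF).smul _) |>.add ((h4.mul h4).smul _)

theorem XP_pol {e4 e6 F : ℍ → ℂ} (h4 : IsQp p e4) (h6 : IsQp p e6) (hF : IsQp p F) :
    XP p (Pol e4 e6 F) = Pol (XP p e4) (XP p e6) (XP p F) := by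
  rw [pol_eq_smul]
  have a1 := ((hF.mul hF).mul (hF.mul hF)).smul (27 : ℂ)
  have a2 := (h4.mul (hF.mul hF)).smul (-18 : ℂ)
  have a3 := (h6.mul hF).smul (-8 : ℂ)
  have a4 := (h4.mul h4).smul (-1 : ℂ)
  rw [XP_add ((a1.add a2).add a3) a4, XP_add (a1.add a2) a3, XP_add a1 a2,
    XP_smul _ ((hF.mul hF).mul (hF.mul hF)), XP_smul _ (h4.mul (hF.mul hF)),
    XP_smul _ (h6.mul hF), XP_smul _ (h4.mul h4), XP_mul (hF.mul hF) (hF.mul hF),
    XP_mul hF hF, XP_mul h4 (hF.mul hF), XP_mul hF hF, XP_mul h6 hF, XP_mul h4 h4]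
  unfold Pol
  simp only [Algebra.smul_def]
  simp only [map_ofNat, map_neg, map_one]
  ring

end Fun

/-! ### `Pol` and conjugates -/

section Conj

variable {p : ℕ}

theorem isG0_pol {G : ℍ → ℂ} (hG : IsG0 p 2 G) : IsG0 p 8 (Pol (E₄ : ℍ → ℂ) (E₆ : ℍ → ℂ) G) := by
  rw [pol_eq_smul]
  have h4 : IsG0 p 4 (E₄ : ℍ → ℂ) := isG0_of_levelOne p E₄
  have h6 : IsG0 p 6 (E₆ : ℍ → ℂ) := isG0_of_levelOne p E₆
  have a1 : IsG0 p 8 (G * G * (G * G)) := (hG.mul hG).mul (hG.mul hG)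
  have a2 : IsG0 p 8 ((E₄ : ℍ → ℂ) * (G * G)) := h4.mul (hG.mul hG)
  have a3 : IsG0 p 8 ((E₆ : ℍ → ℂ) * G) := h6.mul hG
  have a4 : IsG0 p 8 ((E₄ : ℍ → ℂ) * (E₄ : ℍ → ℂ)) := h4.mul h4
  exact (((a1.smul _).add (a2.smul _)).add (a3.smul _)).add (a4.smul _)

theorem cj_pol (G : ℍ → ℂ) (j : ℕ) :
    cj 8 (Pol (E₄ : ℍ → ℂ) (E₆ : ℍ → ℂ) G) j = Pol (E₄ : ℍ → ℂ) (E₆ : ℍ → ℂ) (cj 2 G j) := by
  rw [pol_eq_smul, pol_eq_smul, cj_add, cj_add, cj_add, cj_smul, cj_smul, cj_smul, cj_smul]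
  have b1 : cj 8 (G * G * (G * G)) j = cj 2 G j * cj 2 G j * (cj 2 G j * cj 2 G j) := by
    rw [show (8 : ℤ) = (2 + 2) + (2 + 2) by norm_num, cj_mul, cj_mul]
  have b2 : cj 8 ((E₄ : ℍ → ℂ) * (G * G)) j = (E₄ : ℍ → ℂ) * (cj 2 G j * cj 2 G j) := by
    rw [show (8 : ℤ) = 4 + (2 + 2) by norm_num, cj_mul, cj_mul, cj_of_levelOne]
  have b3 : cj 8 ((E₆ : ℍ → ℂ) * G) j = (E₆ : ℍ → ℂ) * cj 2 G j := by
    rw [show (8 : ℤ) = 6 + 2 by norm_num, cj_mul, cj_of_levelOne]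
  have b4 : cj 8 ((E₄ : ℍ → ℂ) * (E₄ : ℍ → ℂ)) j = (E₄ : ℍ → ℂ) * (E₄ : ℍ → ℂ) := by
    rw [show (8 : ℤ) = 4 + 4 by norm_num, cj_mul, cj_of_levelOne]
  rw [b1, b2, b3, b4]

end Conj

/-! ### power series over a subring of `ℂ` -/

section Series

variable (R : Subring ℂ)

/-- the inclusion `R[[X]] → ℂ[[X]]` -/
abbrev inc : PowerSeries R →+* PowerSeries ℂ := PowerSeries.map R.subtype

theorem coeff_inc (P : PowerSeries R) (n : ℕ) : (inc R P).coeff n = (P.coeff n : ℂ) := by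
  simp [inc]

variable {R}

theorem exists_inc_eq {P : PowerSeries ℂ} {L : ℂ} (hL : L ∈ R)
    (h : ∀ n, ∃ r ∈ R, P.coeff n = (if n = 0 then 1 else 0) + L * r) :
    ∃ ξ : PowerSeries R, P = inc R (1 + PowerSeries.C (⟨L, hL⟩ : R) * ξ) := by
  choose r hr h using h
  refine ⟨PowerSeries.mk fun n => ⟨r n, hr n⟩, ?_⟩
  ext n
  rw [h n, coeff_inc, map_add, PowerSeries.coeff_C_mul, PowerSeries.coeff_mk, PowerSeries.coeff_one]
  split_ifs <;> simp

/-- the series `∑ c(n) X^(pn)` -/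
def up (p : ℕ) (c : ℕ → R) : PowerSeries R :=
  PowerSeries.mk fun m => if p ∣ m then c (m / p) else 0

theorem coeff_up (p : ℕ) (c : ℕ → R) (m : ℕ) :
    (up p c).coeff m = if p ∣ m then c (m / p) else 0 := PowerSeries.coeff_mk _ _

theorem up_structure {p : ℕ} (hp : 0 < p) (c : ℕ → R) (h0 : c 0 = 0) (h1 : c 1 = 1) :
    ∃ a : PowerSeries R, up p c = PowerSeries.X ^ p + (PowerSeries.X ^ p) ^ 2 * a := by
  have h : (PowerSeries.X : PowerSeries R) ^ (p * 2) ∣ up p c - PowerSeries.X ^ p := by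
    rw [PowerSeries.X_pow_dvd_iff]
    intro m hm
    rw [map_sub, coeff_up, PowerSeries.coeff_X_pow]
    by_cases hd : p ∣ m
    · obtain ⟨k, rfl⟩ := hd
      rw [if_pos (dvd_mul_right p k), Nat.mul_div_cancel_left _ hp]
      have hk : k < 2 := lt_of_mul_lt_mul_left hm (Nat.zero_le p)
      interval_cases k
      · rw [h0, if_neg (by simpa using hp.ne), sub_zero]
      · rw [h1, if_pos (by simp), sub_self]
    · rw [if_neg hd, if_neg (fun h : m = p => hd (h ▸ dvd_rfl)), sub_zero]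
  obtain ⟨a, ha⟩ := h
  refine ⟨a, ?_⟩
  rw [← pow_mul, ← ha]
  ring

end Series

/-! ### the expansions of `E₄`, `E₆` -/

section Eisenstein

theorem coeff_E4 (n : ℕ) : (qExpansion 1 E₄).coeff n =
    if n = 0 then 1 else 240 * (ArithmeticFunction.sigma 3 n : ℂ) := by
  rw [E_qExpansion_coeff _ ⟨2, rfl⟩]
  split_ifs with h
  · rfl
  · norm_num [show bernoulli 4 = -1 / 30 by decide +kernel]

theorem coeff_E6 (n : ℕ) : (qExpansion 1 E₆).coeff n =
    if n = 0 then 1 else -504 * (ArithmeticFunction.sigma 5 n : ℂ) := by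
  rw [E_qExpansion_coeff _ ⟨3, rfl⟩]
  split_ifs with h
  · rfl
  · norm_num [show bernoulli 6 = 1 / 42 by decide +kernel]

variable (R : Subring ℂ) (p : ℕ)

/-- `∑ σ₃(n) X^(pn)` -/
def A3 : PowerSeries R := up p fun n => ((ArithmeticFunction.sigma 3 n : ℕ) : R)

/-- `∑ σ₅(n) X^(pn)` -/
def A5 : PowerSeries R := up p fun n => ((ArithmeticFunction.sigma 5 n : ℕ) : R)

theorem XP_E4 [NeZero p] : XP p (E₄ : ℍ → ℂ) = inc R (1 + 240 * A3 R p) := by
  ext m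
  rw [coeff_XP_of_isQ (isQ_of_modularForm E₄), coeff_inc, map_add, PowerSeries.coeff_one,
    show (240 : PowerSeries R) = PowerSeries.C (240 : R) from (map_ofNat PowerSeries.C 240).symm, PowerSeries.coeff_C_mul, A3,
    coeff_up]
  have hp : 0 < p := Nat.pos_of_ne_zero (NeZero.ne p)
  by_cases hd : p ∣ m
  · obtain ⟨k, rfl⟩ := hd
    rw [if_pos (dvd_mul_right p k), if_pos (dvd_mul_right p k), Nat.mul_div_cancel_left _ hp,
      coeff_E4]
    by_cases hk : k = 0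
    · subst hk; simp
    · rw [if_neg hk, if_neg (Nat.mul_ne_zero hp.ne' hk)]
      have e : ((240 : R) : ℂ) = 240 := map_ofNat R.subtype 240
      simp [e]
  · have hm : m ≠ 0 := fun h => hd (h ▸ dvd_zero p)
    rw [if_neg hd, if_neg hd, if_neg hm]
    simp

theorem XP_E6 [NeZero p] : XP p (E₆ : ℍ → ℂ) = inc R (1 - 504 * A5 R p) := by
  ext m
  rw [coeff_XP_of_isQ (isQ_of_modularForm E₆), coeff_inc, map_sub, PowerSeries.coeff_one,
    show (504 : PowerSeries R) = PowerSeries.C (504 : R) from (map_ofNat PowerSeries.C 504).symm, PowerSeries.coeff_C_mul, A5,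
    coeff_up]
  have hp : 0 < p := Nat.pos_of_ne_zero (NeZero.ne p)
  by_cases hd : p ∣ m
  · obtain ⟨k, rfl⟩ := hd
    rw [if_pos (dvd_mul_right p k), if_pos (dvd_mul_right p k), Nat.mul_div_cancel_left _ hp,
      coeff_E6]
    by_cases hk : k = 0
    · subst hk; simp
    · rw [if_neg hk, if_neg (Nat.mul_ne_zero hp.ne' hk)]
      have e : ((504 : R) : ℂ) = 504 := map_ofNat R.subtype 504
      simp [e]
  · have hm : m ≠ 0 := fun h => hd (h ▸ dvd_zero p)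
    rw [if_neg hd, if_neg hd, if_neg hm]
    simp

theorem A3_structure (hp : 0 < p) :
    ∃ a : PowerSeries R, A3 R p = PowerSeries.X ^ p + (PowerSeries.X ^ p) ^ 2 * a :=
  up_structure hp _ (by simp) (by simp)

theorem A5_structure (hp : 0 < p) :
    ∃ a : PowerSeries R, A5 R p = PowerSeries.X ^ p + (PowerSeries.X ^ p) ^ 2 * a :=
  up_structure hp _ (by simp) (by simp)

theorem eight_dvd_sigma (n : ℕ) :
    (8 : ℤ) ∣ (ArithmeticFunction.sigma 5 n : ℤ) - (ArithmeticFunction.sigma 3 n : ℤ) := by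
  rw [ArithmeticFunction.sigma_apply, ArithmeticFunction.sigma_apply]
  push_cast
  rw [← Finset.sum_sub_distrib]
  refine Finset.dvd_sum fun d _ => ?_
  have h : ∀ x : ZMod 8, x ^ 5 - x ^ 3 = 0 := by decide
  have := h (d : ZMod 8)
  have h8 : ((8 : ℕ) : ℤ) ∣ (d : ℤ) ^ 5 - (d : ℤ) ^ 3 := by
    rw [← (ZMod.intCast_zmod_eq_zero_iff_dvd _ 8)]
    push_cast
    exact this
  exact_mod_cast h8

theorem A5_eq : ∃ D : PowerSeries R, A5 R p = A3 R p + 8 * D := by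
  choose d hd using eight_dvd_sigma
  refine ⟨up p fun n => ((d n : ℤ) : R), PowerSeries.ext fun m => ?_⟩
  rw [map_add, show (8 : PowerSeries R) = PowerSeries.C (8 : R) from (map_ofNat PowerSeries.C 8).symm, PowerSeries.coeff_C_mul,
    A5, A3, coeff_up, coeff_up, coeff_up]
  split_ifs with h
  · have := hd (m / p)
    have h2 : ((ArithmeticFunction.sigma 5 (m / p) : ℕ) : R) =
        ((ArithmeticFunction.sigma 3 (m / p) : ℕ) : R) + 8 * ((d (m / p) : ℤ) : R) := by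
      have h3 : (ArithmeticFunction.sigma 5 (m / p) : ℤ) =
          (ArithmeticFunction.sigma 3 (m / p) : ℤ) + 8 * d (m / p) := by linarith
      have h4 := congrArg (fun x : ℤ => (x : R)) h3
      push_cast at h4
      exact h4
    exact h2
  · simp

end Eisenstein

/-! ### the conjugates of `G` -/

section Core

variable {p : ℕ} [Fact p.Prime] (l : ℕ) [Fact l.Prime]

/-- the family of the `p + 1` conjugates of `G` (index `p` is `G` itself) -/
def Gc (p : ℕ) (G : ℍ → ℂ) (j : ℕ) : ℍ → ℂ := if j = p then G else cj 2 G j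

theorem isQ_heckeU (G : ModularForm (Gamma0 p) 2) : IsQ (heckeU 2 p G) :=
  isQ_of_modularForm_Gamma0 (ModularForm.heckeULin 2 (dvd_refl p) G)

theorem coeff_heckeU (G : ModularForm (Gamma0 p) 2) (n : ℕ) :
    (qExpansion 1 (heckeU 2 p G)).coeff n = (qExpansion 1 G).coeff (n * p) :=
  ModularFormClass.qCoeff_heckeU G (CongruenceSubgroup.one_mem_strictPeriods_Gamma0 p)
    (Fact.out : p.Prime).ne_zero n

theorem isQp_Gc (G : ModularForm (Gamma0 p) 2) (j : ℕ) : IsQp p (Gc p G j) := by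
  unfold Gc
  split_ifs with h
  · exact isQp_of_isQ (isQ_of_modularForm_Gamma0 G)
  · rw [cj_eq]
    exact (isQp_slash_heckeMatrix (isQ_heckeU G) 2 j).neg

theorem XP_Gc {L : ℕ} (hlp : ¬ l ∣ p) (hLp : L ∣ p + 1) (G : ModularForm (Gamma0 p) 2)
    (h0 : (qExpansion 1 G).coeff 0 = 1)
    (hG : ∀ n, 1 ≤ n → ∃ r ∈ Rl l, (qExpansion 1 G).coeff n = (L : ℂ) * r) (j : ℕ) :
    ∃ ξ : PowerSeries (Rl l), XP p (Gc p G j) = inc (Rl l) (1 + (L : PowerSeries (Rl l)) * ξ) := by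
  have hp : 0 < p := (Fact.out : p.Prime).pos
  have hL : (L : ℂ) ∈ Rl l := natCast_mem _ L
  have hC : (L : PowerSeries (Rl l)) = PowerSeries.C (⟨(L : ℂ), hL⟩ : Rl l) := by
    rw [← map_natCast (PowerSeries.C : Rl l →+* PowerSeries (Rl l)) L]
    congr 1
  rw [hC]
  apply exists_inc_eq hL
  intro n
  unfold Gc
  split_ifs with hj hn hn
  · -- `G`, `n = 0`
    subst hn
    refine ⟨0, zero_mem _, ?_⟩
    rw [coeff_XP_of_isQ (isQ_of_modularForm_Gamma0 G), if_pos (dvd_zero p), Nat.zero_div, h0]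
    ring
  · rw [coeff_XP_of_isQ (isQ_of_modularForm_Gamma0 G)]
    by_cases hd : p ∣ n
    · obtain ⟨k, rfl⟩ := hd
      rw [if_pos (dvd_mul_right p k), Nat.mul_div_cancel_left _ hp]
      have hk : 1 ≤ k := Nat.one_le_iff_ne_zero.mpr fun h => hn (by rw [h, mul_zero])
      obtain ⟨r, hr, h⟩ := hG k hk
      exact ⟨r, hr, by rw [h, zero_add]⟩
    · exact ⟨0, zero_mem _, by rw [if_neg hd]; ring⟩
  · -- conjugate, `n = 0`
    subst hn
    obtain ⟨M, hM⟩ := hLp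
    have hpinv : ((p : ℂ))⁻¹ ∈ Rl l := by
      have := inv_intCast_mem_Rl l (m := (p : ℤ)) (by exact_mod_cast hlp)
      simpa using this
    refine ⟨-((M : ℂ) * (p : ℂ)⁻¹), neg_mem (mul_mem (natCast_mem _ M) hpinv), ?_⟩
    rw [cj_eq, XP_neg (isQp_slash_heckeMatrix (isQ_heckeU G) 2 j), map_neg,
      coeff_XP_slash_heckeMatrix (isQ_heckeU G), coeff_heckeU, zero_mul, h0, mul_zero, pow_zero]
    have hp0 : (p : ℂ) ≠ 0 := by exact_mod_cast hp.ne'
    have hM' : (p : ℂ) + 1 = L * M := by exact_mod_cast hM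
    field_simp
    linear_combination -hM'
  · have hpinv : ((p : ℂ))⁻¹ ∈ Rl l := by
      have := inv_intCast_mem_Rl l (m := (p : ℤ)) (by exact_mod_cast hlp)
      simpa using this
    have hnp : 1 ≤ n * p := Nat.one_le_iff_ne_zero.mpr (Nat.mul_ne_zero hn hp.ne')
    obtain ⟨r, hr, h⟩ := hG (n * p) hnp
    refine ⟨-((p : ℂ)⁻¹ * r * zt p ^ (j * n)),
      neg_mem (mul_mem (mul_mem hpinv hr) (pow_mem (zt_mem_Rl l p) _)), ?_⟩
    rw [cj_eq, XP_neg (isQp_slash_heckeMatrix (isQ_heckeU G) 2 j), map_neg,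
      coeff_XP_slash_heckeMatrix (isQ_heckeU G), coeff_heckeU, h]
    ring

theorem map_pol {A B : Type*} [CommRing A] [CommRing B] (f : A →+* B) (a b c : A) :
    f (Pol a b c) = Pol (f a) (f b) (f c) := by
  simp [Pol, map_ofNat]

omit [Fact p.Prime] in
theorem nmFun_pol (G : ℍ → ℂ) :
    nmFun p 8 (Pol (E₄ : ℍ → ℂ) (E₆ : ℍ → ℂ) G) =
      ∏ j ∈ Finset.range (p + 1), Pol (E₄ : ℍ → ℂ) (E₆ : ℍ → ℂ) (Gc p G j) := by
  rw [Finset.prod_range_succ, nmFun, mul_comm]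
  congr 1
  · refine Finset.prod_congr rfl fun j hj => ?_
    rw [cj_pol, Gc, if_neg (Finset.mem_range.mp hj).ne]
  · rw [Gc, if_pos rfl]

theorem core {L V : ℕ} {u : ℤ} (hV : V ≠ 0) (hu : ¬ (l : ℤ) ∣ u) (hlp : ¬ l ∣ p) (hLp : L ∣ p + 1)
    (G : ModularForm (Gamma0 p) 2) (h0 : (qExpansion 1 G).coeff 0 = 1)
    (hG : ∀ n, 1 ≤ n → ∃ r ∈ Rl l, (qExpansion 1 G).coeff n = (L : ℂ) * r)
    (hPol : ∀ ξ : PowerSeries (Rl l), ∃ y z : PowerSeries (Rl l),
      Pol (1 + 240 * A3 (Rl l) p) (1 - 504 * A5 (Rl l) p) (1 + (L : PowerSeries (Rl l)) * ξ) =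
        (V : PowerSeries (Rl l)) * ((u : PowerSeries (Rl l)) * PowerSeries.X ^ p +
          (PowerSeries.X ^ p) ^ 2 * y + (l : PowerSeries (Rl l)) * z)) : False := by
  have hp : 0 < p := (Fact.out : p.Prime).pos
  obtain ⟨Nm, hNm⟩ := exists_nmForm (isG0_pol (isG0_of_modularForm G))
  choose ξ hξ using XP_Gc l hlp hLp G h0 hG
  choose y z hyz using fun j => hPol (ξ j)
  have h4 : IsQp p (E₄ : ℍ → ℂ) := isQp_of_isQ (isQ_of_modularForm E₄)
  have h6 : IsQp p (E₆ : ℍ → ℂ) := isQp_of_isQ (isQ_of_modularForm E₆)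
  have hX : ∀ j, XP p (Pol (E₄ : ℍ → ℂ) (E₆ : ℍ → ℂ) (Gc p G j)) =
      inc (Rl l) ((V : PowerSeries (Rl l)) * ((u : PowerSeries (Rl l)) * PowerSeries.X ^ p +
          (PowerSeries.X ^ p) ^ 2 * y j + (l : PowerSeries (Rl l)) * z j)) := by
    intro j
    rw [XP_pol h4 h6 (isQp_Gc G j), XP_E4 (Rl l) p, XP_E6 (Rl l) p, hξ j, ← map_pol, hyz j]
  obtain ⟨Y, Z, hYZ⟩ := prod_form (Finset.range (p + 1)) (V : PowerSeries (Rl l))
    (u : PowerSeries (Rl l)) (l : PowerSeries (Rl l)) (PowerSeries.X ^ p) y z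
  rw [Finset.card_range] at hYZ
  set W : PowerSeries (Rl l) := (u : PowerSeries (Rl l)) ^ (p + 1) * (PowerSeries.X ^ p) ^ (p + 1) +
    (PowerSeries.X ^ p) ^ (p + 1 + 1) * Y + (l : PowerSeries (Rl l)) * Z with hW
  have hXN : XP p (Nm : ℍ → ℂ) = inc (Rl l) ((V : PowerSeries (Rl l)) ^ (p + 1) * W) := by
    rw [hNm, nmFun_pol, XP_prod _ (fun j _ => isQp_pol h4 h6 (isQp_Gc G j)),
      Finset.prod_congr rfl (fun j _ => hX j), ← map_prod, hYZ]
  have hcoeff : ∀ n, (qExpansion 1 Nm).coeff n = (V : ℂ) ^ (p + 1) * ((W.coeff (p * n) : Rl l) : ℂ) := by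
    intro n
    rw [← coeff_XP_mul_of_isQ (p := p) (isQ_of_modularForm Nm) n, hXN, coeff_inc,
      show (V : PowerSeries (Rl l)) ^ (p + 1) = PowerSeries.C ((V : Rl l) ^ (p + 1)) by
        rw [map_pow, map_natCast], PowerSeries.coeff_C_mul]
    simp
  have hVne : (V : ℂ) ^ (p + 1) ≠ 0 := pow_ne_zero _ (by exact_mod_cast hV)
  obtain ⟨Nm', hNm'⟩ : ∃ Nm' : ModularForm 𝒮ℒ (8 * ((p : ℤ) + 1)),
      (Nm' : ℍ → ℂ) = ((V : ℂ) ^ (p + 1))⁻¹ • (Nm : ℍ → ℂ) := ⟨((V : ℂ) ^ (p + 1))⁻¹ • Nm, rfl⟩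
  have hcoeff' : ∀ n, (qExpansion 1 Nm').coeff n = ((W.coeff (p * n) : Rl l) : ℂ) := by
    intro n
    rw [hNm', ModularForm.qExpansion_smul one_pos one_mem_strictPeriods_SL, PowerSeries.coeff_smul,
      hcoeff, smul_eq_mul, inv_mul_cancel_left₀ hVne]
  have hWc : ∀ n, n ≤ p + 1 → W.coeff (p * n) =
      (if n = p + 1 then (u : Rl l) ^ (p + 1) else 0) + (l : Rl l) * Z.coeff (p * n) := by
    intro n hn
    have e1 : ((u : PowerSeries (Rl l)) ^ (p + 1) * (PowerSeries.X ^ p) ^ (p + 1)).coeff (p * n) =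
        if n = p + 1 then (u : Rl l) ^ (p + 1) else 0 := by
      rw [show (u : PowerSeries (Rl l)) ^ (p + 1) = PowerSeries.C ((u : Rl l) ^ (p + 1)) by
        rw [map_pow, map_intCast], PowerSeries.coeff_C_mul, ← pow_mul, PowerSeries.coeff_X_pow]
      by_cases h : n = p + 1
      · rw [if_pos h, if_pos (by rw [h]), mul_one]
      · rw [if_neg h, if_neg (fun h' => h (Nat.eq_of_mul_eq_mul_left hp h')), mul_zero]
    have e2 : ((PowerSeries.X ^ p) ^ (p + 1 + 1) * Y : PowerSeries (Rl l)).coeff (p * n) = 0 := by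
      rw [← pow_mul, PowerSeries.coeff_X_pow_mul', if_neg]
      rw [not_le]
      exact Nat.mul_lt_mul_of_pos_left (by omega) hp
    have e3 : ((l : PowerSeries (Rl l)) * Z).coeff (p * n) = (l : Rl l) * Z.coeff (p * n) := by
      rw [show (l : PowerSeries (Rl l)) = PowerSeries.C (l : Rl l) by rw [map_natCast],
        PowerSeries.coeff_C_mul]
    rw [hW, map_add, map_add, e1, e2, e3, add_zero]
  have hmem := levelOne_coeff_mem (lRl l) (2 * (p + 1)) (k := 8 * ((p : ℤ) + 1))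
    (by push_cast; ring) Nm' (by
      intro n hn
      rw [hcoeff', hWc n (by omega), if_neg (by omega), zero_add]
      exact ⟨_, (Z.coeff (p * n)).2, by simp⟩) (p + 1)
  rw [hcoeff', hWc _ le_rfl, if_pos rfl] at hmem
  have h2 : (((u ^ (p + 1) : ℤ)) : ℂ) ∈ lRl l := by
    have h3 : (((l : Rl l) * Z.coeff (p * (p + 1)) : Rl l) : ℂ) ∈ lRl l :=
      ⟨_, (Z.coeff (p * (p + 1))).2, by simp⟩
    have h4 := (lRl l).sub_mem hmem h3
    simpa using h4
  obtain ⟨r, hr, h⟩ := h2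
  have h5 := dvd_of_eq_mul l hr h
  exact hu (Int.Prime.dvd_pow' (Fact.out : l.Prime) h5)

end Core

/-! ### arithmetic -/

section Arith

theorem cases_of_not_dvd_twelve {y : ℕ} (hy : ¬ y ∣ 12) :
    (∃ l, l.Prime ∧ 5 ≤ l ∧ l ∣ y) ∨ 9 ∣ y ∨ 8 ∣ y := by
  by_contra hcon
  push Not at hcon
  obtain ⟨h5, h9, h8⟩ := hcon
  have hy0 : y ≠ 0 := fun h => h8 (h ▸ dvd_zero 8)
  obtain ⟨a, m, hm2, rfl⟩ := Nat.exists_eq_pow_mul_and_not_dvd hy0 2 (by norm_num)
  have hm0 : m ≠ 0 := fun h => hm2 (h ▸ dvd_zero 2)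
  obtain ⟨b, m', hm3, rfl⟩ := Nat.exists_eq_pow_mul_and_not_dvd hm0 3 (by norm_num)
  have hm1 : m' = 1 := by
    by_contra h
    have hq := Nat.minFac_prime h
    have hqd := Nat.minFac_dvd m'
    have hq2 : m'.minFac ≠ 2 := fun h2 => hm2 (Dvd.dvd.mul_left (h2 ▸ hqd) _)
    have hq3 : m'.minFac ≠ 3 := fun h3 => hm3 (h3 ▸ hqd)
    have hq4 : m'.minFac ≠ 4 := fun h4 => by rw [h4] at hq; exact absurd hq (by norm_num)
    have hq5 : 5 ≤ m'.minFac := by have := hq.two_le; omega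
    exact h5 _ hq hq5 (Dvd.dvd.mul_left (Dvd.dvd.mul_left hqd _) _)
  subst hm1
  have ha : a ≤ 2 := by
    by_contra h
    exact h8 (Dvd.dvd.mul_right (pow_dvd_pow 2 (show 3 ≤ a by omega)) _)
  have hb : b ≤ 1 := by
    by_contra h
    exact h9 (Dvd.dvd.mul_left (Dvd.dvd.mul_right (pow_dvd_pow 3 (show 2 ≤ b by omega)) _) _)
  apply hy
  interval_cases a <;> interval_cases b <;> decide

end Arith

section Final

variable {p : ℕ} [Fact p.Prime]

theorem coeff_smul_form (c : ℂ) (g : ModularForm (Gamma0 p) 2) (n : ℕ) :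
    (qExpansion 1 (DFunLike.coe (c • g))).coeff n = c * (qExpansion 1 g).coeff n := by
  rw [show (DFunLike.coe (c • g) : ℍ → ℂ) = c • (g : ℍ → ℂ) from rfl,
    ModularForm.qExpansion_smul one_pos (CongruenceSubgroup.one_mem_strictPeriods_Gamma0 p),
    PowerSeries.coeff_smul, smul_eq_mul]

theorem case_false (l : ℕ) [Fact l.Prime] {L V : ℕ} {u : ℤ} (hV : V ≠ 0) (hu : ¬ (l : ℤ) ∣ u)
    (hlL : l ∣ L)
    (hPol : ∀ ξ : PowerSeries (Rl l), ∃ y z : PowerSeries (Rl l),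
      Pol (1 + 240 * A3 (Rl l) p) (1 - 504 * A5 (Rl l) p) (1 + (L : PowerSeries (Rl l)) * ξ) =
        (V : PowerSeries (Rl l)) * ((u : PowerSeries (Rl l)) * PowerSeries.X ^ p +
          (PowerSeries.X ^ p) ^ 2 * y + (l : PowerSeries (Rl l)) * z))
    (g : ModularForm (Gamma0 p) 2)
    (hg : ∀ k, 1 ≤ k → ∃ n : ℤ, (qExpansion 1 g).coeff k = n) (x : ℤ) (y : ℕ)
    (hc : (qExpansion 1 g).coeff 0 = (x : ℂ) / y) (hx : x ≠ 0) (hy : y ≠ 0)
    (hcop : Nat.Coprime x.natAbs y) (hLy : L ∣ y) (hyp : y ∣ p + 1) : False := by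
  have hl : l.Prime := Fact.out
  have hlp : ¬ l ∣ p := by
    intro h
    have h1 : l ∣ p + 1 := (hlL.trans hLy).trans hyp
    have h2 : l ∣ 1 := (Nat.dvd_add_right h).mp h1
    exact hl.one_lt.ne' (Nat.dvd_one.mp h2)
  have hlx : ¬ (l : ℤ) ∣ x := by
    intro h
    have h1 : l ∣ x.natAbs := Int.natCast_dvd.mp h
    have h2 : l ∣ Nat.gcd x.natAbs y := Nat.dvd_gcd h1 (hlL.trans hLy)
    rw [hcop] at h2
    exact hl.one_lt.ne' (Nat.dvd_one.mp h2)
  have hx' : (x : ℂ) ≠ 0 := by exact_mod_cast hx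
  have hy' : (y : ℂ) ≠ 0 := by exact_mod_cast hy
  obtain ⟨M, hM⟩ := hLy
  refine core l hV hu hlp ((Dvd.intro M hM.symm).trans hyp)
    (((qExpansion 1 g).coeff 0)⁻¹ • g) ?_ ?_ hPol
  · rw [coeff_smul_form, inv_mul_cancel₀]
    rw [hc]
    exact div_ne_zero hx' hy'
  · intro n hn
    obtain ⟨m, hm⟩ := hg n hn
    refine ⟨(M : ℂ) * m * (x : ℂ)⁻¹,
      mul_mem (mul_mem (natCast_mem _ M) (intCast_mem _ m)) (inv_intCast_mem_Rl l hlx), ?_⟩
    rw [coeff_smul_form, hm, hc, hM]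
    push_cast
    field_simp

end Final

end Step2

/-- **Step 2**. -/
theorem step2 {p : ℕ} [Fact p.Prime] (h5 : 5 ≤ p) (g : ModularForm (Gamma0 p) 2)
    (hg : ∀ k, 1 ≤ k → ∃ n : ℤ, (qExpansion 1 g).coeff k = n)
    (h1 : ∃ n : ℤ, ((p : ℂ) + 1) * (qExpansion 1 g).coeff 0 = n) :
    ∃ n : ℤ, (12 : ℂ) * (qExpansion 1 g).coeff 0 = n := by
  have hp : 0 < p := (Fact.out : p.Prime).pos
  obtain ⟨n1, h1⟩ := h1
  set c := (qExpansion 1 g).coeff 0 with hcdef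
  have hp1 : ((p : ℂ) + 1) ≠ 0 := by exact_mod_cast (Nat.succ_ne_zero p)
  -- `c` is rational
  set cq : ℚ := Rat.divInt n1 ((p + 1 : ℕ) : ℤ) with hcq
  have hcc : c = (cq : ℂ) := by
    rw [hcq, Rat.divInt_eq_div]
    push_cast
    rw [eq_div_iff hp1, mul_comm]
    exact h1
  have hc : c = (cq.num : ℂ) / (cq.den : ℂ) := by
    rw [hcc]
    conv_lhs => rw [← Rat.num_div_den cq]
    push_cast
    rfl
  have hyp : cq.den ∣ p + 1 := by
    have := Rat.den_dvd n1 ((p + 1 : ℕ) : ℤ)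
    exact_mod_cast this
  by_cases hx : cq.num = 0
  · exact ⟨0, by rw [hc, hx]; simp⟩
  by_cases hy : cq.den ∣ 12
  · obtain ⟨k, hk⟩ := hy
    refine ⟨k * cq.num, ?_⟩
    have hden : (cq.den : ℂ) ≠ 0 := by exact_mod_cast cq.den_nz
    have hk' : (12 : ℂ) = cq.den * k := by exact_mod_cast hk
    rw [hc, hk']
    push_cast
    field_simp
  exfalso
  rcases Step2.cases_of_not_dvd_twelve hy with ⟨l, hl, hl5, hly⟩ | h9 | h8
  · haveI : Fact l.Prime := ⟨hl⟩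
    refine Step2.case_false l (L := l) (V := 1) (u := -768) one_ne_zero ?_ dvd_rfl ?_ g hg cq.num
      cq.den hc hx cq.den_nz cq.reduced hly hyp
    · intro h
      have h2 : l ∣ 768 := by
        have := Int.natCast_dvd.mp h
        simpa using this
      rw [show 768 = 2 ^ 8 * 3 by norm_num] at h2
      rcases (Nat.Prime.dvd_mul hl).mp h2 with h3 | h3
      · have := (Nat.prime_dvd_prime_iff_eq hl Nat.prime_two).mp (hl.dvd_of_dvd_pow h3)
        omega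
      · have := (Nat.prime_dvd_prime_iff_eq hl Nat.prime_three).mp h3
        omega
    · intro ξ
      obtain ⟨a, ha⟩ := Step2.A3_structure (Rl l) p hp
      obtain ⟨a', ha'⟩ := Step2.A5_structure (Rl l) p hp
      obtain ⟨y, z, h⟩ := pol_gen (l : PowerSeries (Rl l)) ξ _ _ _ a a' ha ha'
      exact ⟨y, z, by rw [h]; push_cast; ring⟩
  · haveI : Fact (Nat.Prime 3) := ⟨Nat.prime_three⟩
    refine Step2.case_false 3 (L := 9) (V := 3) (u := -256) (by norm_num) (by norm_num)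
      (by norm_num) ?_ g hg cq.num cq.den hc hx cq.den_nz cq.reduced h9 hyp
    intro ξ
    obtain ⟨a, ha⟩ := Step2.A3_structure (Rl 3) p hp
    obtain ⟨a', ha'⟩ := Step2.A5_structure (Rl 3) p hp
    obtain ⟨y, z, h⟩ := pol_three ξ _ _ _ a a' ha ha'
    exact ⟨y, z, by push_cast; rw [h]⟩
  · haveI : Fact (Nat.Prime 2) := ⟨Nat.prime_two⟩
    refine Step2.case_false 2 (L := 8) (V := 256) (u := 1) (by norm_num) (by norm_num)
      (by norm_num) ?_ g hg cq.num cq.den hc hx cq.den_nz cq.reduced h8 hyp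
    intro ξ
    obtain ⟨a, ha⟩ := Step2.A3_structure (Rl 2) p hp
    obtain ⟨D, hD⟩ := Step2.A5_eq (Rl 2) p
    obtain ⟨y, z, h⟩ := pol_two ξ _ _ _ a D ha hD
    exact ⟨y, z, by push_cast; rw [h]⟩

end Fermat.Agent.S16
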