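import Fermat.Agent.S16.Step1
import Fermat.Agent.S16.Step2

/-!
# S16 / UPPER : `gcd(12, p+1) a₀(g) ∈ ℤ` for `g ∈ M₂(Γ₀(p))` with `a_k(g) ∈ ℤ` for `k ≥ 1`
-/

set_option autoImplicit false

open UpperHalfPlane ModularForm CongruenceSubgroup
open scoped MatrixGroups

noncomputable section

namespace Fermat.Agent.S16

theorem upper {p : ℕ} [Fact p.Prime] (h5 : 5 ≤ p) (g : ModularForm (Gamma0 p) 2)
    (hg : ∀ k, 1 ≤ k → ∃ n : ℤ, (qExpansion 1 g).coeff k = n) :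
    ∃ n : ℤ, ((Nat.gcd 12 (p + 1) : ℕ) : ℂ) * (qExpansion 1 g).coeff 0 = n := by
  obtain ⟨n1, h1⟩ := step1 h5 g hg
  obtain ⟨n2, h2⟩ := step2 h5 g hg ⟨n1, h1⟩
  refine ⟨Nat.gcdA 12 (p + 1) * n2 + Nat.gcdB 12 (p + 1) * n1, ?_⟩
  have hb := Nat.gcd_eq_gcd_ab 12 (p + 1)
  have hb' : ((Nat.gcd 12 (p + 1) : ℕ) : ℂ) =
      12 * (Nat.gcdA 12 (p + 1) : ℂ) + ((p : ℂ) + 1) * (Nat.gcdB 12 (p + 1) : ℂ) := by
    have := congrArg (fun x : ℤ => (x : ℂ)) hb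
    push_cast at this
    exact this
  rw [hb']
  push_cast
  rw [← h1, ← h2]
  ring

end Fermat.Agent.S16
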