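import Mathlib
import Fermat.Prelude.Def_ModularForm_HeckeOperator
import Fermat.Prelude.Thm_CongruenceSubgroup_one_mem_strictPeriods_Gamma0
import Fermat.Agent.IntStruct.Theta
import Fermat.Agent.S16.SigmaP

set_option autoImplicit false

open UpperHalfPlane Matrix.SpecialLinearGroup EisensteinSeries
open scoped MatrixGroups Manifold ModularForm Topology

noncomputable section

namespace Fermat.Agent.S16

open ModularForm (heckeDiagMatrix upperTriangularGL val_heckeDiagMatrix val_upperTriangularGL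
  slash_heckeDiagMatrix_apply coe_heckeDiagMatrix_smul)

/-- the constant in the transformation law of `E2` -/
def cE2 : ℂ := 1 / (2 * riemannZeta 2)

lemma E2_slash_mapGL (g : SL(2, ℤ)) : E2 ∣[(2 : ℤ)] (mapGL ℝ g) = E2 - cE2 • D2 g :=
  E2_slash_action g

lemma isBoundedAtImInfty_D2 (g : SL(2, ℤ)) : IsBoundedAtImInfty (D2 g) := by
  rw [UpperHalfPlane.isBoundedAtImInfty_iff]
  refine ⟨2 * Real.pi, 1, fun z hz => ?_⟩
  unfold D2
  by_cases hc : g 1 0 = 0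
  · simp [hc, Real.pi_pos.le]
  have hcR : (0 : ℝ) < |((g 1 0 : ℤ) : ℝ)| := abs_pos.mpr (by exact_mod_cast hc)
  have him : (denom g z).im = ((g 1 0 : ℤ) : ℝ) * z.im := by
    simp [ModularGroup.denom_apply]
  have h1 : |((g 1 0 : ℤ) : ℝ)| ≤ ‖denom g z‖ := by
    calc |((g 1 0 : ℤ) : ℝ)| ≤ |((g 1 0 : ℤ) : ℝ)| * z.im := le_mul_of_one_le_right hcR.le hz
      _ = |(denom g z).im| := by rw [him, abs_mul, abs_of_pos z.im_pos]
      _ ≤ ‖denom g z‖ := Complex.abs_im_le_norm _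
  rw [norm_div]
  have h2 : ‖(2 * (Real.pi : ℂ) * Complex.I * ((g 1 0 : ℤ) : ℂ))‖ = 2 * Real.pi * |((g 1 0 : ℤ) : ℝ)| := by
    simp [abs_of_pos Real.pi_pos]
  rw [h2, div_le_iff₀ (lt_of_lt_of_le hcR h1)]
  exact mul_le_mul_of_nonneg_left h1 (by positivity)

lemma isBoundedAtImInfty_E2_slash (g : SL(2, ℤ)) :
    IsBoundedAtImInfty (E2 ∣[(2 : ℤ)] (mapGL ℝ g)) := by
  rw [E2_slash_mapGL]
  exact isBoundedAtImInfty_E2.sub ((isBoundedAtImInfty_D2 g).const_smul_left _)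

/-- `p E₂(p z)`. -/
def E2p (p : ℕ) : ℍ → ℂ := E2 ∣[(2 : ℤ)] heckeDiagMatrix p

lemma E2p_apply {p : ℕ} (hp : p ≠ 0) (τ : ℍ) : E2p p τ = p * E2 (heckeDiagMatrix p • τ) := by
  rw [E2p, slash_heckeDiagMatrix_apply 2 hp]; norm_num

lemma isBoundedAtImInfty_E2p_slash {p : ℕ} (hp : p ≠ 0) (g : SL(2, ℤ)) :
    IsBoundedAtImInfty (E2p p ∣[(2 : ℤ)] (mapGL ℝ g)) := by
  obtain ⟨g', a, b, d, had, -, -, -, -, h⟩ := IntStruct.exists_factor hp g
  rw [E2p, ← SlashAction.slash_mul, h, SlashAction.slash_mul]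
  exact IsBoundedAtImInfty.slash 2 (by simp) (isBoundedAtImInfty_E2_slash g')

lemma D2_slash_diag {p : ℕ} (hp : p ≠ 0) (g g' : SL(2, ℤ))
    (h : heckeDiagMatrix p * mapGL ℝ g = mapGL ℝ g' * heckeDiagMatrix p) :
    D2 g' ∣[(2 : ℤ)] heckeDiagMatrix p = D2 g := by
  have h10 : ((g 1 0 : ℤ) : ℝ) = ((g' 1 0 : ℤ) : ℝ) * p := by
    have := congrArg (fun M : GL (Fin 2) ℝ => (M : Matrix (Fin 2) (Fin 2) ℝ) 1 0) h
    simpa [hp, Matrix.mul_apply, Fin.sum_univ_two] using this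
  have h11 : ((g 1 1 : ℤ) : ℝ) = ((g' 1 1 : ℤ) : ℝ) := by
    have := congrArg (fun M : GL (Fin 2) ℝ => (M : Matrix (Fin 2) (Fin 2) ℝ) 1 1) h
    simpa [hp, Matrix.mul_apply, Fin.sum_univ_two] using this
  have h10' : ((g 1 0 : ℤ) : ℂ) = ((g' 1 0 : ℤ) : ℂ) * p := by exact_mod_cast h10
  have h11' : ((g 1 1 : ℤ) : ℂ) = ((g' 1 1 : ℤ) : ℂ) := by exact_mod_cast h11
  ext τ
  rw [slash_heckeDiagMatrix_apply 2 hp]
  unfold D2
  rw [ModularGroup.denom_apply, ModularGroup.denom_apply, coe_heckeDiagMatrix_smul hp, h10', h11']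
  have hpC : (p : ℂ) ≠ 0 := by exact_mod_cast hp
  norm_num
  ring

lemma E2p_sub_E2_slash {p : ℕ} (hp : p ≠ 0) (g : SL(2, ℤ)) (hg : (p : ℤ) ∣ g 1 0) :
    (E2p p - E2) ∣[(2 : ℤ)] (mapGL ℝ g) = E2p p - E2 := by
  obtain ⟨g', hg'⟩ := IntStruct.exists_comm hp g hg
  rw [sub_eq_add_neg, SlashAction.add_slash, SlashAction.neg_slash, E2_slash_mapGL, E2p,
    ← SlashAction.slash_mul, hg', SlashAction.slash_mul, E2_slash_mapGL, sub_eq_add_neg,
    SlashAction.add_slash, SlashAction.neg_slash]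
  have : (cE2 • D2 g') ∣[(2 : ℤ)] heckeDiagMatrix p = cE2 • D2 g := by
    rw [ModularForm.smul_slash, ModularForm.σ_heckeDiagMatrix, D2_slash_diag hp g g' hg']
    rfl
  rw [this]
  abel

/-- The function `(p E₂(pz) - E₂(z)) / 24`. -/
def eisFn (p : ℕ) : ℍ → ℂ := (24 : ℂ)⁻¹ • (E2p p - E2)

/-- The weight two Eisenstein series on `Γ₀(p)`. -/
def EisMF (p : ℕ) [NeZero p] :
    ModularForm (CongruenceSubgroup.Gamma0 p : Subgroup (GL (Fin 2) ℝ)) 2 where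
  toFun := eisFn p
  slash_action_eq' := by
    rintro _ ⟨g, hg, rfl⟩
    have hg2 := (ZMod.intCast_zmod_eq_zero_iff_dvd _ _).mp (CongruenceSubgroup.Gamma0_mem.mp hg)
    rw [eisFn, ModularForm.smul_slash, E2p_sub_E2_slash (NeZero.ne p) g hg2, map_inv₀, map_ofNat]
  holo' := by
    have h1 : MDiff (E2p p) := E2_mdifferentiable.slash 2 _
    exact (h1.sub E2_mdifferentiable).const_smul _
  bdd_at_cusps' hc := by
    rw [Subgroup.IsArithmetic.isCusp_iff_isCusp_SL2Z] at hc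
    rw [OnePoint.isBoundedAt_iff_forall_SL2Z hc]
    intro γ _
    rw [ModularForm.SL_slash]
    change IsBoundedAtImInfty (eisFn p ∣[(2 : ℤ)] (mapGL ℝ γ))
    rw [eisFn, ModularForm.smul_slash, sub_eq_add_neg, SlashAction.add_slash,
      SlashAction.neg_slash]
    exact ((isBoundedAtImInfty_E2p_slash (NeZero.ne p) γ).add
      (isBoundedAtImInfty_E2_slash γ).neg).const_smul_left _

@[simp] lemma coe_EisMF (p : ℕ) [NeZero p] : ⇑(EisMF p) = eisFn p := rfl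

end Fermat.Agent.S16
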