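import Mathlib
import Fermat.Agent.S16.EisDef

set_option autoImplicit false

open UpperHalfPlane Matrix.SpecialLinearGroup EisensteinSeries
open scoped MatrixGroups Manifold ModularForm Topology ArithmeticFunction.sigma

noncomputable section

namespace Fermat.Agent.S16

open ModularForm (heckeDiagMatrix coe_heckeDiagMatrix_smul)

theorem filter_dvd_divisors {p : ℕ} (hp : p ≠ 0) (n : ℕ) :
    n.divisors.filter (fun d => p ∣ d) =
      if p ∣ n then (n / p).divisors.image (p * ·) else ∅ := by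
  rcases Nat.eq_zero_or_pos n with rfl | hn
  · simp
  have hp0 : 0 < p := Nat.pos_of_ne_zero hp
  split_ifs with h
  · obtain ⟨m, rfl⟩ := h
    have hm : 0 < m := Nat.pos_of_mul_pos_left hn
    rw [Nat.mul_div_cancel_left m hp0]
    ext d
    simp only [Finset.mem_filter, Nat.mem_divisors, Finset.mem_image]
    constructor
    · rintro ⟨⟨h1, _⟩, e, rfl⟩
      exact ⟨e, ⟨Nat.dvd_of_mul_dvd_mul_left hp0 h1, hm.ne'⟩, rfl⟩
    · rintro ⟨e, ⟨h1, _⟩, rfl⟩
      exact ⟨⟨Nat.mul_dvd_mul_left p h1, hn.ne'⟩, Dvd.intro e rfl⟩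
  · ext d
    simp only [Finset.mem_filter, Nat.mem_divisors, Finset.notMem_empty, iff_false, not_and]
    rintro ⟨h1, _⟩ h2
    exact h (dvd_trans h2 h1)

theorem sigma_one_eq {p : ℕ} (hp : p ≠ 0) (n : ℕ) :
    σ 1 n = sigmaP p n + if p ∣ n then p * σ 1 (n / p) else 0 := by
  have hp0 : 0 < p := Nat.pos_of_ne_zero hp
  rw [ArithmeticFunction.sigma_one_apply, sigmaP,
    ← Finset.sum_filter_add_sum_filter_not n.divisors (fun d => p ∣ d), add_comm,
    filter_dvd_divisors hp]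
  congr 1
  split_ifs with h
  · rw [Finset.sum_image (fun a _ b _ h => Nat.eq_of_mul_eq_mul_left hp0 h),
      ArithmeticFunction.sigma_one_apply, Finset.mul_sum]
  · simp

/-- coefficients of `E2` -/
def e2c (m : ℕ) : ℂ := if m = 0 then 1 else -24 * σ 1 m

lemma hasSum_E2 (τ : ℍ) : HasSum (fun m : ℕ ↦ e2c m • Function.Periodic.qParam 1 τ ^ m) (E2 τ) := by
  simpa only [Function.Periodic.qParam, Complex.ofReal_one, div_one, e2c]
    using hasSum_qExpansion_E2 (z := τ)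

lemma qParam_diag {p : ℕ} (hp : p ≠ 0) (τ : ℍ) :
    Function.Periodic.qParam 1 ((heckeDiagMatrix p • τ : ℍ) : ℂ) =
      Function.Periodic.qParam 1 (τ : ℂ) ^ p := by
  rw [coe_heckeDiagMatrix_smul hp]
  simp only [Function.Periodic.qParam, Complex.ofReal_one, div_one]
  rw [← Complex.exp_nat_mul]
  congr 1
  ring

lemma hasSum_E2p {p : ℕ} (hp : p ≠ 0) (τ : ℍ) :
    HasSum (fun n : ℕ ↦ (if p ∣ n then (p : ℂ) * e2c (n / p) else 0) •
      Function.Periodic.qParam 1 τ ^ n) (E2p p τ) := by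
  have hp0 : 0 < p := Nat.pos_of_ne_zero hp
  have h1 := (hasSum_E2 (heckeDiagMatrix p • τ)).mul_left (p : ℂ)
  rw [← E2p_apply hp, qParam_diag hp] at h1
  have hinj : Function.Injective (fun m : ℕ => p * m) :=
    fun a b h => Nat.eq_of_mul_eq_mul_left hp0 h
  refine (Function.Injective.hasSum_iff hinj ?_).mp ?_
  · intro x hx
    have : ¬ p ∣ x := fun ⟨m, hm⟩ => hx ⟨m, hm.symm⟩
    simp [this]
  · have hfun : ((fun n : ℕ ↦ (if p ∣ n then (p : ℂ) * e2c (n / p) else 0) •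
        Function.Periodic.qParam 1 τ ^ n) ∘ fun m : ℕ => p * m) =
        fun m : ℕ => (p : ℂ) * (e2c m • (Function.Periodic.qParam 1 (τ : ℂ) ^ p) ^ m) := by
      funext m
      simp only [Function.comp_apply, if_true, Nat.mul_div_cancel_left m hp0, smul_eq_mul,
        dvd_mul_right]
      rw [pow_mul]; ring
    rw [hfun]
    exact h1

/-- coefficients of `EisMF p` -/
def eisc (p n : ℕ) : ℂ := if n = 0 then ((p : ℂ) - 1) / 24 else sigmaP p n

lemma eisc_eq {p : ℕ} (hp : p ≠ 0) (n : ℕ) :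
    eisc p n = (24 : ℂ)⁻¹ * ((if p ∣ n then (p : ℂ) * e2c (n / p) else 0) - e2c n) := by
  unfold eisc e2c
  rcases Nat.eq_zero_or_pos n with rfl | hn
  · simp; ring
  · have h1 := sigma_one_eq hp n
    have h2 : (σ 1 n : ℂ) = sigmaP p n + (if p ∣ n then p * σ 1 (n / p) else 0 : ℕ) := by
      exact_mod_cast h1
    rw [if_neg hn.ne', if_neg hn.ne', h2]
    split_ifs with hd h0
    · exfalso
      have := Nat.div_pos (Nat.le_of_dvd hn hd) (Nat.pos_of_ne_zero hp)
      omega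
    · push_cast; ring
    · push_cast; ring

lemma hasSum_eisFn {p : ℕ} (hp : p ≠ 0) (τ : ℍ) :
    HasSum (fun n : ℕ ↦ eisc p n • Function.Periodic.qParam 1 τ ^ n) (eisFn p τ) := by
  have h := ((hasSum_E2p hp τ).sub (hasSum_E2 τ)).const_smul (24 : ℂ)⁻¹
  have hfun : (fun n : ℕ ↦ eisc p n • Function.Periodic.qParam 1 (τ : ℂ) ^ n) =
      fun n : ℕ => (24 : ℂ)⁻¹ • ((if p ∣ n then (p : ℂ) * e2c (n / p) else 0) •
        Function.Periodic.qParam 1 (τ : ℂ) ^ n - e2c n • Function.Periodic.qParam 1 (τ : ℂ) ^ n) := by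
    funext n
    rw [← sub_smul, smul_smul]
    congr 1
    exact eisc_eq hp n
  rw [hfun]
  exact h

theorem EisMF_coeff (p : ℕ) [NeZero p] (n : ℕ) :
    (qExpansion 1 (EisMF p)).coeff n = eisc p n :=
  (ModularFormClass.qExpansion_coeff_unique one_pos
    (CongruenceSubgroup.one_mem_strictPeriods_Gamma0 p) (f := EisMF p)
    (fun τ => hasSum_eisFn (NeZero.ne p) τ) n).symm

theorem EisMF_coeff_zero (p : ℕ) [NeZero p] :
    (qExpansion 1 (EisMF p)).coeff 0 = ((p : ℂ) - 1) / 24 := by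
  rw [EisMF_coeff]; simp [eisc]

theorem EisMF_coeff_pos (p : ℕ) [NeZero p] {n : ℕ} (hn : 1 ≤ n) :
    (qExpansion 1 (EisMF p)).coeff n = (sigmaP p n : ℂ) := by
  rw [EisMF_coeff, eisc, if_neg (by omega)]

end Fermat.Agent.S16
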