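import Mathlib
import Fermat.Agent.S16.Defs
import Fermat.Agent.S16.SigmaP
import Fermat.Agent.S16.EisQ
import Fermat.Agent.S20.CountIndex
import Fermat.Prelude.Thm_ModularForm_sturm_bound_Gamma0
import Fermat.Prelude.Def_ModularCurve_ModularUnit

/-!
# S16 / GLUE : from the integrality statement `upper` to
`∀ m, EisCong p m → m ∣ eisensteinNumerator p`.
-/

set_option autoImplicit false

open UpperHalfPlane ModularForm CongruenceSubgroup ModularFormClass
open scoped MatrixGroups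

noncomputable section

namespace Fermat.Agent.S16

theorem gcd_mul_gcd {p : ℕ} (hp : p.Prime) (h5 : 5 ≤ p) :
    Nat.gcd 12 (p + 1) * Nat.gcd (p - 1) 12 = 24 := by
  have h2 : ¬ 2 ∣ p := fun h => by
    have := (Nat.prime_dvd_prime_iff_eq Nat.prime_two hp).mp h; omega
  have h3 : ¬ 3 ∣ p := fun h => by
    have := (Nat.prime_dvd_prime_iff_eq Nat.prime_three hp).mp h; omega
  have hr : p % 12 = 1 ∨ p % 12 = 5 ∨ p % 12 = 7 ∨ p % 12 = 11 := by omega
  rw [Nat.gcd_rec 12 (p + 1), Nat.gcd_comm (p - 1) 12, Nat.gcd_rec 12 (p - 1)]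
  rcases hr with h | h | h | h
  · have a : (p + 1) % 12 = 2 := by omega
    have b : (p - 1) % 12 = 0 := by omega
    rw [a, b]; decide
  · have a : (p + 1) % 12 = 6 := by omega
    have b : (p - 1) % 12 = 4 := by omega
    rw [a, b]; decide
  · have a : (p + 1) % 12 = 8 := by omega
    have b : (p - 1) % 12 = 6 := by omega
    rw [a, b]; decide
  · have a : (p + 1) % 12 = 0 := by omega
    have b : (p - 1) % 12 = 10 := by omega
    rw [a, b]; decide

theorem eisensteinNumerator_mul (p : ℕ) :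
    ModularCurve.eisensteinNumerator p * Nat.gcd (p - 1) 12 = p - 1 :=
  Nat.div_mul_cancel (Nat.gcd_dvd_left _ _)

theorem eisensteinNumerator_pos {p : ℕ} (hp : 2 ≤ p) : 0 < ModularCurve.eisensteinNumerator p := by
  rcases Nat.eq_zero_or_pos (ModularCurve.eisensteinNumerator p) with h | h
  · have := eisensteinNumerator_mul p
    rw [h] at this
    omega
  · exact h

/-- The type of the integrality statement proved in `Upper.lean`. -/
def UpperStmt (p : ℕ) : Prop :=
  ∀ g : ModularForm (Gamma0 p) 2,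
    (∀ k, 1 ≤ k → ∃ n : ℤ, (qExpansion 1 g).coeff k = n) →
    ∃ n : ℤ, ((Nat.gcd 12 (p + 1) : ℕ) : ℂ) * (qExpansion 1 g).coeff 0 = n

theorem dvd_of_eisCong_of_pos {p : ℕ} [Fact p.Prime] (h5 : 5 ≤ p) (H : UpperStmt p)
    {m : ℕ} (hm : 1 ≤ m) (h : EisCong p m) : m ∣ ModularCurve.eisensteinNumerator p := by
  have hp : p.Prime := Fact.out
  haveI : NeZero p := ⟨hp.ne_zero⟩
  obtain ⟨f, hf⟩ := h
  have hΓ := one_mem_strictPeriods_Gamma0 p
  have hm0 : (m : ℂ) ≠ 0 := by exact_mod_cast (by omega : m ≠ 0)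
  set g : ModularForm (Gamma0 p) 2 := (m : ℂ)⁻¹ • (EisMF p - ModularFormClass.modularForm f) with hg
  have hq : qExpansion 1 g = (m : ℂ)⁻¹ • (qExpansion 1 (EisMF p) - qExpansion 1 f) := by
    have e1 : (⇑g : ℍ → ℂ) = (m : ℂ)⁻¹ • ⇑(EisMF p - ModularFormClass.modularForm f) := rfl
    have e2 : (⇑(EisMF p - ModularFormClass.modularForm f) : ℍ → ℂ) = ⇑(EisMF p) - ⇑f := rfl
    rw [e1, ModularForm.qExpansion_smul one_pos hΓ, e2, ModularForm.qExpansion_sub one_pos hΓ]
  obtain ⟨n, hn⟩ := H g (by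
    intro k hk
    obtain ⟨b, hb⟩ := hf k hk
    refine ⟨-b, ?_⟩
    unfold qCoeff at hb
    rw [hq, PowerSeries.coeff_smul, map_sub, EisMF_coeff_pos p hk, hb]
    push_cast
    rw [smul_eq_mul]
    field_simp
    ring)
  have h0 : (qExpansion 1 f).coeff 0 = 0 := CuspFormClass.qExpansion_coeff_zero f one_pos hΓ
  rw [hq, PowerSeries.coeff_smul, map_sub, EisMF_coeff_zero, h0, sub_zero, smul_eq_mul] at hn
  have h1 : ((Nat.gcd 12 (p + 1) : ℕ) : ℂ) * ((p : ℂ) - 1) = 24 * m * n := by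
    field_simp at hn
    linear_combination hn
  have h2 : ((Nat.gcd 12 (p + 1) : ℕ) : ℤ) * ((p - 1 : ℕ) : ℤ) = 24 * m * n := by
    have : (((p - 1 : ℕ) : ℤ) : ℂ) = (p : ℂ) - 1 := by
      rw [Nat.cast_sub hp.one_le]; push_cast; ring
    have h3 : ((((Nat.gcd 12 (p + 1) : ℕ) : ℤ) * ((p - 1 : ℕ) : ℤ) : ℤ) : ℂ) =
        ((24 * m * n : ℤ) : ℂ) := by
      push_cast [this]
      rw [← h1]
    exact_mod_cast h3
  have h4 := gcd_mul_gcd hp h5
  have h5' := eisensteinNumerator_mul p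
  have h6 : (24 : ℤ) * (ModularCurve.eisensteinNumerator p : ℤ) = 24 * (m * n) := by
    have h4' : ((Nat.gcd 12 (p + 1) : ℕ) : ℤ) * ((Nat.gcd (p - 1) 12 : ℕ) : ℤ) = 24 := by
      exact_mod_cast h4
    have h5'' : (ModularCurve.eisensteinNumerator p : ℤ) * ((Nat.gcd (p - 1) 12 : ℕ) : ℤ) =
        ((p - 1 : ℕ) : ℤ) := by exact_mod_cast h5'
    linear_combination (-(ModularCurve.eisensteinNumerator p : ℤ)) * h4' +
      ((Nat.gcd 12 (p + 1) : ℕ) : ℤ) * h5'' + h2
  have h7 : (ModularCurve.eisensteinNumerator p : ℤ) = m * n := by linarith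
  exact Int.natCast_dvd_natCast.mp ⟨n, h7⟩

theorem index_Gamma0_prime {p : ℕ} (hp : p.Prime) : (Gamma0 p).index = p + 1 := by
  have h := Fermat.Agent.S20.Count.index_Gamma0_mul_prime (N := 1) hp one_pos
  have htop : Gamma0 1 = ⊤ := by
    ext g
    simp only [Gamma0_mem, Subgroup.mem_top, iff_true]
    exact Subsingleton.elim _ _
  rw [one_mul, htop, Subgroup.index_top, mul_one, if_neg (by simpa using hp.one_lt.ne')] at h
  exact h

theorem cuspForm_eq_zero_of_le_four {p : ℕ} (hp : p.Prime) (h : p ≤ 4)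
    (f : CuspForm (Gamma0 p) 2) : f = 0 := by
  haveI : NeZero p := ⟨hp.ne_zero⟩
  have hF : (ModularFormClass.modularForm f : ModularForm (Gamma0 p) 2) = 0 := by
    apply ModularForm.sturm_bound_Gamma0 p
    intro n hn
    have hidx := index_Gamma0_prime hp
    have hn0 : n = 0 := by
      have : ((2 : ℤ) * (((Gamma0 p).index : ℕ) : ℤ)).toNat / 12 = 0 := by
        rw [hidx]; omega
      omega
    subst hn0
    exact CuspFormClass.qExpansion_coeff_zero f one_pos (one_mem_strictPeriods_Gamma0 p)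
  ext z
  have := congrArg (fun F : ModularForm (Gamma0 p) 2 => F z) hF
  simpa using this

theorem dvd_of_eisCong_small {p : ℕ} [Fact p.Prime] (h4 : p ≤ 4) {m : ℕ} (h : EisCong p m) :
    m ∣ ModularCurve.eisensteinNumerator p := by
  have hp : p.Prime := Fact.out
  obtain ⟨f, hf⟩ := h
  obtain ⟨b, hb⟩ := hf 1 le_rfl
  rw [cuspForm_eq_zero_of_le_four hp h4 f, sigmaP_one hp] at hb
  have h0 : qCoeff (⇑(0 : CuspForm (Gamma0 p) 2)) 1 = 0 := by
    unfold qCoeff
    rw [CuspForm.coe_zero, qExpansion_zero]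
    simp
  rw [h0] at hb
  have hb' : (0 : ℤ) = ((1 : ℕ) : ℤ) + (m : ℤ) * b := by exact_mod_cast hb
  have : (m : ℤ) ∣ 1 := ⟨-b, by push_cast at hb'; linarith⟩
  have hm1 : m ∣ 1 := by exact_mod_cast this
  exact dvd_trans hm1 (one_dvd _)

theorem EisCong.of_zero {p : ℕ} (h : EisCong p 0) (m : ℕ) : EisCong p m := by
  obtain ⟨f, hf⟩ := h
  refine ⟨f, fun n hn => ?_⟩
  obtain ⟨b, hb⟩ := hf n hn
  exact ⟨0, by rw [hb]; push_cast; ring⟩

/-- **GLUE**: the upper bound in the shape needed by `card_eq_of_lower_upper`. -/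
theorem dvd_of_eisCong (p : ℕ) [Fact p.Prime] (H : 5 ≤ p → UpperStmt p) (m : ℕ)
    (h : EisCong p m) : m ∣ ModularCurve.eisensteinNumerator p := by
  have hp : p.Prime := Fact.out
  rcases Nat.lt_or_ge p 5 with h5 | h5
  · exact dvd_of_eisCong_small (by omega) h
  · rcases Nat.eq_zero_or_pos m with rfl | hm
    · exfalso
      have hpos := eisensteinNumerator_pos hp.two_le
      have := dvd_of_eisCong_of_pos h5 (H h5)
        (m := ModularCurve.eisensteinNumerator p + 1) (by omega) (h.of_zero _)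
      have := Nat.le_of_dvd hpos this
      omega
    · exact dvd_of_eisCong_of_pos h5 (H h5) hm h

end Fermat.Agent.S16
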