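import Fermat.Agent.S24.QExp
import Fermat.Agent.S20.Basic
import Fermat.Prelude.Def_ModularForm_HeckeOperator

/-!
# S16 / UPPER / U-A : conjugates of a form on `Γ₀(p)`, trace and norm to level one
-/

set_option autoImplicit false

open UpperHalfPlane ModularForm EisensteinSeries CongruenceSubgroup ModularGroup
open scoped MatrixGroups Manifold

noncomputable section

namespace Fermat.Agent.S16

/-- `f` is holomorphic, of weight `k` for `Γ₀(p)`, and all its `SL(2,ℤ)`-translates are bounded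
at `i∞` (function level version of `ModularForm (Gamma0 p) k`). -/
structure IsG0 (p : ℕ) (k : ℤ) (f : ℍ → ℂ) : Prop where
  inv : ∀ γ : SL(2, ℤ), γ ∈ Gamma0 p → f ∣[k] γ = f
  holo : MDiff f
  bdd : ∀ γ : SL(2, ℤ), IsBoundedAtImInfty (f ∣[k] γ)

theorem isG0_iff_isMF {p : ℕ} {k : ℤ} {f : ℍ → ℂ} : IsG0 p k f ↔ S20.IsMF (Gamma0 p) k f :=
  ⟨fun h => ⟨h.holo, h.inv, h.bdd⟩, fun h => ⟨h.inv, h.holo, h.bdd⟩⟩

theorem isG0_of_modularForm {p : ℕ} [NeZero p] {k : ℤ} (f : ModularForm (Gamma0 p) k) :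
    IsG0 p k f :=
  isG0_iff_isMF.mpr (S20.isMF_of_modularForm f)

/-- every level one form is in particular a form on `Γ₀(p)` -/
theorem isG0_of_levelOne (p : ℕ) {k : ℤ} (f : ModularForm 𝒮ℒ k) : IsG0 p k f :=
  isG0_iff_isMF.mpr (S20.isMF_top_of_modularForm f).of_top

theorem slash_of_levelOne {k : ℤ} (f : ModularForm 𝒮ℒ k) (γ : SL(2, ℤ)) :
    (f : ℍ → ℂ) ∣[k] γ = f :=
  (S20.isMF_top_of_modularForm f).slash_top γ

/-- the conjugate `f ∣ S T^j` -/
def cj (k : ℤ) (f : ℍ → ℂ) (j : ℕ) : ℍ → ℂ := f ∣[k] (S * T ^ j)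

/-- the trace of `f` from `Γ₀(p)` to `SL(2,ℤ)` -/
def trFun (p : ℕ) (k : ℤ) (f : ℍ → ℂ) : ℍ → ℂ := f + ∑ j ∈ Finset.range p, cj k f j

/-- the norm of `f` from `Γ₀(p)` to `SL(2,ℤ)` -/
def nmFun (p : ℕ) (k : ℤ) (f : ℍ → ℂ) : ℍ → ℂ := f * ∏ j ∈ Finset.range p, cj k f j

theorem IsG0.add {p : ℕ} {k : ℤ} {f g : ℍ → ℂ} (hf : IsG0 p k f) (hg : IsG0 p k g) :
    IsG0 p k (f + g) :=
  isG0_iff_isMF.mpr ((isG0_iff_isMF.mp hf).add (isG0_iff_isMF.mp hg))

theorem IsG0.smul {p : ℕ} {k : ℤ} {f : ℍ → ℂ} (c : ℂ) (hf : IsG0 p k f) : IsG0 p k (c • f) :=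
  isG0_iff_isMF.mpr ((isG0_iff_isMF.mp hf).smul c)

theorem IsG0.mul {p : ℕ} {k k' : ℤ} {f g : ℍ → ℂ} (hf : IsG0 p k f) (hg : IsG0 p k' g) :
    IsG0 p (k + k') (f * g) :=
  isG0_iff_isMF.mpr ((isG0_iff_isMF.mp hf).mul (isG0_iff_isMF.mp hg))

theorem cj_add (k : ℤ) (f g : ℍ → ℂ) (j : ℕ) : cj k (f + g) j = cj k f j + cj k g j :=
  SlashAction.add_slash _ _ _ _

theorem cj_smul (k : ℤ) (c : ℂ) (f : ℍ → ℂ) (j : ℕ) : cj k (c • f) j = c • cj k f j :=
  SL_smul_slash _ _ _ _

theorem cj_mul (k k' : ℤ) (f g : ℍ → ℂ) (j : ℕ) :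
    cj (k + k') (f * g) j = cj k f j * cj k' g j :=
  mul_slash_SL2 _ _ _ _ _

theorem cj_of_levelOne {k : ℤ} (f : ModularForm 𝒮ℒ k) (j : ℕ) : cj k f j = f :=
  slash_of_levelOne f _

/-! ### The family of conjugates indexed by `ℙ¹(𝔽_p) = Option (ZMod p)` -/

namespace ConjAux

theorem coe_T_pow (n : ℕ) :
    ((T ^ n : SL(2, ℤ)) : Matrix (Fin 2) (Fin 2) ℤ) = !![1, (n : ℤ); 0, 1] := by
  have := ModularGroup.coe_T_zpow (n : ℤ)
  rwa [zpow_natCast] at this

theorem T_mem_Gamma0 (p : ℕ) : T ∈ Gamma0 p := by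
  rw [Gamma0_mem]
  simp [ModularGroup.T]

theorem SS_mem_Gamma0 (p : ℕ) : S * S ∈ Gamma0 p := by
  rw [Gamma0_mem]
  simp [ModularGroup.S, Matrix.mul_apply, Fin.sum_univ_two]

/-- `S T^p S⁻¹ ∈ Γ₀(p)`, in the form `S T^(j+p) = γ S T^j`. -/
theorem exists_shift (p j : ℕ) : ∃ γ ∈ Gamma0 p, S * T ^ (j + p) = γ * (S * T ^ j) := by
  refine ⟨⟨!![1, 0; -(p : ℤ), 1], by simp [Matrix.det_fin_two_of]⟩, ?_, ?_⟩
  · rw [Gamma0_mem]
    simp
  · apply Subtype.ext
    simp only [Matrix.SpecialLinearGroup.coe_mul, coe_T_pow, ModularGroup.coe_S]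
    ext a b
    fin_cases a <;> fin_cases b <;> simp [Matrix.mul_apply, Fin.sum_univ_two]
    ring

/-- `S T^a S = γ S T^b` with `γ ∈ Γ₀(p)` if `a b ≡ -1 mod p`. -/
theorem exists_flip (p a b : ℕ) (hab : (p : ℤ) ∣ (a : ℤ) * b + 1) :
    ∃ γ ∈ Gamma0 p, S * T ^ a * S = γ * (S * T ^ b) := by
  refine ⟨⟨!![-(b : ℤ), -1; (a : ℤ) * b + 1, a], by simp [Matrix.det_fin_two_of]; ring⟩, ?_, ?_⟩
  · rw [Gamma0_mem]
    simpa using (ZMod.intCast_zmod_eq_zero_iff_dvd _ p).mpr hab
  · apply Subtype.ext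
    simp only [Matrix.SpecialLinearGroup.coe_mul, coe_T_pow, ModularGroup.coe_S]
    ext i j
    fin_cases i <;> fin_cases j <;> simp [Matrix.mul_apply, Fin.sum_univ_two]

variable {p : ℕ} {k : ℤ} {f : ℍ → ℂ}

theorem cj_add_p (hf : IsG0 p k f) (j : ℕ) : cj k f (j + p) = cj k f j := by
  obtain ⟨γ, hγ, h⟩ := exists_shift p j
  unfold cj
  rw [h, SlashAction.slash_mul, hf.inv γ hγ]

theorem cj_add_mul_p (hf : IsG0 p k f) (j m : ℕ) : cj k f (j + m * p) = cj k f j := by
  induction m with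
  | zero => simp
  | succ m ih => rw [add_mul, one_mul, ← add_assoc, cj_add_p hf, ih]

theorem cj_congr (hf : IsG0 p k f) {i j : ℕ} (h : (i : ZMod p) = (j : ZMod p)) :
    cj k f i = cj k f j := by
  rw [ZMod.natCast_eq_natCast_iff] at h
  have h1 : cj k f i = cj k f (i % p) := by
    conv_lhs => rw [← Nat.mod_add_div i p, mul_comm p]
    exact cj_add_mul_p hf _ _
  have h2 : cj k f j = cj k f (j % p) := by
    conv_lhs => rw [← Nat.mod_add_div j p, mul_comm p]
    exact cj_add_mul_p hf _ _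
  rw [h1, h2, h]

/-- the family of all conjugates -/
def fam (p : ℕ) (k : ℤ) (f : ℍ → ℂ) : Option (ZMod p) → ℍ → ℂ
  | none => f
  | some x => cj k f x.val

theorem fam_some_natCast [NeZero p] (hf : IsG0 p k f) (j : ℕ) :
    fam p k f (some (j : ZMod p)) = cj k f j :=
  cj_congr hf (by simp)

/-- the permutation induced by `T` -/
def permT (p : ℕ) : Equiv.Perm (Option (ZMod p)) :=
  Equiv.optionCongr (Equiv.addRight 1)

theorem fam_slash_T [NeZero p] (hf : IsG0 p k f) (i : Option (ZMod p)) :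
    fam p k f i ∣[k] T = fam p k f (permT p i) := by
  cases i with
  | none => exact hf.inv T (T_mem_Gamma0 p)
  | some x =>
    show cj k f x.val ∣[k] T = fam p k f (some (x + 1))
    have h1 : (x + 1 : ZMod p) = ((x.val + 1 : ℕ) : ZMod p) := by simp
    rw [h1, fam_some_natCast hf]
    unfold cj
    rw [← SlashAction.slash_mul, mul_assoc, ← pow_succ]

/-- the map induced by `S` -/
def mapS (p : ℕ) : Option (ZMod p) → Option (ZMod p)
  | none => some 0
  | some x => if x = 0 then none else some (-x⁻¹)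

theorem mapS_involutive [Fact p.Prime] : Function.Involutive (mapS p) := by
  intro i
  cases i with
  | none => simp [mapS]
  | some x =>
    by_cases hx : x = 0
    · simp [mapS, hx]
    · simp [mapS, hx]

theorem fam_slash_S [Fact p.Prime] (hf : IsG0 p k f) (i : Option (ZMod p)) :
    fam p k f i ∣[k] S = fam p k f (mapS p i) := by
  cases i with
  | none =>
    show f ∣[k] S = cj k f (0 : ZMod p).val
    simp [cj]
  | some x =>
    by_cases hx : x = 0
    · subst hx
      show cj k f (0 : ZMod p).val ∣[k] S = fam p k f (mapS p (some 0))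
      simp only [mapS, if_true, fam, cj, ZMod.val_zero, pow_zero, mul_one]
      rw [← SlashAction.slash_mul]
      exact hf.inv _ (SS_mem_Gamma0 p)
    · show cj k f x.val ∣[k] S = fam p k f (mapS p (some x))
      simp only [mapS, if_neg hx, fam]
      have hab : (p : ℤ) ∣ (x.val : ℤ) * ((-x⁻¹ : ZMod p).val : ℤ) + 1 := by
        rw [← ZMod.intCast_zmod_eq_zero_iff_dvd]
        push_cast
        simp only [ZMod.natCast_val, ZMod.cast_id', id_eq]
        rw [mul_neg, mul_inv_cancel₀ hx]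
        ring
      obtain ⟨γ, hγ, h⟩ := exists_flip p x.val (-x⁻¹ : ZMod p).val hab
      unfold cj
      rw [← SlashAction.slash_mul, h, SlashAction.slash_mul, hf.inv γ hγ]

theorem sum_range_eq [NeZero p] (hf : IsG0 p k f) :
    ∑ j ∈ Finset.range p, cj k f j = ∑ x : ZMod p, fam p k f (some x) := by
  refine Finset.sum_bij (fun j _ => (j : ZMod p)) (fun _ _ => Finset.mem_univ _) ?_ ?_ ?_
  · intro a ha b hb h
    rw [ZMod.natCast_eq_natCast_iff, Nat.ModEq, Nat.mod_eq_of_lt (Finset.mem_range.mp ha),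
      Nat.mod_eq_of_lt (Finset.mem_range.mp hb)] at h
    exact h
  · intro x _
    exact ⟨x.val, Finset.mem_range.mpr (ZMod.val_lt x), by simp⟩
  · intro j _
    exact (fam_some_natCast hf j).symm

theorem prod_range_eq [NeZero p] (hf : IsG0 p k f) :
    ∏ j ∈ Finset.range p, cj k f j = ∏ x : ZMod p, fam p k f (some x) := by
  refine Finset.prod_bij (fun j _ => (j : ZMod p)) (fun _ _ => Finset.mem_univ _) ?_ ?_ ?_
  · intro a ha b hb h
    rw [ZMod.natCast_eq_natCast_iff, Nat.ModEq, Nat.mod_eq_of_lt (Finset.mem_range.mp ha),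
      Nat.mod_eq_of_lt (Finset.mem_range.mp hb)] at h
    exact h
  · intro x _
    exact ⟨x.val, Finset.mem_range.mpr (ZMod.val_lt x), by simp⟩
  · intro j _
    exact (fam_some_natCast hf j).symm

theorem trFun_eq [NeZero p] (hf : IsG0 p k f) : trFun p k f = ∑ i, fam p k f i := by
  rw [Fintype.sum_option, trFun, sum_range_eq hf]
  rfl

theorem nmFun_eq [NeZero p] (hf : IsG0 p k f) : nmFun p k f = ∏ i, fam p k f i := by
  rw [Fintype.prod_option, nmFun, prod_range_eq hf]
  rfl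

theorem fam_holo (hf : IsG0 p k f) (i : Option (ZMod p)) : MDiff (fam p k f i) := by
  cases i with
  | none => exact hf.holo
  | some x => exact hf.holo.slash k _

theorem fam_bdd (hf : IsG0 p k f) (i : Option (ZMod p)) :
    IsBoundedAtImInfty (fam p k f i) := by
  cases i with
  | none =>
    have := hf.bdd 1
    rwa [SlashAction.slash_one] at this
  | some x => exact hf.bdd _

theorem prod_slash_SL {ι : Type*} (s : Finset ι) (F : ι → ℍ → ℂ) (γ : SL(2, ℤ)) :
    (∏ i ∈ s, F i) ∣[k * (s.card : ℤ)] γ = ∏ i ∈ s, F i ∣[k] γ := by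
  rw [SL_slash, ModularForm.prod_slash]
  simp [SL_slash]

theorem mdiff_prod {ι : Type*} (s : Finset ι) (F : ι → ℍ → ℂ) (h : ∀ i ∈ s, MDiff (F i)) :
    MDiff (∏ i ∈ s, F i) := by
  classical
  induction s using Finset.induction_on with
  | empty =>
    simp only [Finset.prod_empty]
    exact fun _ => mdifferentiableAt_const
  | insert a s ha ih =>
    rw [Finset.prod_insert ha]
    exact (h a (Finset.mem_insert_self _ _)).mul
      (ih fun i hi => h i (Finset.mem_insert_of_mem hi))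

theorem mdiff_sum {ι : Type*} (s : Finset ι) (F : ι → ℍ → ℂ) (h : ∀ i ∈ s, MDiff (F i)) :
    MDiff (∑ i ∈ s, F i) := by
  classical
  induction s using Finset.induction_on with
  | empty =>
    simp only [Finset.sum_empty]
    exact fun _ => mdifferentiableAt_const
  | insert a s ha ih =>
    rw [Finset.sum_insert ha]
    exact (h a (Finset.mem_insert_self _ _)).add
      (ih fun i hi => h i (Finset.mem_insert_of_mem hi))

theorem bdd_prod {ι : Type*} (s : Finset ι) (F : ι → ℍ → ℂ)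
    (h : ∀ i ∈ s, IsBoundedAtImInfty (F i)) : IsBoundedAtImInfty (∏ i ∈ s, F i) := by
  classical
  induction s using Finset.induction_on with
  | empty =>
    simp only [Finset.prod_empty]
    exact Filter.const_boundedAtFilter _ (1 : ℂ)
  | insert a s ha ih =>
    rw [Finset.prod_insert ha]
    exact (h a (Finset.mem_insert_self _ _)).mul
      (ih fun i hi => h i (Finset.mem_insert_of_mem hi))

theorem bdd_sum {ι : Type*} (s : Finset ι) (F : ι → ℍ → ℂ)
    (h : ∀ i ∈ s, IsBoundedAtImInfty (F i)) : IsBoundedAtImInfty (∑ i ∈ s, F i) := by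
  classical
  induction s using Finset.induction_on with
  | empty =>
    simp only [Finset.sum_empty]
    exact zero_form_isBoundedAtImInfty
  | insert a s ha ih =>
    rw [Finset.sum_insert ha]
    exact (h a (Finset.mem_insert_self _ _)).add
      (ih fun i hi => h i (Finset.mem_insert_of_mem hi))

end ConjAux

open ConjAux

/-- **U-A1**.  The trace is a level one form. -/
theorem exists_trForm {p : ℕ} [Fact p.Prime] {k : ℤ} {f : ℍ → ℂ} (hf : IsG0 p k f) :
    ∃ F : ModularForm 𝒮ℒ k, (F : ℍ → ℂ) = trFun p k f := by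
  have hS : trFun p k f ∣[k] S = trFun p k f := by
    rw [trFun_eq hf, SlashAction.sum_slash]
    simp only [fam_slash_S hf]
    exact Equiv.sum_comp (mapS_involutive (p := p)).toPerm (fam p k f)
  have hT : trFun p k f ∣[k] T = trFun p k f := by
    rw [trFun_eq hf, SlashAction.sum_slash]
    simp only [fam_slash_T hf]
    exact Equiv.sum_comp (permT p) (fam p k f)
  have hinv := SlashInvariantForm.slash_action_generators_SL2Z hS hT
  have hMF : S20.IsMF ⊤ k (trFun p k f) := by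
    refine ⟨?_, fun γ _ => hinv γ, fun γ => ?_⟩
    · rw [trFun_eq hf]
      exact mdiff_sum _ _ fun i _ => fam_holo hf i
    · rw [hinv γ, trFun_eq hf]
      exact bdd_sum _ _ fun i _ => fam_bdd hf i
  exact ⟨hMF.toLevelOne, rfl⟩

/-- **U-A2**.  The norm is a level one form. -/
theorem exists_nmForm {p : ℕ} [Fact p.Prime] {k : ℤ} {f : ℍ → ℂ} (hf : IsG0 p k f) :
    ∃ F : ModularForm 𝒮ℒ (k * (p + 1)), (F : ℍ → ℂ) = nmFun p k f := by
  have hcard : ((Finset.univ : Finset (Option (ZMod p))).card : ℤ) = (p : ℤ) + 1 := by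
    rw [Finset.card_univ, Fintype.card_option, ZMod.card]
    push_cast
    ring
  have hS : nmFun p k f ∣[k * ((p : ℤ) + 1)] S = nmFun p k f := by
    rw [nmFun_eq hf, ← hcard, prod_slash_SL]
    simp only [fam_slash_S hf]
    exact Equiv.prod_comp (mapS_involutive (p := p)).toPerm (fam p k f)
  have hT : nmFun p k f ∣[k * ((p : ℤ) + 1)] T = nmFun p k f := by
    rw [nmFun_eq hf, ← hcard, prod_slash_SL]
    simp only [fam_slash_T hf]
    exact Equiv.prod_comp (permT p) (fam p k f)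
  have hinv := SlashInvariantForm.slash_action_generators_SL2Z hS hT
  have hMF : S20.IsMF ⊤ (k * ((p : ℤ) + 1)) (nmFun p k f) := by
    refine ⟨?_, fun γ _ => hinv γ, fun γ => ?_⟩
    · rw [nmFun_eq hf]
      exact mdiff_prod _ _ fun i _ => fam_holo hf i
    · rw [hinv γ, nmFun_eq hf]
      exact bdd_prod _ _ fun i _ => fam_bdd hf i
  exact ⟨hMF.toLevelOne, rfl⟩

end Fermat.Agent.S16
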