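import Fermat.Agent.S24.QExp
import Fermat.Agent.S16.SigmaP
import Fermat.Agent.S16.EisQ

/-!
# S16 / B1 : the Eisenstein series `E = (p E₂(pz) - E₂(z)) / 24` of weight two on `Γ₀(p)`

(helper26's interface, proved from helper9's `EisDef.lean` / `EisQ.lean`.)
-/

set_option autoImplicit false

open UpperHalfPlane ModularForm EisensteinSeries CongruenceSubgroup ModularGroup
open scoped MatrixGroups Manifold

noncomputable section

namespace Fermat.Agent.S16

open Fermat.Agent.S24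

theorem sigmaP_two (p : ℕ) (hp : 2 < p) : sigmaP p 2 = 3 := by
  have h2 : Nat.divisors 2 = {1, 2} := by decide
  have a1 : ¬ p ∣ 1 := by
    intro h; have := Nat.le_of_dvd one_pos h; omega
  have a2 : ¬ p ∣ 2 := by
    intro h; have := Nat.le_of_dvd two_pos h; omega
  rw [sigmaP, h2, Finset.filter_true_of_mem]
  · simp
  · intro x hx
    simp only [Finset.mem_insert, Finset.mem_singleton] at hx
    rcases hx with rfl | rfl
    · exact a1
    · exact a2

theorem sigmaP_self (p : ℕ) (hp : p.Prime) : sigmaP p p = 1 := by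
  have := sigmaP_mul_self hp 1
  rw [one_mul, sigmaP_one hp] at this
  exact this

/-- `σ'(n) = σ(n) - p σ(n/p)` -/
theorem sigmaP_eq (p : ℕ) (hp : p.Prime) (n : ℕ) :
    (sigmaP p n : ℤ) = ArithmeticFunction.sigma 1 n -
      if p ∣ n then (p : ℤ) * ArithmeticFunction.sigma 1 (n / p) else 0 := by
  have h := sigma_one_eq hp.ne_zero n
  rw [h]
  split_ifs <;> push_cast <;> ring

/-- the function `(p E₂(pz) - E₂(z)) / 24` -/
def eisFun (p : ℕ) [NeZero p] : ℍ → ℂ := fun z => ((p : ℂ) * E2 (scaleH p z) - E2 z) / 24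

theorem eisFn_eq_eisFun (p : ℕ) [NeZero p] : eisFn p = eisFun p := by
  funext z
  have hz : ModularForm.heckeDiagMatrix p • z = scaleH p z := by
    apply UpperHalfPlane.ext
    rw [ModularForm.coe_heckeDiagMatrix_smul (NeZero.ne p), coe_scaleH]
  simp only [eisFn, eisFun, Pi.smul_apply, Pi.sub_apply, E2p_apply (NeZero.ne p), hz, smul_eq_mul]
  ring

/-- **B1**. -/
theorem exists_eis (p : ℕ) [Fact p.Prime] [NeZero p] :
    ∃ E : ModularForm (Gamma0 p) 2, (E : ℍ → ℂ) = eisFun p :=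
  ⟨EisMF p, by rw [coe_EisMF, eisFn_eq_eisFun]⟩

/-- the Eisenstein series of weight two on `Γ₀(p)` -/
def Eis (p : ℕ) [Fact p.Prime] : ModularForm (Gamma0 p) 2 :=
  haveI : NeZero p := ⟨(Fact.out : p.Prime).ne_zero⟩
  (exists_eis p).choose

theorem coe_Eis (p : ℕ) [Fact p.Prime] [NeZero p] : (Eis p : ℍ → ℂ) = eisFun p :=
  (exists_eis p).choose_spec

theorem Eis_eq_EisMF (p : ℕ) [Fact p.Prime] [NeZero p] : Eis p = EisMF p := by
  apply DFunLike.coe_injective
  rw [coe_Eis, coe_EisMF, eisFn_eq_eisFun]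

theorem coeff_zero_Eis (p : ℕ) [Fact p.Prime] :
    (qExpansion 1 (Eis p)).coeff 0 = ((p : ℂ) - 1) / 24 := by
  haveI : NeZero p := ⟨(Fact.out : p.Prime).ne_zero⟩
  rw [Eis_eq_EisMF, EisMF_coeff_zero]

theorem coeff_Eis (p : ℕ) [Fact p.Prime] (n : ℕ) (hn : 1 ≤ n) :
    (qExpansion 1 (Eis p)).coeff n = sigmaP p n := by
  haveI : NeZero p := ⟨(Fact.out : p.Prime).ne_zero⟩
  rw [Eis_eq_EisMF, EisMF_coeff_pos p hn]

end Fermat.Agent.S16
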