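import Fermat.Agent.S16.Conj
import Fermat.Agent.S28.RelAff
import Fermat.Prelude.Thm_UpperHalfPlane_qExpansion_prod

/-!
# S16 / UPPER / U-C : expansions in `q_p = e(z/p)`

A function `F` of period `p` is expanded in `q_p` by expanding `F(pz)` in `q`.
-/

set_option autoImplicit false

open UpperHalfPlane ModularForm EisensteinSeries CongruenceSubgroup ModularGroup
open scoped MatrixGroups Manifold Real

noncomputable section

namespace Fermat.Agent.S16

open Fermat.Agent.S24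

/-- `F(pz)` is holomorphic, one-periodic and bounded at infinity -/
def IsQp (p : ℕ) [NeZero p] (F : ℍ → ℂ) : Prop := IsQ (F ∘ scaleH p)

/-- the expansion of `F` in the variable `q_p` -/
def XP (p : ℕ) [NeZero p] (F : ℍ → ℂ) : PowerSeries ℂ := qExpansion 1 (F ∘ scaleH p)

/-- `e(1/p)` -/
def zt (p : ℕ) : ℂ := Complex.exp (2 * π * Complex.I / p)

variable {p : ℕ} [NeZero p] {F G : ℍ → ℂ}

theorem IsQp.add (hF : IsQp p F) (hG : IsQp p G) : IsQp p (F + G) := IsQ.add hF hG

theorem IsQp.mul (hF : IsQp p F) (hG : IsQp p G) : IsQp p (F * G) := IsQ.mul hF hG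

theorem IsQp.neg (hF : IsQp p F) : IsQp p (-F) := IsQ.neg hF

theorem IsQp.smul (c : ℂ) (hF : IsQp p F) : IsQp p (c • F) :=
  (IsQ.const c).mul hF

theorem isQp_one : IsQp p (1 : ℍ → ℂ) := IsQ.one

theorem IsQp.pow (hF : IsQp p F) (n : ℕ) : IsQp p (F ^ n) := by
  induction n with
  | zero => rw [pow_zero]; exact isQp_one
  | succ n ih => rw [pow_succ]; exact ih.mul hF

theorem IsQp.prod {ι : Type*} (s : Finset ι) {F : ι → ℍ → ℂ} (hF : ∀ i ∈ s, IsQp p (F i)) :
    IsQp p (∏ i ∈ s, F i) := by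
  classical
  induction s using Finset.induction_on with
  | empty => rw [Finset.prod_empty]; exact isQp_one
  | insert a s ha ih =>
    rw [Finset.prod_insert ha]
    exact (hF a (Finset.mem_insert_self a s)).mul
      (ih fun i hi => hF i (Finset.mem_insert_of_mem hi))

theorem XP_add (hF : IsQp p F) (hG : IsQp p G) : XP p (F + G) = XP p F + XP p G :=
  qExpansion_add (IsQ.analytic hF) (IsQ.analytic hG)

theorem XP_mul (hF : IsQp p F) (hG : IsQp p G) : XP p (F * G) = XP p F * XP p G :=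
  qExpansion_mul (IsQ.analytic hF) (IsQ.analytic hG)

theorem XP_neg (hF : IsQp p F) : XP p (-F) = -XP p F :=
  qExpansion_neg (IsQ.analytic hF)

theorem XP_smul (c : ℂ) (hF : IsQp p F) : XP p (c • F) = c • XP p F :=
  qExpansion_smul (IsQ.analytic hF) c

theorem XP_one : XP p (1 : ℍ → ℂ) = 1 := qExpansion_one 1

theorem XP_pow (hF : IsQp p F) (n : ℕ) : XP p (F ^ n) = XP p F ^ n := by
  induction n with
  | zero => rw [pow_zero, pow_zero]; exact XP_one
  | succ n ih => rw [pow_succ, pow_succ, XP_mul (hF.pow n) hF, ih]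

theorem XP_prod {ι : Type*} (s : Finset ι) {F : ι → ℍ → ℂ} (hF : ∀ i ∈ s, IsQp p (F i)) :
    XP p (∏ i ∈ s, F i) = ∏ i ∈ s, XP p (F i) := by
  classical
  induction s using Finset.induction_on with
  | empty => rw [Finset.prod_empty, Finset.prod_empty]; exact XP_one
  | insert a s ha ih =>
    rw [Finset.prod_insert ha, Finset.prod_insert ha,
      XP_mul (hF a (Finset.mem_insert_self a s))
        (IsQp.prod s fun i hi => hF i (Finset.mem_insert_of_mem hi)),
      ih fun i hi => hF i (Finset.mem_insert_of_mem hi)]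

theorem isQp_of_isQ (hF : IsQ F) : IsQp p F := hF.scale p

theorem coeff_XP_of_isQ (hF : IsQ F) (m : ℕ) :
    (XP p F).coeff m = if p ∣ m then (qExpansion 1 F).coeff (m / p) else 0 :=
  qExpansion_scale_coeff hF p m

theorem coeff_XP_mul_of_isQ (hF : IsQ F) (n : ℕ) :
    (XP p F).coeff (p * n) = (qExpansion 1 F).coeff n := by
  rw [coeff_XP_of_isQ hF, if_pos (dvd_mul_right p n),
    Nat.mul_div_cancel_left _ (Nat.pos_of_ne_zero (NeZero.ne p))]

/-- `XP p F = (qExpansion 1 F)(X^p)` -/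
theorem XP_of_isQ (hF : IsQ F) :
    XP p F = (qExpansion 1 F).subst ((PowerSeries.X : PowerSeries ℂ) ^ p) := by
  ext m
  rw [coeff_XP_of_isQ hF, PowerSeries.coeff_subst_X_pow (NeZero.ne p)]
  rfl

theorem slash_heckeMatrix_comp_scaleH (F : ℍ → ℂ) (k : ℤ) (j : ℕ) :
    (F ∣[k] heckeMatrix p j) ∘ scaleH p =
      (fun _ => (p : ℂ)⁻¹) * (F ∘ Fermat.Agent.S28.RelAff.affR 1 one_pos ((j : ℝ) / p)) := by
  have hp : p ≠ 0 := NeZero.ne p
  have hp' : (p : ℂ) ≠ 0 := by exact_mod_cast hp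
  funext τ
  simp only [Function.comp_apply, Pi.mul_apply, slash_heckeMatrix_apply k hp]
  congr 2
  apply UpperHalfPlane.ext
  rw [coe_heckeMatrix_smul hp, coe_scaleH, Fermat.Agent.S28.RelAff.coe_affR]
  push_cast
  field_simp

/-- **U-C1** -/
theorem isQp_slash_heckeMatrix (hF : IsQ F) (k : ℤ) (j : ℕ) :
    IsQp p (F ∣[k] heckeMatrix p j) := by
  rw [IsQp, slash_heckeMatrix_comp_scaleH]
  exact (IsQ.const _).mul (Fermat.Agent.S28.RelAff.isQ_comp_affR 1 one_pos _ hF)

/-- **U-C2**  `(F ∣ [[1,j],[0,p]])(z) = p⁻¹ ∑ a_n ζ^(jn) q_p^n`. -/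
theorem coeff_XP_slash_heckeMatrix (hF : IsQ F) (k : ℤ) (j n : ℕ) :
    (XP p (F ∣[k] heckeMatrix p j)).coeff n =
      (p : ℂ)⁻¹ * (qExpansion 1 F).coeff n * zt p ^ (j * n) := by
  have hQ := Fermat.Agent.S28.RelAff.isQ_comp_affR 1 one_pos ((j : ℝ) / p) hF
  rw [XP, slash_heckeMatrix_comp_scaleH, qExpansion_mul (IsQ.const _).analytic hQ.analytic,
    qExpansion_const, PowerSeries.coeff_C_mul, Fermat.Agent.S28.RelAff.qExpansion_affR_coeff 1 one_pos _ hF,
    if_pos (one_dvd n), Nat.div_one, mul_assoc]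
  congr 2
  rw [zt, Function.Periodic.qParam, ← Complex.exp_nat_mul, ← Complex.exp_nat_mul]
  congr 1
  push_cast
  ring

theorem isQ_of_modularForm_Gamma0 {N : ℕ} {k : ℤ} (f : ModularForm (Gamma0 N) k) : IsQ f :=
  haveI : Fact (IsCusp OnePoint.infty (Gamma0 N : Subgroup (GL (Fin 2) ℝ))) :=
    ⟨Subgroup.isCusp_of_mem_strictPeriods one_pos (by simp)⟩
  ⟨f.holo', SlashInvariantFormClass.periodic_comp_ofComplex f (by simp),
    ModularFormClass.bdd_at_infty f⟩

end Fermat.Agent.S16
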