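import Fermat.Agent.S16.Conj
import Fermat.Prelude.Def_ModularForm_HeckeOperatorForms
import Fermat.Prelude.Thm_ModularFormClass_qCoeff_heckeU
import Fermat.Prelude.Thm_CongruenceSubgroup_one_mem_strictPeriods_Gamma0
import Fermat.Prelude.Thm_ModularFormClass_isBoundedAt_heckeU

/-!
# S16 / UPPER / U-B : the identity (T)  `g ∣ S T^j = - (U_p g) ∣ [[1,j],[0,p]]` in weight two

Proof.  Put `g' := g ∣[2] (S * D)` with `D = heckeDiagMatrix p` (so `g' = g ∣ W`, `W = [[0,-1],[p,0]]`).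
* `g'` satisfies `IsG0 p 2`: for `γ = [[a,b],[c,d]] ∈ Γ₀(p)` one has `W γ = γ' W` with
  `γ' = [[d,-c/p],[-pb,a]] ∈ Γ₀(p)`; every translate `g' ∣ γ` (`γ ∈ SL(2,ℤ)`) is `g' ` or `g' ∣ S T^j` up to
  `Γ₀(p)`, and `g' ∣ S T^j = g ∣ (W S T^j) = g ∣ (-[[1,j],[0,p]]) = g ∣ heckeMatrix p j` is bounded.
* By `exists_trForm` and `levelOne_weight_two_rank_zero`, `trFun p 2 g' = 0`, i.e.
  `g' = - ∑ j, g ∣ heckeMatrix p j = - heckeU 2 p g`.
* Slash with `D⁻¹ T^j`-type matrices: `S * T^j = (S * D) * (D⁻¹ T^j)` and `p • D⁻¹ T^j = heckeMatrix p j`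
  (scalars act trivially in weight `2` with Mathlib's normalisation `det^(k-1)`; check it!), or apply the
  same argument to `U_p g`-free form: `g ∣ S = (g' ∣ D⁻¹)`.
-/

set_option autoImplicit false

open UpperHalfPlane ModularForm EisensteinSeries CongruenceSubgroup ModularGroup
open scoped MatrixGroups Manifold

noncomputable section

namespace Fermat.Agent.S16

namespace FrickeAux

theorem val_coeGL (γ : SL(2, ℤ)) :
    ((γ : GL (Fin 2) ℝ) : Matrix (Fin 2) (Fin 2) ℝ) =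
      !![((γ 0 0 : ℤ) : ℝ), ((γ 0 1 : ℤ) : ℝ); ((γ 1 0 : ℤ) : ℝ), ((γ 1 1 : ℤ) : ℝ)] := by
  ext i j
  fin_cases i <;> fin_cases j <;> simp

/-- the Fricke matrix `[[0,-1],[p,0]]` -/
def frW (p : ℕ) : GL (Fin 2) ℝ := (S : GL (Fin 2) ℝ) * heckeDiagMatrix p

theorem val_frW {p : ℕ} (hp : p ≠ 0) :
    ((frW p : GL (Fin 2) ℝ) : Matrix (Fin 2) (Fin 2) ℝ) = !![0, -1; (p : ℝ), 0] := by
  rw [frW, Units.val_mul, val_heckeDiagMatrix hp, val_coeGL, coe_S]
  ext i j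
  fin_cases i <;> fin_cases j <;> simp [Matrix.mul_apply, Fin.sum_univ_two]

theorem coe_ST_pow (j : ℕ) : ((S * T ^ j : SL(2, ℤ)) : Matrix (Fin 2) (Fin 2) ℤ) = !![0, -1; 1, (j : ℤ)] := by
  rw [Matrix.SpecialLinearGroup.coe_mul, coe_S, ← zpow_natCast, coe_T_zpow]
  ext i k
  fin_cases i <;> fin_cases k <;> simp [Matrix.mul_apply, Fin.sum_univ_two]

theorem coe_SS : ((S * S : SL(2, ℤ)) : Matrix (Fin 2) (Fin 2) ℤ) = !![-1, 0; 0, -1] := by
  rw [Matrix.SpecialLinearGroup.coe_mul, coe_S]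
  ext i k
  fin_cases i <;> fin_cases k <;> simp [Matrix.mul_apply, Fin.sum_univ_two]

/-- (M2) -/
theorem frW_mul_ST {p : ℕ} (hp : p ≠ 0) (j : ℕ) :
    frW p * ((S * T ^ j : SL(2, ℤ)) : GL (Fin 2) ℝ) =
      ((S * S : SL(2, ℤ)) : GL (Fin 2) ℝ) * heckeMatrix p j := by
  apply Units.ext
  rw [Units.val_mul, Units.val_mul, val_frW hp, val_heckeMatrix hp, val_coeGL, val_coeGL,
    coe_ST_pow, coe_SS]
  ext i k
  fin_cases i <;> fin_cases k <;>
    simp [Matrix.mul_apply, Fin.sum_univ_two]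

/-- the scalar matrix `p` -/
def scal (p : ℕ) : GL (Fin 2) ℝ :=
  if hp : p = 0 then 1 else upperTriangularGL p 0 p (by
    have : (p : ℝ) ≠ 0 := by exact_mod_cast hp
    exact mul_ne_zero this this)

theorem val_scal {p : ℕ} (hp : p ≠ 0) :
    ((scal p : GL (Fin 2) ℝ) : Matrix (Fin 2) (Fin 2) ℝ) = !![(p : ℝ), 0; 0, (p : ℝ)] := by
  simp [scal, hp]

/-- (M3) -/
theorem ST_mul_scal {p : ℕ} (hp : p ≠ 0) (j : ℕ) :
    ((S * T ^ j : SL(2, ℤ)) : GL (Fin 2) ℝ) * scal p = frW p * heckeMatrix p j := by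
  apply Units.ext
  rw [Units.val_mul, Units.val_mul, val_frW hp, val_heckeMatrix hp, val_coeGL, val_scal hp,
    coe_ST_pow]
  ext i k
  fin_cases i <;> fin_cases k <;>
    simp [Matrix.mul_apply, Fin.sum_univ_two, mul_comm]

/-- the conjugate of `γ ∈ Γ₀(p)` by the Fricke matrix -/
theorem exists_conj {p : ℕ} (hp : p ≠ 0) (γ : SL(2, ℤ)) (hγ : γ ∈ Gamma0 p) :
    ∃ γ' : SL(2, ℤ), γ' ∈ Gamma0 p ∧ frW p * (γ : GL (Fin 2) ℝ) = (γ' : GL (Fin 2) ℝ) * frW p := by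
  have hc : (p : ℤ) ∣ γ 1 0 := by
    rw [Gamma0_mem] at hγ
    exact (ZMod.intCast_zmod_eq_zero_iff_dvd _ _).mp hγ
  obtain ⟨c, hc⟩ := hc
  have hdet := Matrix.SpecialLinearGroup.det_coe γ
  rw [Matrix.det_fin_two] at hdet
  obtain ⟨γ', hγ'⟩ : ∃ γ' : SL(2, ℤ),
      (γ' : Matrix (Fin 2) (Fin 2) ℤ) = !![γ 1 1, -c; -(p * γ 0 1), γ 0 0] :=
    ⟨⟨!![γ 1 1, -c; -(p * γ 0 1), γ 0 0], by
      rw [Matrix.det_fin_two_of]
      rw [hc] at hdet
      linear_combination hdet⟩, rfl⟩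
  refine ⟨γ', ?_, ?_⟩
  · rw [Gamma0_mem, hγ']
    simp
  · apply Units.ext
    rw [Units.val_mul, Units.val_mul, val_frW hp, val_coeGL, val_coeGL, hγ']
    ext i k
    fin_cases i <;> fin_cases k <;>
      simp [Matrix.mul_apply, Fin.sum_univ_two, hc, mul_comm]

theorem slash_scal {p : ℕ} (hp : p ≠ 0) (f : ℍ → ℂ) : f ∣[(2 : ℤ)] scal p = f := by
  have hp' : (p : ℂ) ≠ 0 := by exact_mod_cast hp
  have hpR : (0 : ℝ) < p := by exact_mod_cast Nat.pos_of_ne_zero hp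
  have hdet : ((scal p).det : ℝ) = p * p := by
    rw [Matrix.GeneralLinearGroup.val_det_apply, val_scal hp, Matrix.det_fin_two_of]; ring
  have hpos : 0 < ((scal p).det : ℝ) := by rw [hdet]; positivity
  funext τ
  have hσ : UpperHalfPlane.σ (scal p) = .refl ℝ ℂ := by rw [UpperHalfPlane.σ, if_pos hpos]
  have hden : UpperHalfPlane.denom (scal p) τ = p := by
    simp [UpperHalfPlane.denom, val_scal hp]
  have hsm : scal p • τ = τ := by
    apply UpperHalfPlane.ext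
    rw [UpperHalfPlane.coe_smul_of_det_pos hpos]
    simp [UpperHalfPlane.num, UpperHalfPlane.denom, val_scal hp]
    field_simp
  rw [ModularForm.slash_apply, hσ, hdet, hden, hsm]
  simp only [ContinuousAlgEquiv.refl_apply]
  have : |(p : ℝ) * p| = p * p := abs_of_pos (by positivity)
  rw [this]
  push_cast
  norm_num
  field_simp

/-- a rational model of the Fricke matrix times an element of `SL(2,ℤ)` -/
theorem exists_rat {p : ℕ} (hp : p ≠ 0) (γ : SL(2, ℤ)) :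
    ∃ A : GL (Fin 2) ℚ, frW p * (γ : GL (Fin 2) ℝ) =
      Matrix.GeneralLinearGroup.map (Rat.castHom ℝ) A := by
  have hdet := Matrix.SpecialLinearGroup.det_coe γ
  rw [Matrix.det_fin_two] at hdet
  have hdetQ : ((γ 0 0 : ℤ) : ℚ) * ((γ 1 1 : ℤ) : ℚ) - ((γ 0 1 : ℤ) : ℚ) * ((γ 1 0 : ℤ) : ℚ) = 1 := by
    exact_mod_cast hdet
  have hpQ : (p : ℚ) ≠ 0 := by exact_mod_cast hp
  refine ⟨Matrix.GeneralLinearGroup.mkOfDetNeZero
    !![-((γ 1 0 : ℤ) : ℚ), -((γ 1 1 : ℤ) : ℚ); (p : ℚ) * ((γ 0 0 : ℤ) : ℚ), (p : ℚ) * ((γ 0 1 : ℤ) : ℚ)] ?_, ?_⟩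
  · rw [Matrix.det_fin_two_of]
    have : -((γ 1 0 : ℤ) : ℚ) * ((p : ℚ) * ((γ 0 1 : ℤ) : ℚ)) -
        -((γ 1 1 : ℤ) : ℚ) * ((p : ℚ) * ((γ 0 0 : ℤ) : ℚ)) = p := by
      linear_combination (p : ℚ) * hdetQ
    rw [this]
    exact hpQ
  · apply Units.ext
    rw [Units.val_mul, val_frW hp, val_coeGL]
    ext i k
    fin_cases i <;> fin_cases k <;>
      simp [Matrix.mul_apply, Fin.sum_univ_two, Matrix.GeneralLinearGroup.mkOfDetNeZero]

variable {p : ℕ} [Fact p.Prime]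

theorem isG0_fricke (g : ModularForm (Gamma0 p) 2) : IsG0 p 2 ((g : ℍ → ℂ) ∣[(2 : ℤ)] frW p) := by
  have hp : p ≠ 0 := (Fact.out : p.Prime).ne_zero
  have : NeZero p := ⟨hp⟩
  refine ⟨fun γ hγ => ?_, ?_, fun γ => ?_⟩
  · obtain ⟨γ', hγ', h⟩ := exists_conj hp γ hγ
    rw [SL_slash, ← SlashAction.slash_mul, h, SlashAction.slash_mul, ← SL_slash,
      (isG0_of_modularForm g).inv γ' hγ']
  · rw [← ModularForm.coe_translate]
    exact (ModularForm.translate g (frW p)).holo'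
  · obtain ⟨A, hA⟩ := exists_rat hp γ
    rw [SL_slash, ← SlashAction.slash_mul, hA]
    have h := P2MW.S_ModularFormClass_isBoundedAt_heckeU.ModularForm.S06W2.isBoundedAt_slash_ratCast
      g A (c := OnePoint.infty) Fact.out
    have h1 := h 1 (by simp)
    simpa using h1

theorem levelOne_two_eq_zero (F : ModularForm 𝒮ℒ 2) : F = 0 :=
  rank_zero_iff_forall_zero.mp levelOne_weight_two_rank_zero F

theorem trFun_eq_zero {f : ℍ → ℂ} (hf : IsG0 p 2 f) : trFun p 2 f = 0 := by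
  obtain ⟨F, hF⟩ := exists_trForm hf
  rw [← hF, levelOne_two_eq_zero F]
  rfl

theorem SS_mem (p : ℕ) : (S * S : SL(2, ℤ)) ∈ Gamma0 p := by
  rw [Gamma0_mem, coe_SS]
  simp

theorem cj_fricke (g : ModularForm (Gamma0 p) 2) (j : ℕ) :
    cj 2 ((g : ℍ → ℂ) ∣[(2 : ℤ)] frW p) j = (g : ℍ → ℂ) ∣[(2 : ℤ)] heckeMatrix p j := by
  have hp : p ≠ 0 := (Fact.out : p.Prime).ne_zero
  rw [cj, SL_slash, ← SlashAction.slash_mul, frW_mul_ST hp, SlashAction.slash_mul, ← SL_slash,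
    (isG0_of_modularForm g).inv _ (SS_mem p)]

theorem fricke_eq (g : ModularForm (Gamma0 p) 2) :
    (g : ℍ → ℂ) ∣[(2 : ℤ)] frW p = - heckeU 2 p g := by
  have h := trFun_eq_zero (isG0_fricke g)
  rw [trFun] at h
  simp only [cj_fricke] at h
  rw [← heckeU_def] at h
  exact eq_neg_of_add_eq_zero_left h

end FrickeAux

open FrickeAux in
/-- **U-B1** (T). -/
theorem cj_eq {p : ℕ} [Fact p.Prime] (g : ModularForm (Gamma0 p) 2) (j : ℕ) :
    cj 2 g j = -((heckeU 2 p g) ∣[(2 : ℤ)] heckeMatrix p j) := by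
  have hp : p ≠ 0 := (Fact.out : p.Prime).ne_zero
  rw [cj, ← slash_scal hp ((g : ℍ → ℂ) ∣[(2 : ℤ)] (S * T ^ j)), SL_slash, ← SlashAction.slash_mul,
    ST_mul_scal hp, SlashAction.slash_mul, fricke_eq, SlashAction.neg_slash]

open FrickeAux in
/-- **U-B2**  `U_p² g = g`, from `trFun p 2 g = 0` and `cj_eq`. -/
theorem coeff_mul_sq {p : ℕ} [Fact p.Prime] (g : ModularForm (Gamma0 p) 2) (n : ℕ) :
    (qExpansion 1 g).coeff (n * p * p) = (qExpansion 1 g).coeff n := by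
  have hp : p ≠ 0 := (Fact.out : p.Prime).ne_zero
  have : NeZero p := ⟨hp⟩
  have h := trFun_eq_zero (isG0_of_modularForm g)
  rw [trFun] at h
  simp only [cj_eq] at h
  rw [Finset.sum_neg_distrib, ← heckeU_def, add_neg_eq_zero] at h
  -- `g = U_p (U_p g)`
  have h1 := ModularFormClass.qCoeff_heckeU (ModularForm.heckeULin 2 (dvd_refl p) g)
    (CongruenceSubgroup.one_mem_strictPeriods_Gamma0 p) hp n
  have h2 := ModularFormClass.qCoeff_heckeU g
    (CongruenceSubgroup.one_mem_strictPeriods_Gamma0 p) hp (n * p)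
  rw [ModularForm.coe_heckeULin_apply, ← h, coeffHeckeU_apply, h2, coeffHeckeU_apply] at h1
  exact h1.symm

end Fermat.Agent.S16
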