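import Fermat.Agent.S16.Fricke
import Fermat.Agent.S16.Eis
import Fermat.Agent.S16.LevelOne
import Fermat.Agent.S16.Expand
import Fermat.Prelude.Thm_UpperHalfPlane_qCoeff_heckeU

/-!
# S16 / UPPER / U-E : Step 1, `(p+1) a₀(g) ∈ ℤ`   (helper9, board #220)
-/

set_option autoImplicit false

open UpperHalfPlane ModularForm EisensteinSeries CongruenceSubgroup ModularGroup
open scoped MatrixGroups Manifold

noncomputable section

namespace Fermat.Agent.S16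

open Fermat.Agent.S24

/-- **U-E1a**.  `Tr(g h) = g h + p⁻¹ U_p((U_p g)(U_p h))` for `g, h` of weight two
(`cj_mul`, `cj_eq`, `slash_heckeMatrix_apply`). -/
theorem trFun_mul {p : ℕ} [Fact p.Prime] (g h : ModularForm (Gamma0 p) 2) :
    trFun p (2 + 2) ((g : ℍ → ℂ) * h) =
      (g : ℍ → ℂ) * h + (p : ℂ)⁻¹ • heckeU 4 p (heckeU 2 p g * heckeU 2 p h) := by
  have hp : p ≠ 0 := (Fact.out : p.Prime).ne_zero
  unfold trFun
  congr 1
  funext τ
  rw [Finset.sum_apply, Pi.smul_apply, heckeU_apply 4 hp, smul_eq_mul, Finset.mul_sum,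
    Finset.mul_sum]
  refine Finset.sum_congr rfl fun j _ => ?_
  rw [cj_mul, cj_eq, cj_eq, Pi.mul_apply, Pi.neg_apply, Pi.neg_apply,
    slash_heckeMatrix_apply 2 hp, slash_heckeMatrix_apply 2 hp, Pi.mul_apply]
  ring

/-- `U_p` of a form on `Γ₀(p)` has a `q`-expansion. -/
theorem isQ_heckeU {p : ℕ} [Fact p.Prime] {k : ℤ} (g : ModularForm (Gamma0 p) k) :
    IsQ (heckeU k p g) := by
  have : NeZero p := ⟨(Fact.out : p.Prime).ne_zero⟩
  exact isQ_of_modularForm_Gamma0 (heckeULin k (dvd_refl p) g)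

/-- all coefficients of `Tr(g h)`. -/
theorem coeff_trFun_mul {p : ℕ} [Fact p.Prime] (g h : ModularForm (Gamma0 p) 2) (n : ℕ) :
    (qExpansion 1 (trFun p (2 + 2) ((g : ℍ → ℂ) * h))).coeff n =
      (∑ x ∈ Finset.HasAntidiagonal.antidiagonal n,
        (qExpansion 1 g).coeff x.1 * (qExpansion 1 h).coeff x.2) +
      (p : ℂ)⁻¹ * ∑ x ∈ Finset.HasAntidiagonal.antidiagonal (n * p),
        (qExpansion 1 g).coeff (x.1 * p) * (qExpansion 1 h).coeff (x.2 * p) := by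
  have hp : p ≠ 0 := (Fact.out : p.Prime).ne_zero
  have : NeZero p := ⟨hp⟩
  have hg : IsQ g := isQ_of_modularForm_Gamma0 g
  have hh : IsQ h := isQ_of_modularForm_Gamma0 h
  have hUg : IsQ (heckeU 2 p g) := isQ_heckeU g
  have hUh : IsQ (heckeU 2 p h) := isQ_heckeU h
  have hP : IsQ (heckeU 2 p g * heckeU 2 p h) := hUg.mul hUh
  have hUP : IsQ (heckeU 4 p (heckeU 2 p g * heckeU 2 p h)) :=
    isQ_heckeU ((heckeULin 2 (dvd_refl p) g).mul (heckeULin 2 (dvd_refl p) h))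
  have hU : ∀ (f : ℍ → ℂ), IsQ f → ∀ (k : ℤ) (m : ℕ),
      (qExpansion 1 (heckeU k p f)).coeff m = (qExpansion 1 f).coeff (m * p) := fun f hf k m =>
    UpperHalfPlane.qCoeff_heckeU hf.per hf.holo hf.bdd k hp m
  rw [trFun_mul, qExpansion_add (hg.mul hh).analytic, qExpansion_smul hUP.analytic,
    qExpansion_mul hg.analytic hh.analytic, map_add, PowerSeries.coeff_mul]
  · congr 1
    rw [PowerSeries.coeff_smul, smul_eq_mul, hU _ hP, qExpansion_mul hUg.analytic hUh.analytic,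
      PowerSeries.coeff_mul]
    congr 1
    refine Finset.sum_congr rfl fun x _ => ?_
    rw [hU _ hg, hU _ hh]
  · have h1 : (p : ℂ)⁻¹ • heckeU 4 p (heckeU 2 p g * heckeU 2 p h) =
        (fun _ : ℍ => (p : ℂ)⁻¹) * heckeU 4 p (heckeU 2 p g * heckeU 2 p h) := by
      funext τ
      simp
    rw [h1]
    exact ((IsQ.const _).mul hUP).analytic

/-- **U-E1b**.  The coefficient identity coming from `Tr(g h) ∈ M₄(SL₂ℤ) = ℂ E₄`. -/
theorem coeff_identity {p : ℕ} [Fact p.Prime] (g h : ModularForm (Gamma0 p) 2) (n : ℕ)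
    (hn : 1 ≤ n) :
    (∑ x ∈ Finset.HasAntidiagonal.antidiagonal n, (qExpansion 1 g).coeff x.1 * (qExpansion 1 h).coeff x.2) +
      (p : ℂ)⁻¹ * ∑ x ∈ Finset.HasAntidiagonal.antidiagonal (n * p),
        (qExpansion 1 g).coeff (x.1 * p) * (qExpansion 1 h).coeff (x.2 * p) =
    ((qExpansion 1 g).coeff 0 * (qExpansion 1 h).coeff 0 +
      (p : ℂ)⁻¹ * ((qExpansion 1 g).coeff 0 * (qExpansion 1 h).coeff 0)) *
      (240 * (ArithmeticFunction.sigma 3 n : ℂ)) := by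
  obtain ⟨F, hF⟩ := exists_trForm (p := p) ((isG0_of_modularForm g).mul (isG0_of_modularForm h))
  have h4 := levelOne_weight_four F n hn
  rw [hF, coeff_trFun_mul, coeff_trFun_mul] at h4
  simpa using h4

namespace Step1Aux

/-- the integers inside `ℂ` -/
def ZC : Subring ℂ := (Int.castRingHom ℂ).range

theorem mem_ZC {x : ℂ} : x ∈ ZC ↔ ∃ n : ℤ, x = n := by
  constructor
  · rintro ⟨n, rfl⟩; exact ⟨n, rfl⟩
  · rintro ⟨n, rfl⟩; exact ⟨n, rfl⟩

theorem intCast_mem (n : ℤ) : (n : ℂ) ∈ ZC := ⟨n, rfl⟩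

theorem natCast_mem' (n : ℕ) : (n : ℂ) ∈ ZC := ⟨n, by simp⟩

/-- splitting off the two end terms of a convolution sum -/
theorem conv_split (A E : ℕ → ℂ) (hA : ∀ k, 1 ≤ k → A k ∈ ZC) (hE : ∀ k, 1 ≤ k → E k ∈ ZC)
    (N : ℕ) (hN : 1 ≤ N) :
    ∃ r ∈ ZC, ∑ x ∈ Finset.HasAntidiagonal.antidiagonal N, A x.1 * E x.2 =
      A 0 * E N + A N * E 0 + r := by
  obtain ⟨M, rfl⟩ : ∃ M, N = M + 1 := ⟨N - 1, by omega⟩
  refine ⟨∑ k ∈ Finset.range M, A (k + 1) * E (M + 1 - (k + 1)), ?_, ?_⟩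
  · refine Subring.sum_mem _ fun k hk => ?_
    have hk' := Finset.mem_range.mp hk
    exact Subring.mul_mem _ (hA _ (by omega)) (hE _ (by omega))
  · rw [Finset.Nat.sum_antidiagonal_eq_sum_range_succ_mk, Finset.sum_range_succ,
      Finset.sum_range_succ']
    simp only [Nat.sub_zero, Nat.sub_self]
    ring

theorem sq_sub_one_div (p : ℕ) (hp : p.Prime) (h5 : 5 ≤ p) : ∃ t : ℕ, p * p = 24 * t + 1 := by
  have h2 : ¬ 2 ∣ p := fun h => by
    have := (Nat.prime_dvd_prime_iff_eq Nat.prime_two hp).mp h; omega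
  have h3 : ¬ 3 ∣ p := fun h => by
    have := (Nat.prime_dvd_prime_iff_eq Nat.prime_three hp).mp h; omega
  have h24 : (p * p) % 24 = 1 := by
    have hlt := Nat.mod_lt p (by norm_num : 0 < 24)
    rw [Nat.mul_mod]
    interval_cases h : p % 24 <;> omega
  exact ⟨p * p / 24, by omega⟩

theorem three_dvd (p : ℕ) (hp : p.Prime) (h5 : 5 ≤ p) :
    ∃ t : ℤ, ((p : ℤ) - 1) * ((p : ℤ) ^ 3 + 1) = 3 * t := by
  have h3 : ¬ 3 ∣ p := fun h => by
    have := (Nat.prime_dvd_prime_iff_eq Nat.prime_three hp).mp h; omega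
  have : p % 3 = 1 ∨ p % 3 = 2 := by omega
  rcases this with h | h
  · obtain ⟨q, hq⟩ : ∃ q : ℕ, p = 3 * q + 1 := ⟨p / 3, by omega⟩
    refine ⟨q * ((p : ℤ) ^ 3 + 1), ?_⟩
    rw [hq]; push_cast; ring
  · obtain ⟨q, hq⟩ : ∃ q : ℕ, p = 3 * q + 2 := ⟨p / 3, by omega⟩
    refine ⟨((p : ℤ) - 1) * (9 * q ^ 3 + 18 * q ^ 2 + 12 * q + 3), ?_⟩
    rw [hq]; push_cast; ring

end Step1Aux

open Step1Aux in
/-- **U-E2**.  Pure arithmetic.  Multiply `H n` by `p`: with `X = (p+1) a₀`,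
`X (σ'(n) - 10 (p-1) σ₃(n)) ∈ ℤ` (use `a (n p²) = a n`, `σ'(np) = σ'(n)`, `(p²-1)/24 ∈ ℤ`).
`n = 1, 2, p`: `X (11 - 10p)`, `X (93 - 90p)`, `X (1 - 10 (p-1)(p³+1)) ∈ ℤ`;
`9 (11-10p) - (93-90p) = 6`, `11 - 10p` is odd, `1 - 10(p-1)(p³+1) ≡ 1 mod 3`. -/
theorem step1_arith (p : ℕ) (hp : p.Prime) (h5 : 5 ≤ p) (a e : ℕ → ℂ)
    (ha : ∀ k, 1 ≤ k → ∃ n : ℤ, a k = n) (hsq : ∀ n, a (n * p * p) = a n)
    (he0 : e 0 = ((p : ℂ) - 1) / 24) (he : ∀ n, 1 ≤ n → e n = sigmaP p n)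
    (H : ∀ n, 1 ≤ n → (∑ x ∈ Finset.HasAntidiagonal.antidiagonal n, a x.1 * e x.2) +
      (p : ℂ)⁻¹ * ∑ x ∈ Finset.HasAntidiagonal.antidiagonal (n * p), a (x.1 * p) * e (x.2 * p) =
      (a 0 * e 0 + (p : ℂ)⁻¹ * (a 0 * e 0)) * (240 * (ArithmeticFunction.sigma 3 n : ℂ))) :
    ∃ n : ℤ, ((p : ℂ) + 1) * a 0 = n := by
  rw [← mem_ZC]
  have hp0 : (p : ℂ) ≠ 0 := Nat.cast_ne_zero.mpr hp.ne_zero
  have hpos : 1 ≤ p := hp.one_le
  have haZ : ∀ k, 1 ≤ k → a k ∈ ZC := fun k hk => mem_ZC.mpr (ha k hk)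
  have heZ : ∀ k, 1 ≤ k → e k ∈ ZC := fun k hk => by rw [he k hk]; exact natCast_mem' _
  obtain ⟨t, ht⟩ := sq_sub_one_div p hp h5
  have htC : ((p : ℂ) + 1) * (((p : ℂ) - 1) / 24) = t := by
    have : (p : ℂ) * p = 24 * t + 1 := by exact_mod_cast ht
    field_simp
    linear_combination this
  -- the key integrality
  have key : ∀ n, 1 ≤ n → ((p : ℂ) + 1) * a 0 *
      ((sigmaP p n : ℂ) - 10 * ((p : ℂ) - 1) * (ArithmeticFunction.sigma 3 n : ℂ)) ∈ ZC := by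
    intro n hn
    obtain ⟨r1, hr1, h1⟩ := conv_split a e haZ heZ n hn
    obtain ⟨r2, hr2, h2⟩ := conv_split (fun k => a (k * p)) (fun k => e (k * p))
      (fun k hk => haZ _ (Nat.mul_pos hk hpos)) (fun k hk => heZ _ (Nat.mul_pos hk hpos))
      (n * p) (Nat.mul_pos hn hpos)
    have hH := H n hn
    rw [h1, h2] at hH
    simp only [zero_mul] at hH
    rw [hsq n, he (n * p * p) (Nat.mul_pos (Nat.mul_pos hn hpos) hpos), sigmaP_mul_self hp,
      sigmaP_mul_self hp, he n hn, he0] at hH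
    have : ((p : ℂ) + 1) * a 0 *
      ((sigmaP p n : ℂ) - 10 * ((p : ℂ) - 1) * (ArithmeticFunction.sigma 3 n : ℂ)) =
        - (a n * t + p * r1 + r2) := by
      rw [← htC]
      field_simp at hH ⊢
      linear_combination hH
    rw [this]
    exact Subring.neg_mem _ (Subring.add_mem _ (Subring.add_mem _
      (Subring.mul_mem _ (haZ n hn) (natCast_mem' t)) (Subring.mul_mem _ (natCast_mem' p) hr1)) hr2)
  have k1 := key 1 le_rfl
  have k2 := key 2 (by norm_num)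
  have k3 := key p hpos
  rw [sigmaP_one hp] at k1
  rw [sigmaP_two p (by omega)] at k2
  rw [sigmaP_self p hp] at k3
  have s1 : ArithmeticFunction.sigma 3 1 = 1 := by simp
  have s2 : ArithmeticFunction.sigma 3 2 = 9 := by decide
  have s3 : ArithmeticFunction.sigma 3 p = p ^ 3 + 1 := by
    rw [ArithmeticFunction.sigma_apply, hp.sum_divisors]; simp [add_comm]
  rw [s1] at k1
  rw [s2] at k2
  rw [s3] at k3
  obtain ⟨l, hl⟩ := three_dvd p hp h5
  have hlC : ((p : ℂ) - 1) * ((p : ℂ) ^ 3 + 1) = 3 * l := by exact_mod_cast hl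
  set X := ((p : ℂ) + 1) * a 0 with hX
  push_cast at k1 k2 k3
  -- 6 X
  have h6 : 6 * X ∈ ZC := by
    have : 6 * X = 9 * (X * (1 - 10 * ((p : ℂ) - 1) * 1)) - X * (3 - 10 * ((p : ℂ) - 1) * 9) := by
      ring
    rw [this]
    exact Subring.sub_mem _ (Subring.mul_mem _ (by exact_mod_cast natCast_mem' 9) k1) k2
  have h3 : 3 * X ∈ ZC := by
    have : 3 * X = 3 * (X * (1 - 10 * ((p : ℂ) - 1) * 1)) + (5 * (p : ℂ) - 5) * (6 * X) := by
      ring
    rw [this]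
    refine Subring.add_mem _ (Subring.mul_mem _ (by exact_mod_cast natCast_mem' 3) k1)
      (Subring.mul_mem _ ?_ h6)
    exact Subring.sub_mem _ (Subring.mul_mem _ (by exact_mod_cast natCast_mem' 5) (natCast_mem' p))
      (by exact_mod_cast natCast_mem' 5)
  have : X = X * (1 - 10 * ((p : ℂ) - 1) * ((p : ℂ) ^ 3 + 1)) + 10 * l * (3 * X) := by
    linear_combination (10 * X) * hlC
  rw [this]
  exact Subring.add_mem _ k3 (Subring.mul_mem _
    (Subring.mul_mem _ (by exact_mod_cast natCast_mem' 10) (intCast_mem l)) h3)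

/-- **Step 1**. -/
theorem step1 {p : ℕ} [Fact p.Prime] (h5 : 5 ≤ p) (g : ModularForm (Gamma0 p) 2)
    (hg : ∀ k, 1 ≤ k → ∃ n : ℤ, (qExpansion 1 g).coeff k = n) :
    ∃ n : ℤ, ((p : ℂ) + 1) * (qExpansion 1 g).coeff 0 = n :=
  step1_arith p Fact.out h5 (fun n => (qExpansion 1 g).coeff n)
    (fun n => (qExpansion 1 (Eis p)).coeff n) hg (coeff_mul_sq g) (coeff_zero_Eis p)
    (coeff_Eis p) (fun n hn => coeff_identity g (Eis p) n hn)

end Fermat.Agent.S16
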